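import Fermat.Agent.Gamma1.HeckeAPI
import Fermat.Agent.Gamma1.RepAPI
import Mathlib.NumberTheory.LSeries.PrimesInAP

/-!
# The representation attached to an eigensystem

Main result `exists_rep_of_action`: given an action of `Γℚ` on the characters of order `ℓ` which
factors through a number field, commutes with the operators and satisfies the congruence
relation, a mod `ℓ` eigensystem of weight two has a semisimple two-dimensional representation
with the expected traces and determinants. The eigen subgroup is nonzero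
(`exists_ne_zero_eigChr`), is stable under the action, and the pseudo-representation argument
of `Gamma1/RepAPI` applies to it.
-/

set_option autoImplicit false
set_option linter.style.haveILetI false

noncomputable section

open CongruenceSubgroup
open scoped MatrixGroups ModularForm

local notation "Γℚ" => (AlgebraicClosure ℚ ≃ₐ[ℚ] AlgebraicClosure ℚ)

namespace FLTAgent.Gamma1.Lv

/-- A weight two form with nebentypus has an even character. -/
theorem nebentypus_neg_one {M : ℕ} {χ : DirichletCharacter ℂ M} {F : UpperHalfPlane → ℂ}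
    (hF : DS.HasNebentypus 2 χ F) (h0 : F ≠ 0) : χ (-1) = 1 := by
  have hmem : (-1 : SL(2, ℤ)) ∈ Gamma0 M := by
    rw [Gamma0_mem]
    simp
  have h := hF (-1) hmem
  obtain ⟨z, hz⟩ := Function.ne_iff.mp h0
  have h1 := congrFun h z
  have h11 : (((-1 : SL(2, ℤ)) 1 1 : ℤ) : ZMod M) = -1 := by simp
  rw [h11, Pi.smul_apply, smul_eq_mul, ModularForm.SL_slash_apply] at h1
  have hden : UpperHalfPlane.denom (Matrix.SpecialLinearGroup.toGL
      ((Matrix.SpecialLinearGroup.map (Int.castRingHom ℝ)) (-1 : SL(2, ℤ)))) z = -1 := by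
    simp [UpperHalfPlane.denom]
  rw [hden, show (-1 : SL(2, ℤ)) • z = z by simp] at h1
  norm_num at h1
  exact (mul_left_eq_self₀.mp h1.symm).resolve_right hz

variable {M ℓ : ℕ} [NeZero M]

theorem opMap_mem_chr (P : FreeAlgebra ℤ (OpIndex M)) {φ : Additive (Gamma M) →+ Additive ℂˣ}
    (hφ : φ ∈ Chr M ℓ) : opMap M (Additive ℂˣ) P φ ∈ Chr M ℓ := by
  induction P using FreeAlgebra.induction generalizing φ with
  | grade0 r =>
    rw [AlgHom.commutes, Module.algebraMap_end_apply]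
    exact AddSubgroup.zsmul_mem _ hφ r
  | grade1 x =>
    rw [opMap, FreeAlgebra.lift_ι_apply]
    obtain ⟨⟨p, hp, hpM⟩, _ | _⟩ := x
    · exact conjLin_mem_chr hφ _
    · exact heckeHom_mem_chr hφ hp hpM
  | mul P Q hP hQ =>
    rw [map_mul, Module.End.mul_apply]
    exact hP (hQ hφ)
  | add P Q hP hQ =>
    rw [map_add, LinearMap.add_apply]
    exact add_mem (hP hφ) (hQ hφ)

theorem act_opMap (act : Γℚ →* AddMonoid.End (Chr M ℓ))
    (hcomm : ∀ (σ : Γℚ) (i : OpIndex M) (φ ψ : Chr M ℓ),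
      opGen M (Additive ℂˣ) i φ.1 = ψ.1 → opGen M (Additive ℂˣ) i (act σ φ).1 = (act σ ψ).1)
    (σ : Γℚ) (P : FreeAlgebra ℤ (OpIndex M)) :
    ∀ φ : Chr M ℓ, opMap M (Additive ℂˣ) P (act σ φ).1 =
      (act σ ⟨_, opMap_mem_chr P φ.2⟩).1 := by
  induction P using FreeAlgebra.induction with
  | grade0 r =>
    intro φ
    have hr : ∀ ψ : Additive (Gamma M) →+ Additive ℂˣ,
        opMap M (Additive ℂˣ) (algebraMap ℤ (FreeAlgebra ℤ (OpIndex M)) r) ψ = r • ψ := fun ψ => by
      rw [AlgHom.commutes, Module.algebraMap_end_apply]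
    rw [hr, show (⟨_, opMap_mem_chr _ φ.2⟩ : Chr M ℓ) = r • φ from Subtype.ext (hr φ.1), map_zsmul,
      AddSubgroup.coe_zsmul]
  | grade1 x =>
    intro φ
    have hx : opMap M (Additive ℂˣ) (FreeAlgebra.ι ℤ x) = opGen M (Additive ℂˣ) x :=
      FreeAlgebra.lift_ι_apply _ _
    exact (LinearMap.congr_fun hx _).trans
      (hcomm σ x φ _ (LinearMap.congr_fun hx φ.1).symm)
  | mul P Q hP hQ =>
    intro φ
    have h1 : ∀ ψ, opMap M (Additive ℂˣ) (P * Q) ψ =
        opMap M (Additive ℂˣ) P (opMap M (Additive ℂˣ) Q ψ) := fun ψ => by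
      rw [map_mul, Module.End.mul_apply]
    refine (h1 _).trans ((congrArg (opMap M (Additive ℂˣ) P) (hQ φ)).trans ((hP _).trans ?_))
    exact congrArg (fun w => (act σ w).1) (Subtype.ext (h1 φ.1).symm)
  | add P Q hP hQ =>
    intro φ
    have h1 : ∀ ψ, opMap M (Additive ℂˣ) (P + Q) ψ =
        opMap M (Additive ℂˣ) P ψ + opMap M (Additive ℂˣ) Q ψ := fun ψ => by
      rw [map_add, LinearMap.add_apply]
    refine (h1 _).trans ?_
    rw [hP φ, hQ φ, ← AddSubgroup.coe_add, ← map_add]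
    exact congrArg (fun w => (act σ w).1) (Subtype.ext (h1 φ.1).symm)

set_option maxHeartbeats 1000000 in
/-- The representation, given the action on the characters and the congruence relation. -/
theorem exists_rep_of_action {n M' : ℕ} [NeZero M'] (h : IsLevel n M) (hM' : M' ∣ M)
    [Fact ℓ.Prime] (hℓ : ℓ ≠ 2) (hℓM : ℓ ∣ M')
    {k : Type} [Field k] [Finite k] [CharP k ℓ]
    (R : Subring ℂ) (φ : R →+* k) (χ : DirichletCharacter ℂ M') (χR : ℕ → R)
    (hχR : ∀ m : ℕ, (χR m : ℂ) = χ (m : ZMod M'))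
    (F : CuspForm (Gamma1 M') 2) (hF : DS.HasNebentypus 2 χ ⇑F) (A : ℕ → R)
    (hA : ∀ m : ℕ, (A m : ℂ) = ModularFormClass.qCoeff F m) (hA1 : φ (A 1) = 1) (a : ℕ → k)
    (heig : ∀ p : ℕ, p.Prime → ¬ p ∣ M → ∀ m : ℕ,
      φ (A (p * m)) + φ (χR p) * (p : k) * (if p ∣ m then φ (A (m / p)) else 0) =
        a p * φ (A m))
    (act : Γℚ →* AddMonoid.End (Chr M ℓ))
    (hfin : ∃ L : IntermediateField ℚ (AlgebraicClosure ℚ), FiniteDimensional ℚ L ∧
      ∀ σ : Γℚ, (∀ x ∈ L, σ x = x) → act σ = 1)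
    (hcomm : ∀ (σ : Γℚ) (i : OpIndex M) (φ ψ : Chr M ℓ),
      opGen M (Additive ℂˣ) i φ.1 = ψ.1 → opGen M (Additive ℂˣ) i (act σ φ).1 = (act σ ψ).1)
    (hrel : ∀ p : ℕ, p.Prime → ¬ p ∣ M →
      ∀ P : ValuationSubring (AlgebraicClosure ℚ), P.LiesOverPrime p →
        (∀ σ ∈ P.inertiaSubgroupIn ℚ, act σ = 1) ∧
        ∀ σ : Γℚ, P.IsFrobeniusAt σ p → ∀ φ : Chr M ℓ,
          heckeHom M p φ.1 = (act σ φ).1 + p • conjLin (dia M p) (act σ⁻¹ φ).1) :
    ∃ ρ : Γℚ →* GL (Fin 2) k, GaloisFactorsThroughFiniteLevel ρ ∧ DS.SemisimpleTwo ρ ∧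
      ∀ p : ℕ, p.Prime → ¬ p ∣ M →
        ∀ P : ValuationSubring (AlgebraicClosure ℚ), P.LiesOverPrime p →
          (∀ σ ∈ P.inertiaSubgroupIn ℚ, ρ σ = 1) ∧
          ∀ σ : Γℚ, P.IsFrobeniusAt σ p →
            ((ρ σ : GL (Fin 2) k) : Matrix (Fin 2) (Fin 2) k).trace = a p ∧
            ((ρ σ : GL (Fin 2) k) : Matrix (Fin 2) (Fin 2) k).det = φ (χR p) * (p : k) := by
  classical
  haveI : NeZero ℓ := ⟨(Fact.out : ℓ.Prime).ne_zero⟩
  set c : ℕ → k := fun p => φ (χR p) with hc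
  obtain ⟨ψ₀, hψ₀, hψ₀0⟩ := exists_ne_zero_eigChr h hM' hℓM R φ χ χR hχR F hF A hA hA1 a heig
  -- the module
  let V : AddSubgroup (Additive (Gamma M) →+ Additive ℂˣ) := EigChr M ℓ a c
  haveI : Finite (Chr M ℓ) := chr_finite
  haveI : Finite V := Finite.of_injective (fun v : V => (⟨v.1, v.2.1⟩ : Chr M ℓ))
    fun v w h => Subtype.ext (congrArg Subtype.val h :)
  haveI : Nontrivial V := ⟨⟨⟨ψ₀, hψ₀⟩, 0, fun h => hψ₀0 (congrArg Subtype.val h)⟩⟩
  have hVmem : ∀ (P : FreeAlgebra ℤ (OpIndex M)) (v : V), opMap M (Additive ℂˣ) P v.1 ∈ V := by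
    refine fun P v => ⟨opMap_mem_chr P v.2.1, fun Q hQ => ?_⟩
    rw [← Module.End.mul_apply, ← map_mul]
    exact v.2.2 _ (by rw [map_mul, hQ, zero_mul])
  let opV : FreeAlgebra ℤ (OpIndex M) →+* AddMonoid.End V :=
    { toFun := fun P =>
        { toFun := fun v => ⟨_, hVmem P v⟩
          map_zero' := Subtype.ext (map_zero _)
          map_add' := fun v w => Subtype.ext (map_add _ _ _) }
      map_one' := by
        ext v : 1
        exact Subtype.ext (by show opMap M (Additive ℂˣ) 1 v.1 = v.1; rw [map_one]; rfl)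
      map_mul' := fun P Q => by
        ext v : 1
        exact Subtype.ext (by show opMap M (Additive ℂˣ) (P * Q) v.1 = _; rw [map_mul]; rfl)
      map_zero' := by
        ext v : 1
        exact Subtype.ext (by show opMap M (Additive ℂˣ) 0 v.1 = 0; rw [map_zero]; rfl)
      map_add' := fun P Q => by
        ext v : 1
        exact Subtype.ext (by show opMap M (Additive ℂˣ) (P + Q) v.1 = _; rw [map_add]; rfl) }
  let f : FreeAlgebra ℤ (OpIndex M) →+* k := (eigMap M a c).toRingHom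
  let k₀ : Subfield k :=
    { f.range with
      inv_mem' := fun x hx => by
        rcases eq_or_ne x 0 with rfl | hx0
        · rw [inv_zero]; exact zero_mem f.range
        · haveI := Fintype.ofFinite k
          have h1 : x * x ^ (Fintype.card k - 2) = 1 := by
            rw [← pow_succ', show Fintype.card k - 2 + 1 = Fintype.card k - 1 by
              have := Fintype.one_lt_card (α := k); omega]
            exact FiniteField.pow_card_sub_one_eq_one x hx0
          rw [inv_eq_of_mul_eq_one_right h1]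
          exact f.range.pow_mem hx _ }
  let g : FreeAlgebra ℤ (OpIndex M) →+* k₀ := f.codRestrict k₀ fun x => ⟨x, rfl⟩
  have hgs : Function.Surjective g := by
    rintro ⟨y, x, rfl⟩
    exact ⟨x, rfl⟩
  haveI : Finite k₀ := Subtype.finite
  haveI : CharP k₀ ℓ := RingHom.charP k₀.subtype Subtype.val_injective ℓ
  have hker : RingHom.ker g ≤ RingHom.ker opV := by
    intro P hP
    refine RingHom.mem_ker.mpr ?_
    ext v : 1
    exact Subtype.ext (v.2.2 P (congrArg Subtype.val (RingHom.mem_ker.mp hP)))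
  let sc : k₀ →+* AddMonoid.End V :=
    g.liftOfSurjective hgs ⟨opV, hker⟩
  have hsc : ∀ P, sc (g P) = opV P := fun P =>
    RingHom.liftOfRightInverse_comp_apply _ _
      (Function.rightInverse_surjInv hgs) ⟨opV, hker⟩ P
  letI : Module k₀ V := Module.compHom V sc
  have hsmul : ∀ (P : FreeAlgebra ℤ (OpIndex M)) (v : V),
      ((g P • v : V) : Additive (Gamma M) →+ Additive ℂˣ) =
        opMap M (Additive ℂˣ) P v.1 := fun P v => by
    show ((sc (g P) v : V) : Additive (Gamma M) →+ Additive ℂˣ) = _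
    rw [hsc]
    rfl
  -- the action
  have hactV : ∀ (σ : Γℚ) (v : V), (act σ ⟨v.1, v.2.1⟩).1 ∈ V := by
    refine fun σ v => ⟨(act σ _).2, fun P hP => ?_⟩
    rw [act_opMap act hcomm σ P,
      show (⟨_, opMap_mem_chr P v.2.1⟩ : Chr M ℓ) = 0 from Subtype.ext (v.2.2 P hP), map_zero]
    rfl
  let actV : Γℚ → AddMonoid.End V := fun σ =>
    { toFun := fun v => ⟨_, hactV σ v⟩
      map_zero' := Subtype.ext (by
        show (act σ (⟨0, zero_mem _⟩ : Chr M ℓ)).1 = 0
        rw [show (⟨0, zero_mem _⟩ : Chr M ℓ) = 0 from rfl, map_zero]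
        rfl)
      map_add' := fun v w => Subtype.ext (by
        show (act σ (⟨v.1, v.2.1⟩ + ⟨w.1, w.2.1⟩)).1 = _
        rw [map_add]
        rfl) }
  have hactval : ∀ σ (v : V), ((actV σ v : V) : Additive (Gamma M) →+ Additive ℂˣ) =
      (act σ ⟨v.1, v.2.1⟩).1 := fun _ _ => rfl
  have hone : ∀ v, actV 1 v = v := fun v => Subtype.ext (by
    rw [hactval, map_one]
    rfl)
  have hmul : ∀ σ τ v, actV (σ * τ) v = actV σ (actV τ v) := fun σ τ v => Subtype.ext (by
    rw [hactval, map_mul, hactval]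
    rfl)
  have hlin : ∀ (σ : Γℚ) (x : k₀) (v : V), actV σ (x • v) = x • actV σ v := by
    intro σ x v
    obtain ⟨P, rfl⟩ := hgs x
    refine Subtype.ext ?_
    rw [hsmul, hactval, hactval, act_opMap act hcomm σ P ⟨v.1, v.2.1⟩]
    exact congrArg (fun w => (act σ w).1) (Subtype.ext (hsmul P v))
  let π : Γℚ →* Module.End k₀ V :=
    { toFun := fun σ =>
        { toFun := actV σ
          map_add' := map_add (actV σ)
          map_smul' := hlin σ }
      map_one' := LinearMap.ext hone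
      map_mul' := fun σ τ => LinearMap.ext (hmul σ τ) }
  have hπval : ∀ σ (v : V), π σ v = actV σ v := fun _ _ => rfl
  have hπ1 : ∀ σ, act σ = 1 → π σ = 1 := fun σ h1 => LinearMap.ext fun v => Subtype.ext (by
    rw [hπval, hactval, h1]
    rfl)
  -- the character
  have hgen : ∀ (p : ℕ) (hp : p.Prime) (hpM : ¬ p ∣ M) (b : Bool),
      f (FreeAlgebra.ι ℤ (⟨p, hp, hpM⟩, b)) = eigGen a c ((⟨p, hp, hpM⟩, b) : OpIndex M) :=
    fun p hp hpM b => FreeAlgebra.lift_ι_apply _ _
  have hχcast : ∀ m m' : ℕ, (m : ZMod M) = m' → χR m = χR m' := fun m m' hm => Subtype.ext (by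
    rw [hχR, hχR, ← map_natCast (ZMod.castHom hM' (ZMod M')) m,
      ← map_natCast (ZMod.castHom hM' (ZMod M')) m', hm])
  have hmem : ∀ u : (ZMod M)ˣ, φ (χR (u : ZMod M).val) ∈ k₀ := by
    intro u
    obtain ⟨p, hpgt, hp, hpu⟩ := Nat.forall_exists_prime_gt_and_eq_mod u.isUnit M
    have hpM : ¬ p ∣ M := Nat.not_dvd_of_pos_of_lt (NeZero.pos M) hpgt
    refine ⟨FreeAlgebra.ι ℤ ((⟨p, hp, hpM⟩, false) : OpIndex M), ?_⟩
    rw [hgen p hp hpM]
    show φ (χR p) = _
    rw [hχcast p (u : ZMod M).val (by rw [hpu, ZMod.natCast_zmod_val])]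
  let χ₀ : (ZMod M)ˣ →* k₀ :=
    { toFun := fun u => ⟨_, hmem u⟩
      map_one' := Subtype.ext (by
        show φ (χR ((1 : (ZMod M)ˣ) : ZMod M).val) = 1
        rw [hχcast _ 1 (by rw [ZMod.natCast_zmod_val, Units.val_one, Nat.cast_one]),
          show χR 1 = 1 from Subtype.ext (by rw [hχR, Nat.cast_one, map_one, Subring.coe_one]),
          map_one])
      map_mul' := fun u w => Subtype.ext (by
        show φ (χR ((u * w : (ZMod M)ˣ) : ZMod M).val) =
          φ (χR (u : ZMod M).val) * φ (χR (w : ZMod M).val)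
        rw [hχcast _ ((u : ZMod M).val * (w : ZMod M).val) (by
            rw [ZMod.natCast_zmod_val, Nat.cast_mul, ZMod.natCast_zmod_val, ZMod.natCast_zmod_val,
              Units.val_mul]),
          ← map_mul]
        congr 1
        exact Subtype.ext (by rw [Subring.coe_mul, hχR, hχR, hχR, Nat.cast_mul, map_mul])) }
  have hF0 : (⇑F : UpperHalfPlane → ℂ) ≠ 0 := by
    intro h0
    have h1 : (A 1 : ℂ) = 0 := by
      rw [hA, ModularFormClass.qCoeff, h0, UpperHalfPlane.qExpansion_zero, map_zero]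
    rw [show A 1 = 0 from Subtype.ext h1, map_zero] at hA1
    exact zero_ne_one hA1
  have hodd : χ₀.toHomUnits (-1) = 1 := by
    refine Units.ext (Subtype.ext ?_)
    show φ (χR ((-1 : (ZMod M)ˣ) : ZMod M).val) = 1
    rw [show χR ((-1 : (ZMod M)ˣ) : ZMod M).val = 1 from Subtype.ext (by
      rw [hχR, Subring.coe_one, ← map_natCast (ZMod.castHom hM' (ZMod M')), ZMod.natCast_zmod_val,
        Units.val_neg, Units.val_one, map_neg, map_one, nebentypus_neg_one hF hF0]), map_one]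
  let a₀ : ℕ → k₀ := fun p =>
    if hp : p.Prime ∧ ¬ p ∣ M then g (FreeAlgebra.ι ℤ ((⟨p, hp⟩, true) : OpIndex M))
    else 0
  obtain ⟨L, hL, hL1⟩ := hfin
  obtain ⟨ρ, hρL, hss, hρ⟩ := exists_rep_of_module (M := M) (ℓ := ℓ) hℓ (hℓM.trans hM') k₀.subtype π
    ⟨L, hL, fun σ hσ => hπ1 σ (hL1 σ hσ)⟩ χ₀.toHomUnits hodd a₀ (by
    intro p hp hpM P hP
    obtain ⟨hI, hFr⟩ := hrel p hp hpM P hP
    refine ⟨fun σ hσ => hπ1 σ (hI σ hσ), fun σ hσ => ?_⟩
    set u := ZMod.unitOfCoprime p ((Nat.Prime.coprime_iff_not_dvd hp).mpr hpM)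
    have ha : a₀ p = g (FreeAlgebra.ι ℤ ((⟨p, hp, hpM⟩, true) : OpIndex M)) :=
      dif_pos ⟨hp, hpM⟩
    have hd : ((χ₀.toHomUnits u : k₀ˣ) : k₀) =
        g (FreeAlgebra.ι ℤ ((⟨p, hp, hpM⟩, false) : OpIndex M)) := by
      refine Subtype.ext ?_
      rw [show ∀ x, ((g x : k₀) : k) = f x from fun _ => rfl, hgen p hp hpM]
      show φ (χR (u : ZMod M).val) = φ (χR p)
      rw [hχcast _ p (by rw [ZMod.natCast_zmod_val, ZMod.coe_unitOfCoprime])]
    have key : ∀ v : V, a₀ p • v =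
        π σ v + (((χ₀.toHomUnits u : k₀ˣ) : k₀) * (p : k₀)) • π σ⁻¹ v := by
      intro v
      refine Subtype.ext ?_
      rw [mul_comm, mul_smul, Nat.cast_smul_eq_nsmul, ha, hd, AddSubgroup.coe_add,
        AddSubgroup.coe_nsmul, hsmul, hsmul, opMap, FreeAlgebra.lift_ι_apply,
        FreeAlgebra.lift_ι_apply]
      exact hFr σ hσ ⟨v.1, v.2.1⟩
    have hinv : ∀ v, π σ (π σ⁻¹ v) = v := fun v => by
      rw [← Module.End.mul_apply, ← map_mul, mul_inv_cancel, map_one, Module.End.one_apply]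
    ext v : 1
    simp only [LinearMap.add_apply, LinearMap.sub_apply, Module.End.mul_apply,
      LinearMap.smul_apply, Module.End.one_apply, LinearMap.zero_apply]
    have h2 := congrArg (π σ) (key v)
    rw [map_smul, map_add, map_smul, hinv] at h2
    rw [h2]
    abel)
  refine ⟨ρ, hρL, hss, fun p hp hpM P hP => ⟨(hρ p hp hpM P hP).1, fun σ hσ => ?_⟩⟩
  obtain ⟨ht, hd⟩ := (hρ p hp hpM P hP).2 σ hσ
  refine ⟨ht.trans ?_, hd.trans ?_⟩
  · show ((a₀ p : k₀) : k) = a p
    simp only [a₀]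
    rw [dif_pos ⟨hp, hpM⟩, show ∀ x, ((g x : k₀) : k) = f x from fun _ => rfl, hgen p hp hpM]
    rfl
  · rw [map_mul, map_natCast]
    congr 1
    show φ (χR ((ZMod.unitOfCoprime p ((Nat.Prime.coprime_iff_not_dvd hp).mpr hpM) : (ZMod M)ˣ) :
      ZMod M).val) = φ (χR p)
    rw [hχcast _ p (by rw [ZMod.natCast_zmod_val, ZMod.coe_unitOfCoprime])]

end FLTAgent.Gamma1.Lv
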