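import Fermat.Agent.Gamma1.Base

/-!
# Algebra of Laurent series: units, rigidity of constant roots, coefficients of roots

`isUnit_C_add_nilSer`: a unit constant plus nilpotent coefficients is a unit. `eq_C_of_root`:
a root congruent to a simple constant root modulo nilpotents is that constant.
`coeff_root_mem`: the coefficients of an `e`-th root lie in every subring containing those of
the power, `1/e`, the leading coefficient and its inverse.
-/

set_option autoImplicit false

noncomputable section

open ModularCurve Polynomial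

namespace FLTAgent.Gamma1.Lv

variable {A B : Type*} [CommRing A] [CommRing B]

theorem coeffMap_C (f : A →+* B) (r : A) :
    coeffMap f (HahnSeries.C r : LaurentSeries A) = HahnSeries.C (f r) := by
  rw [HahnSeries.C_apply, HahnSeries.C_apply, coeffMap_single]

/-- All coefficients are nilpotent. -/
def NilSer (v : LaurentSeries A) : Prop := ∀ k, IsNilpotent (v.coeff k)

theorem NilSer.mul_left (x : LaurentSeries A) {v : LaurentSeries A} (hv : NilSer v) :
    NilSer (x * v) := fun k => by
  rw [HahnSeries.coeff_mul]
  refine isNilpotent_sum fun ij _ => ?_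
  exact (Commute.all _ _).isNilpotent_mul_left (hv _)

theorem coeff_sum_single (v : LaurentSeries A) (s : Finset ℤ) (k : ℤ) :
    (∑ j ∈ s, HahnSeries.single j (v.coeff j)).coeff k = if k ∈ s then v.coeff k else 0 := by
  classical
  induction s using Finset.induction_on with
  | empty => simp
  | insert a s ha ih =>
    rw [Finset.sum_insert ha, HahnSeries.coeff_add, ih]
    rcases eq_or_ne k a with rfl | hka
    · simp [ha]
    · simp [hka, HahnSeries.coeff_single_of_ne hka]

/-- A unit constant plus nilpotent coefficients is a unit. -/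
theorem isUnit_C_add_nilSer {c : A} (hc : IsUnit c) {w : LaurentSeries A} (hw : NilSer w) :
    IsUnit (HahnSeries.C c + w) := by
  obtain ⟨v, hv⟩ : ∃ v, v = HahnSeries.C c + w := ⟨_, rfl⟩
  rw [← hv]
  obtain ⟨a, ha⟩ := exists_lowBd v
  set low : LaurentSeries A := ∑ j ∈ Finset.Ico a 0, HahnSeries.single j (v.coeff j) with hlow
  set P : PowerSeries A := PowerSeries.mk fun i => v.coeff (i : ℤ) with hP
  have hsplit : v = HahnSeries.ofPowerSeries ℤ A P + low := by
    ext k
    rw [HahnSeries.coeff_add, hlow, coeff_sum_single]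
    rcases lt_or_ge k 0 with hk | hk
    · rw [PowerSeries.coeff_coe, if_pos hk, zero_add]
      rcases lt_or_ge k a with hka | hka
      · rw [if_neg (by simp [hka.not_ge]), ha k hka]
      · rw [if_pos (by simp [hka, hk])]
    · rw [if_neg (by simp [hk.not_gt]), add_zero, PowerSeries.coeff_coe, if_neg hk.not_gt,
        hP, PowerSeries.coeff_mk]
      congr 1
      omega
  have hPu : IsUnit P := by
    rw [PowerSeries.isUnit_iff_constantCoeff, hP, ← PowerSeries.coeff_zero_eq_constantCoeff_apply,
      PowerSeries.coeff_mk, hv, HahnSeries.coeff_add, Nat.cast_zero, HahnSeries.C_apply,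
      HahnSeries.coeff_single_same]
    exact (hw 0).isUnit_add_right_of_commute hc (Commute.all _ _) |> fun h => by rwa [add_comm]
  have hlown : IsNilpotent low := by
    refine isNilpotent_sum fun j hj => ?_
    have hj0 : j ≠ 0 := by
      have := (Finset.mem_Ico.1 hj).2
      omega
    obtain ⟨e, he⟩ := hw j
    have hvj : v.coeff j = w.coeff j := by
      rw [hv, HahnSeries.coeff_add, HahnSeries.C_apply, HahnSeries.coeff_single_of_ne hj0, zero_add]
    refine ⟨e, ?_⟩
    rw [HahnSeries.single_pow, hvj, he, HahnSeries.single_eq_zero]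
  rw [hsplit]
  exact hlown.isUnit_add_left_of_commute (hPu.map _) (Commute.all _ _)

/-- A root which is congruent to a simple constant root modulo nilpotents is constant. -/
theorem eq_C_of_root (P : A[X]) {e : A} (he : P.eval e = 0)
    (hd : IsUnit (P.derivative.eval e)) {v : LaurentSeries A}
    (hv : (P.map HahnSeries.C).eval v = 0) (hn : NilSer (v - HahnSeries.C e)) :
    v = HahnSeries.C e := by
  set w := v - HahnSeries.C e with hw
  obtain ⟨k, hk⟩ := (P.map (HahnSeries.C : A →+* LaurentSeries A)).binomExpansion (HahnSeries.C e) w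
  rw [add_sub_cancel, hv, eval_map, eval₂_at_apply, he, map_zero, zero_add, derivative_map,
    eval_map, eval₂_at_apply] at hk
  have h1 : (HahnSeries.C (P.derivative.eval e) + k * w) * w = 0 := by linear_combination -hk
  obtain ⟨u, hu⟩ := isUnit_C_add_nilSer hd (hn.mul_left k)
  rw [← hu, Units.mul_right_eq_zero] at h1
  exact sub_eq_zero.1 h1

/-- Expansion of a power to first order, with a bound. -/
theorem exists_pow_add {a b : LaurentSeries A} {o k : ℤ} (ha : LowBd a o) (hb : LowBd b k)
    (hok : o ≤ k) (e : ℕ) :
    ∃ r, LowBd r (((e : ℤ) - 2) * o + 2 * k) ∧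
      (a + b) ^ e = a ^ e + (e : LaurentSeries A) * a ^ (e - 1) * b + r := by
  induction e with
  | zero => exact ⟨0, LowBd.zero _, by simp⟩
  | succ e ih =>
    obtain ⟨r, hr, hre⟩ := ih
    refine ⟨(e : LaurentSeries A) * a ^ (e - 1) * b * b + r * (a + b), ?_, ?_⟩
    · refine LowBd.add ?_ ?_
      · rcases Nat.eq_zero_or_pos e with rfl | he
        · simp [LowBd.zero]
        · have hC : LowBd ((e : ℕ) : LaurentSeries A) 0 := by
            rw [← map_natCast (HahnSeries.C : A →+* LaurentSeries A)]
            exact lowBd_C _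
          refine (((hC.mul (ha.pow (e - 1))).mul hb).mul hb).mono (le_of_eq ?_)
          rw [Nat.cast_sub he]
          push_cast
          ring
      · refine (hr.mul (ha.add (hb.mono hok))).mono (le_of_eq ?_)
        push_cast
        ring
    · rw [pow_succ, hre]
      rcases Nat.eq_zero_or_pos e with rfl | he
      · simp
        ring
      · obtain ⟨e', rfl⟩ : ∃ e', e = e' + 1 := ⟨e - 1, by omega⟩
        simp only [add_tsub_cancel_right]
        push_cast
        ring

theorem coeff_natCast_mul (e : ℕ) (y : LaurentSeries A) (k : ℤ) :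
    ((e : LaurentSeries A) * y).coeff k = (e : A) * y.coeff k := by
  rw [← map_natCast (HahnSeries.C : A →+* LaurentSeries A), HahnSeries.C_mul_eq_smul,
    HahnSeries.coeff_smul, smul_eq_mul]

/-- The coefficients of a root lie in every subring containing those of its power, the leading
coefficient, its inverse and the inverse of the exponent. -/
theorem coeff_root_mem (T : Subring ℂ) {e : ℕ} (he : (e : ℂ) ≠ 0)
    (he' : (e : ℂ)⁻¹ ∈ T) {y : LaurentSeries ℂ} {o : ℤ} (ho : LowBd y o) (hc0 : y.coeff o ≠ 0)
    (hc : y.coeff o ∈ T) (hc' : (y.coeff o)⁻¹ ∈ T) (hpow : ∀ k, (y ^ e).coeff k ∈ T) (k : ℤ) :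
    y.coeff k ∈ T := by
  classical
  suffices H : ∀ (j : ℕ) (k : ℤ), k < o + j → y.coeff k ∈ T by
    exact H (k - o + 1).toNat k (by omega)
  intro j
  induction j with
  | zero => exact fun k hk => by rw [ho k (by simpa using hk)]; exact T.zero_mem
  | succ j ih =>
    intro k hk
    rcases lt_or_eq_of_le (show k ≤ o + j by push_cast at hk; omega) with hk' | rfl
    · exact ih k hk'
    rcases Nat.eq_zero_or_pos j with rfl | hj
    · simpa using hc
    set k : ℤ := o + j with hkdef
    set a  : LaurentSeries ℂ := ∑ i ∈ Finset.Ico o k, HahnSeries.single i (y.coeff i) with ha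
    have haT : ∀ i, a.coeff i ∈ T := fun i => by
      rw [ha, coeff_sum_single]
      split_ifs with hi
      · exact ih i (Finset.mem_Ico.1 hi).2
      · exact T.zero_mem
    have hao : LowBd a o := fun i hi => by
      rw [ha, coeff_sum_single, if_neg (by simp [hi.not_ge])]
    have hbk : LowBd (y - a) k := fun i hi => by
      rw [HahnSeries.coeff_sub, ha, coeff_sum_single]
      split_ifs with h'
      · exact sub_self _
      · rw [ho i (by simp only [Finset.mem_Ico, not_and, not_lt] at h'; by_contra hh; push Not at hh
                     exact absurd (h' hh) hi.not_ge), sub_zero]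
    obtain ⟨r, hr, hre⟩ := exists_pow_add hao hbk (by omega) e
    rw [add_sub_cancel] at hre
    have he1 : 1 ≤ e := Nat.one_le_iff_ne_zero.2 fun h => he (by simp [h])
    have hidx : ((e : ℤ) - 1) * o + k = ((e - 1 : ℕ) : ℤ) * o + k := by
      rw [Nat.cast_sub he1]; simp
    have hr0 : r.coeff (((e : ℤ) - 1) * o + k) = 0 := hr _ (by nlinarith [show o < k by omega])
    have hao' : a.coeff o = y.coeff o := by
      rw [ha, coeff_sum_single, if_pos (by simp; omega)]
    have hb' : (y - a).coeff k = y.coeff k := by
      rw [HahnSeries.coeff_sub, ha, coeff_sum_single, if_neg (by simp), sub_zero]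
    have key := congrArg (fun z  : LaurentSeries ℂ => z.coeff (((e : ℤ) - 1) * o + k)) hre
    simp only [HahnSeries.coeff_add, hr0, add_zero, mul_assoc, coeff_natCast_mul] at key
    rw [hidx, coeff_mul_lowBd (hao.pow (e - 1)) hbk, coeff_pow_lowBd hao, hao', hb'] at key
    have haeT : ∀ i, (a ^ e).coeff i ∈ T := by
      obtain ⟨a', ha'⟩ := exists_coeffMap_eq haT
      intro i
      rw [← ha', ← map_pow, coeffMap_coeff]
      exact ((a' ^ e).coeff i).2
    have hval : y.coeff k = (e : ℂ)⁻¹ * ((y.coeff o)⁻¹) ^ (e - 1) *
        ((y ^ e).coeff (((e - 1 : ℕ) : ℤ) * o + k) - (a ^ e).coeff (((e - 1 : ℕ) : ℤ) * o + k)) := by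
      have hp : y.coeff o ^ (e - 1) ≠ 0 := pow_ne_zero _ hc0
      rw [key, inv_pow]
      field_simp
      ring
    rw [hval]
    exact T.mul_mem (T.mul_mem he' (T.pow_mem hc' _)) (T.sub_mem (hpow _) (haeT _))

end FLTAgent.Gamma1.Lv
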