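import Fermat.Agent.Gamma1.Lv.Val
import Fermat.Agent.Gamma1.Lv.SerAlg
import Fermat.Agent.Gamma1.Ser
import Mathlib.RingTheory.PowerSeries.Inverse

/-!
# Integrality at a cusp of the series of multiplier functions

`coeff_mem_of_unit_sum`: a series `w` whose `ℓ`-th power is integral over a number field is
integral at the place, given series `y`, `z` with `∑ y b * z b = 1` and integral `w * z b`,
`y b * z b`, `(y b)^ℓ`, `(z b)^ℓ`. In power series over the principal ideal domain `P.sub L`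
the power of `w` is then a power of `X` times a unit times an `ℓ`-th power
(`exists_pow_unit`).
-/

set_option autoImplicit false
set_option linter.unusedSectionVars false

noncomputable section

open ModularCurve

namespace FLTAgent.Gamma1.Lv

variable {M : ℕ} (P : Plc M)

/-! ### Power series over a number field's valuation ring -/

section
variable (O : Subring ℂ)

/-- The embedding of power series over `O` into Laurent series over `ℂ`. -/
def emb : PowerSeries O →+* LaurentSeries ℂ :=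
  (HahnSeries.ofPowerSeries ℤ ℂ).comp (PowerSeries.map O.subtype)

theorem emb_coeff (f : PowerSeries O) (i : ℤ) :
    (emb O f).coeff i = if i < 0 then 0 else ((PowerSeries.coeff i.natAbs f : O) : ℂ) := by
  rw [emb, RingHom.comp_apply, PowerSeries.coeff_coe, PowerSeries.coeff_map]
  rfl

theorem emb_coeff_mem (f : PowerSeries O) (i : ℤ) : (emb O f).coeff i ∈ O := by
  rw [emb_coeff]
  split_ifs
  · exact O.zero_mem
  · exact (PowerSeries.coeff i.natAbs f).2

theorem emb_injective : Function.Injective (emb O) := fun f g h => by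
  refine PowerSeries.ext fun k => Subtype.ext ?_
  have := congrArg (fun v => v.coeff (k : ℤ)) h
  simp only [emb_coeff, Int.natAbs_natCast, show ¬ ((k : ℤ) < 0) by omega, if_false] at this
  exact this

theorem emb_X : emb O PowerSeries.X = HahnSeries.single (1 : ℤ) (1 : ℂ) := by
  rw [emb, RingHom.comp_apply, PowerSeries.map_X, HahnSeries.ofPowerSeries_X]

theorem exists_emb_eq {v : LaurentSeries ℂ} (hv : LowBd v 0) (hO : ∀ k, v.coeff k ∈ O) :
    ∃ f, emb O f = v := by
  refine ⟨PowerSeries.mk fun k => ⟨v.coeff k, hO k⟩, HahnSeries.ext (funext fun i => ?_)⟩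
  rw [emb_coeff]
  split_ifs with hi
  · exact (hv i hi).symm
  · rw [PowerSeries.coeff_mk]
    show v.coeff ((i.natAbs : ℕ) : ℤ) = v.coeff i
    rw [show ((i.natAbs : ℕ) : ℤ) = i by omega]

end

/-- An element becoming an `ℓ`-th power after multiplication by each of several elements, these
having no common prime divisor other than `x`, is an `ℓ`-th power up to a unit and a power of `x`. -/
theorem exists_pow_unit {R : Type*} [CommRing R] [IsDomain R] [UniqueFactorizationMonoid R]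
    {κ : Type*} [Fintype κ] {ℓ : ℕ} (hℓ : 0 < ℓ) {x : R} (hx : Prime x) {N : ℕ}
    (T Y G : κ → R) (hYG : ∀ b, Y b * T b = G b ^ ℓ) (hG : ∑ b, G b = x ^ N) (F : R)
    (hF : F ≠ 0) (hH : ∀ b, ∃ (i : ℕ) (H : R), x ^ i * F * T b = H ^ ℓ) :
    ∃ (m : ℕ) (u : Rˣ) (Q : R), F = x ^ m * u * Q ^ ℓ := by
  classical
  revert hF hH
  induction F using (wellFounded_dvdNotUnit (α := R)).induction with
  | _ F IH =>
    intro hF hH
    by_cases hu : IsUnit F
    · exact ⟨0, hu.unit, 1, by simp⟩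
    obtain ⟨p, hpi, hpF⟩ := WfDvdMonoid.exists_irreducible_factor hu hF
    have hp : Prime p := UniqueFactorizationMonoid.irreducible_iff_prime.mp hpi
    by_cases hpx : p ∣ x
    · obtain ⟨F', rfl⟩ := (hp.associated_of_dvd hx hpx).symm.dvd.trans hpF
      have hF' : F' ≠ 0 := fun h => hF (by rw [h, mul_zero])
      obtain ⟨m, u, Q, rfl⟩ := IH F' ⟨hF', x, hx.not_isUnit, mul_comm _ _⟩ hF' fun b => by
        obtain ⟨i, H, h⟩ := hH b
        exact ⟨i + 1, H, by rw [← h]; ring⟩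
      exact ⟨m + 1, u, Q, by ring⟩
    · have hnx : ∀ i : ℕ, ¬ p ∣ x ^ i := fun i h => hpx (hp.dvd_of_dvd_pow h)
      obtain ⟨b, hb⟩ : ∃ b, ¬ p ∣ T b := by
        by_contra hall
        push Not at hall
        refine hnx N (hG ▸ Finset.dvd_sum fun b _ => ?_)
        exact hp.dvd_of_dvd_pow (n := ℓ) (hYG b ▸ dvd_mul_of_dvd_right (hall b) (Y b))
      obtain ⟨i, H, h⟩ := hH b
      have hpH : p ∣ H :=
        hp.dvd_of_dvd_pow (n := ℓ) (h ▸ dvd_mul_of_dvd_left (dvd_mul_of_dvd_right hpF _) _)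
      have h1 : p ^ ℓ ∣ x ^ i * F := by
        refine hp.pow_dvd_of_dvd_mul_left ℓ hb (a := T b) ?_
        rw [mul_comm (T b), h]
        exact pow_dvd_pow_of_dvd hpH ℓ
      obtain ⟨F', rfl⟩ := hp.pow_dvd_of_dvd_mul_left ℓ (hnx i) h1
      have hF' : F' ≠ 0 := fun e => hF (by rw [e, mul_zero])
      obtain ⟨m, u, Q, rfl⟩ := IH F' ⟨hF', p ^ ℓ,
          fun he => hp.not_isUnit (isUnit_of_dvd_unit (dvd_pow_self p hℓ.ne') he),
          mul_comm _ _⟩ hF' fun c => by
        obtain ⟨j, K, hK⟩ := hH c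
        obtain ⟨K', rfl⟩ : p ∣ K := hp.dvd_of_dvd_pow (n := ℓ)
          (hK ▸ dvd_mul_of_dvd_left (dvd_mul_of_dvd_right hpF _) _)
        refine ⟨j, K', mul_left_cancel₀ (pow_ne_zero ℓ hp.ne_zero) ?_⟩
        rw [mul_pow] at hK
        rw [← hK]
        ring
      exact ⟨m, u, p * Q, by ring⟩

theorem exists_lowBd_finite {κ : Type*} [Fintype κ] (v : κ → LaurentSeries ℂ) :
    ∃ N : ℕ, ∀ b, LowBd (v b) (-(N : ℤ)) := by
  classical
  refine ⟨Finset.univ.sup fun b => (v b).order.natAbs, fun b k hk => ?_⟩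
  have hle : (v b).order.natAbs ≤ Finset.univ.sup fun c => (v c).order.natAbs :=
    Finset.le_sup (f := fun c => (v c).order.natAbs) (Finset.mem_univ b)
  exact HahnSeries.coeff_eq_zero_of_lt_order (by omega)

theorem coeff_single_one_mul (a : ℤ) (v : LaurentSeries ℂ) (k : ℤ) :
    (HahnSeries.single a (1 : ℂ) * v).coeff k = v.coeff (k - a) := by
  have h := HahnSeries.coeff_single_mul_add (r := (1 : ℂ)) (x := v) (a := k - a) (b := a)
  rwa [sub_add_cancel, one_mul] at h

theorem lowBd_shift {v : LaurentSeries ℂ} {N : ℕ} (hv : LowBd v (-(N : ℤ))) :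
    LowBd (HahnSeries.single (N : ℤ) (1 : ℂ) * v) 0 := fun k hk => by
  rw [coeff_single_one_mul]
  exact hv _ (by omega)

/-- Integrality of a root, given local generators over a number field. -/
theorem coeff_mem_of_unit_sum (L : IntermediateField ℚ ℂ) [FiniteDimensional ℚ L]
    {ι : Type} [Fintype ι] {ℓ : ℕ} (hℓ : 0 < ℓ) (hℓS : ((ℓ : ℕ) : ℂ)⁻¹ ∈ P.S)
    (w : LaurentSeries ℂ) (y z : ι → LaurentSeries ℂ)
    (hw : ∀ k, (w ^ ℓ).coeff k ∈ P.sub L)
    (hwz : ∀ b k, (w * z b).coeff k ∈ P.sub L)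
    (hz : ∀ b k, (z b ^ ℓ).coeff k ∈ P.sub L)
    (hy : ∀ b k, (y b ^ ℓ).coeff k ∈ P.sub L)
    (hyz : ∀ b k, (y b * z b).coeff k ∈ P.sub L)
    (hsum : ∑ b, y b * z b = 1) (k : ℤ) : w.coeff k ∈ P.S := by
  classical
  have := P.sub_isPrincipalIdealRing L
  rcases eq_or_ne w 0 with rfl | hw0
  · simp
  set O := P.sub L
  obtain ⟨N, hN⟩ := exists_lowBd_finite (fun o : Option (ι ⊕ ι) =>
    match o with | none => w | some (.inl b) => y b | some (.inr b) => z b)
  set q : LaurentSeries ℂ := HahnSeries.single (N : ℤ) (1 : ℂ) with hq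
  have hw' : LowBd (q * w) 0 := lowBd_shift (hN none)
  have hy' : ∀ b, LowBd (q * y b) 0 := fun b => lowBd_shift (hN (some (.inl b)))
  have hz' : ∀ b, LowBd (q * z b) 0 := fun b => lowBd_shift (hN (some (.inr b)))
  have hqX : emb O (PowerSeries.X ^ N) = q := by
    rw [map_pow, emb_X, HahnSeries.single_pow, one_pow, nsmul_one, hq]
  have hmem : ∀ (v : LaurentSeries ℂ) (j : ℕ), (∀ i, v.coeff i ∈ O) →
      ∀ i, (q ^ j * v).coeff i ∈ O := fun v j hv i => by
    rw [hq, HahnSeries.single_pow, one_pow, coeff_single_one_mul]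
    exact hv _
  have lp : ∀ v : LaurentSeries ℂ, LowBd (q * v) 0 → (∀ i, (v ^ ℓ).coeff i ∈ O) →
      ∃ f, emb O f = (q * v) ^ ℓ := fun v h0 hv => exists_emb_eq O (by simpa using h0.pow ℓ)
      (by rw [mul_pow]; exact hmem _ ℓ hv)
  have lm : ∀ v v' : LaurentSeries ℂ, LowBd (q * v) 0 → LowBd (q * v') 0 →
      (∀ i, (v * v').coeff i ∈ O) → ∃ f, emb O f = q * v * (q * v') := fun v v' h0 h0' hv =>
    exists_emb_eq O (by simpa using h0.mul h0')
      (by rw [show q * v * (q * v') = q ^ 2 * (v * v') by ring]; exact hmem _ 2 hv)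
  obtain ⟨F, hF⟩ := lp w hw' hw
  choose T hT using fun b => lp (z b) (hz' b) (hz b)
  choose Y hY using fun b => lp (y b) (hy' b) (hy b)
  choose H hH using fun b => lm w (z b) hw' (hz' b) (hwz b)
  choose G hG using fun b => lm (y b) (z b) (hy' b) (hz' b) (hyz b)
  have hq0 : q ≠ 0 := HahnSeries.single_ne_zero one_ne_zero
  obtain ⟨m, u, Q, hFQ⟩ := exists_pow_unit hℓ (PowerSeries.X_prime (R := O)) (N := N * 2) T Y G
    (fun b => emb_injective O (by rw [map_mul, map_pow, hY, hT, hG]; ring))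
    (emb_injective O (by
      rw [map_sum, pow_mul, map_pow, hqX]
      simp only [hG]
      rw [Finset.sum_congr rfl fun b _ =>
          show q * y b * (q * z b) = q ^ 2 * (y b * z b) by ring,
        ← Finset.mul_sum, hsum, mul_one]))
    F (fun h => pow_ne_zero ℓ (mul_ne_zero hq0 hw0) (by rw [← hF, h, map_zero]))
    (fun b => ⟨0, H b, emb_injective O (by
      rw [map_mul, map_mul, map_pow, map_pow, hF, hT, hH, pow_zero, one_mul]; ring)⟩)
  set EQ := emb O Q with hEQ
  have hEQ0 : EQ ≠ 0 := by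
    intro h0
    refine pow_ne_zero ℓ (mul_ne_zero hq0 hw0) ?_
    rw [← hF, hFQ, map_mul, map_pow _ Q, ← hEQ, h0, zero_pow hℓ.ne', mul_zero]
  set r : LaurentSeries ℂ := q * w / EQ with hr
  have hqw : q * w = r * EQ := (div_mul_cancel₀ _ hEQ0).symm
  have hrℓ : r ^ ℓ = HahnSeries.single (m : ℤ) (1 : ℂ) * emb O (u : PowerSeries O) := by
    rw [hr, div_pow, ← hF, hFQ, map_mul, map_mul, map_pow, map_pow, emb_X,
      HahnSeries.single_pow, one_pow, nsmul_one, ← hEQ,
      mul_div_cancel_right₀ _ (pow_ne_zero ℓ hEQ0)]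
  have hr0 : r ≠ 0 := div_ne_zero (mul_ne_zero hq0 hw0) hEQ0
  have hS : ∀ i, (r ^ ℓ).coeff i ∈ O := fun i => by
    rw [hrℓ, coeff_single_one_mul]
    exact emb_coeff_mem O _ _
  obtain ⟨u₀, hu₀⟩ := PowerSeries.isUnit_constantCoeff _ u.isUnit
  have hlead : (r ^ ℓ).coeff m = ((u₀ : O) : ℂ) := by
    rw [hrℓ, coeff_single_one_mul, sub_self, emb_coeff, if_neg (lt_irrefl _), Int.natAbs_zero,
      PowerSeries.coeff_zero_eq_constantCoeff, hu₀]
  have hlow : ∀ i < (m : ℤ), (r ^ ℓ).coeff i = 0 := fun i hi => by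
    rw [hrℓ, coeff_single_one_mul, emb_coeff, if_pos (by omega)]
  have hu0 : ((u₀ : O) : ℂ) ≠ 0 := fun h => u₀.ne_zero (Subtype.ext h)
  have ho : LowBd r r.order := fun i hi => HahnSeries.coeff_eq_zero_of_lt_order hi
  have hc0 : r.coeff r.order ≠ 0 := mt HahnSeries.coeff_order_eq_zero.mp hr0
  have hord : (ℓ : ℤ) * r.order = m := by
    rcases lt_trichotomy ((ℓ : ℤ) * r.order) m with h | h | h
    · exact absurd (Gamma1.coeff_pow_lowBd ho ℓ ▸ hlow _ h) (pow_ne_zero ℓ hc0)
    · exact h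
    · exact absurd (hlead ▸ ho.pow ℓ _ h) hu0
  have hcℓ : r.coeff r.order ^ ℓ = ((u₀ : O) : ℂ) := by
    rw [← Gamma1.coeff_pow_lowBd ho ℓ, hord, hlead]
  have hcalg : r.coeff r.order ∈ algC := by
    refine mem_algC_of_root (q := Polynomial.X ^ ℓ - Polynomial.C ((u₀ : O) : ℂ)) (fun i => ?_)
      (Polynomial.X_pow_sub_C_ne_zero hℓ _) (by simp [hcℓ])
    rw [Polynomial.coeff_sub, Polynomial.coeff_X_pow, Polynomial.coeff_C]
    refine sub_mem ?_ ?_
    · split_ifs
      · exact one_mem _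
      · exact zero_mem _
    · split_ifs
      · exact P.le_algC (P.sub_le L (u₀ : O).2)
      · exact zero_mem _
  have hu1 : ((u₀ : O) : ℂ)⁻¹ = ((u₀⁻¹ : Oˣ) : O) := inv_eq_of_mul_eq_one_right (by
    rw [← Subring.coe_mul, Units.mul_inv, Subring.coe_one])
  have hcS : r.coeff r.order ∈ P.S :=
    P.mem_of_pow_mem hcalg hℓ (hcℓ ▸ P.sub_le L (u₀ : O).2)
  have hcS' : (r.coeff r.order)⁻¹ ∈ P.S :=
    P.mem_of_pow_mem ((algebraicClosure ℚ ℂ).inv_mem hcalg) hℓ (by
      rw [inv_pow, hcℓ, hu1]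
      exact P.sub_le L ((u₀⁻¹ : Oˣ) : O).2)
  have hrS : ∀ i, r.coeff i ∈ P.S := coeff_root_mem P.S (Nat.cast_ne_zero.mpr hℓ.ne') hℓS ho hc0
    hcS hcS' fun i => P.sub_le L (hS i)
  have := coeff_mul_mem hrS (fun i => P.sub_le L (emb_coeff_mem O Q i)) (k + N)
  rwa [← hEQ, ← hqw, hq, coeff_single_one_mul, add_sub_cancel_right] at this


end FLTAgent.Gamma1.Lv
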