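import Fermat.Agent.Gamma1.Lv.Pure
import Fermat.Agent.Gamma1.Lv.Integral

/-!
# A character whose Kummer function reduces to an `ℓ`-th power is trivial

Main result `eq_zero_of_congr_pow'`. With the generators of `Lv/Pure` and normality, the
character has an integral multiplier function `u` with `u ^ ℓ ≡ 1` at the place. Successive
approximation (`exists_root_approx`) gives multiplier functions congruent to roots of unity
modulo every power of a small constant, and `approx_false` makes a nonzero constant a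
multiplier function, so the character is zero.
-/

set_option autoImplicit false
set_option linter.unusedSectionVars false
set_option linter.style.haveILetI false

noncomputable section

open UpperHalfPlane CongruenceSubgroup ModularCurve
open scoped MatrixGroups

namespace FLTAgent.Gamma1.Lv

open FLTAgent.Modular

variable {n M ℓ : ℕ} [NeZero M] (P : Plc M) {φ : Additive (Gamma M) →+ Additive ℂˣ}

/-- A multiplier function of finite order with constant power is constant. -/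
theorem eq_const_of_pow_eq_const {f : ℍ → ℂ} (hf : IsHol f) (hℓ : 0 < ℓ) {c : ℂ}
    (hc : f ^ ℓ = fun _ => c) : ∃ d : ℂ, f = fun _ => d := by
  classical
  set T : Finset ℂ := (Polynomial.X ^ ℓ - Polynomial.C c).roots.toFinset
  haveI : Finite (↑T : Set ℂ) := T.finite_toSet.to_subtype
  refine ⟨f UpperHalfPlane.I, funext fun z => ?_⟩
  have hmaps : Set.MapsTo (f ∘ ofComplex) upperHalfPlaneSet (↑T : Set ℂ) := fun w _ => by
    rw [Finset.mem_coe, Multiset.mem_toFinset, Polynomial.mem_roots (Polynomial.X_pow_sub_C_ne_zero hℓ c)]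
    simp only [Polynomial.IsRoot.def, Polynomial.eval_sub, Polynomial.eval_pow, Polynomial.eval_X,
      Polynomial.eval_C, Function.comp_apply]
    exact sub_eq_zero.2 (congrFun hc _)
  have h1 := isPreconnected_upperHalfPlaneSet.constant_of_mapsTo (T.finite_toSet.isDiscrete)
    hf.continuousOn hmaps z.im_pos UpperHalfPlane.I.im_pos
  simpa only [Function.comp_apply, ofComplex_apply] using h1

theorem qser_comp_pow {f : ℍ → ℂ} {S : Subring ℂ} (γ : SL(2, ℤ)) (hf : HasExpIn M S (comp f γ))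
    (e : ℕ) : qser M (comp (f ^ e) γ) = qser M (comp f γ) ^ e := qser_eq (hf.hasQExp.pow e)

/-- Series of integral multiplier functions are integral. -/
theorem hasExpIn_of_isMS (h : IsLevel n M) (hℓ : 0 < ℓ) (hℓS : ((ℓ : ℕ) : ℂ)⁻¹ ∈ P.S)
    {ι : Type} [Fintype ι] {Y Z : ι → ℍ → ℂ} (hY : ∀ a, IsMS ℓ P φ (Y a))
    (hZ : ∀ a, IsMS ℓ P (-φ) (Z a)) (hsum : ∑ a, Y a * Z a = 1) {w : ℍ → ℂ}
    (hw : IsMS ℓ P φ w) (γ : SL(2, ℤ)) : HasExpIn M P.S (comp w γ) := by
  classical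
  have hadd : φ + -φ = 0 := AddMonoidHom.ext fun x => add_neg_cancel (φ x)
  have hwz : ∀ b, MemR M P.S (w * Z b) := fun b => (hadd ▸ hw.mul (hZ b)).memR h hℓ
  have hyz : ∀ b, MemR M P.S (Y b * Z b) := fun b => (hadd ▸ (hY b).mul (hZ b)).memR h hℓ
  have hfield : ∀ {f : ℍ → ℂ}, MemR M P.S f → ∃ L : IntermediateField ℚ ℂ,
      FiniteDimensional ℚ L ∧ ∀ γ k, (qser M (comp f γ)).coeff k ∈ L :=
    fun hf => exists_field h (hf.mono P.le_algC)
  obtain ⟨L₀, hL₀, hL₀'⟩ := hfield hw.pow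
  choose L₁ hL₁ hL₁' using fun b => hfield (hwz b)
  choose L₂ hL₂ hL₂' using fun b => hfield (hZ b).pow
  choose L₃ hL₃ hL₃' using fun b => hfield (hY b).pow
  choose L₄ hL₄ hL₄' using fun b => hfield (hyz b)
  set L := L₀ ⊔ ⨆ b, (L₁ b ⊔ L₂ b ⊔ (L₃ b ⊔ L₄ b))
  have hle : ∀ b, L₁ b ⊔ L₂ b ⊔ (L₃ b ⊔ L₄ b) ≤ L := fun b =>
    (le_iSup (fun b => L₁ b ⊔ L₂ b ⊔ (L₃ b ⊔ L₄ b)) b).trans le_sup_right
  haveI : FiniteDimensional ℚ L := inferInstance
  have hsub : ∀ {x : ℂ}, x ∈ P.S → x ∈ L → x ∈ P.sub L := fun h1 h2 => ⟨h1, h2⟩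
  refine ⟨_, (hw.cfun.expansion γ).hasQExp, fun k => ?_⟩
  refine coeff_mem_of_unit_sum P L hℓ hℓS _ (fun b => qser M (comp (Y b) γ))
    (fun b => qser M (comp (Z b) γ)) ?_ ?_ ?_ ?_ ?_ ?_ k
  · intro k
    rw [← qser_comp_pow γ (hw.cfun.expansion γ)]
    exact hsub ((hw.pow.expansion γ).coeff_mem k) ((le_sup_left : L₀ ≤ L) (hL₀' γ k))
  · intro b k
    rw [← qser_comp_mul γ (hw.cfun.expansion γ) ((hZ b).cfun.expansion γ)]
    exact hsub (((hwz b).expansion γ).coeff_mem k)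
      (hle b (le_sup_left (a := L₁ b ⊔ L₂ b) (le_sup_left (a := L₁ b) (hL₁' b γ k))))
  · intro b k
    rw [← qser_comp_pow γ ((hZ b).cfun.expansion γ)]
    exact hsub (((hZ b).pow.expansion γ).coeff_mem k)
      (hle b (le_sup_left (a := L₁ b ⊔ L₂ b) (le_sup_right (b := L₂ b) (hL₂' b γ k))))
  · intro b k
    rw [← qser_comp_pow γ ((hY b).cfun.expansion γ)]
    exact hsub (((hY b).pow.expansion γ).coeff_mem k)
      (hle b (le_sup_right (b := L₃ b ⊔ L₄ b) (le_sup_left (a := L₃ b) (hL₃' b γ k))))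
  · intro b k
    rw [← qser_comp_mul γ ((hY b).cfun.expansion γ) ((hZ b).cfun.expansion γ)]
    exact hsub (((hyz b).expansion γ).coeff_mem k)
      (hle b (le_sup_right (b := L₃ b ⊔ L₄ b) (le_sup_right (b := L₄ b) (hL₄' b γ k))))
  · have h1 : qser M (comp (∑ a, Y a * Z a) γ) = 1 := by
      rw [hsum]
      exact qser_eq (hasQExp_one M)
    rw [← h1, comp_finset_sum,
      (hasExpIn_finset_sum (S := ⊤) (f := fun b => comp (Y b * Z b) γ) _
        fun b _ => ((hY b).cfun.expansion γ).mul ((hZ b).cfun.expansion γ)).2]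
    exact Finset.sum_congr rfl fun b _ =>
      (qser_comp_mul γ ((hY b).cfun.expansion γ) ((hZ b).cfun.expansion γ)).symm

/-- Roots of unity by successive approximation. -/
theorem exists_root_approx (hℓS : ((ℓ : ℕ) : ℂ)⁻¹ ∈ P.S) (hℓ : 0 < ℓ) {π : P.S}
    {U : ringR M P.S} (hU : constR M P.S π ∣ U - 1) (N : ℕ) :
    ∃ r : ringR M P.S, constR M P.S π ^ (N + 1) ∣ U * r ^ ℓ - 1 := by
  induction N with
  | zero => exact ⟨1, by rwa [pow_one, one_pow, mul_one]⟩
  | succ N ih =>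
    obtain ⟨r, hr⟩ := ih
    set e := U * r ^ ℓ - 1 with he
    set ε : ringR M P.S := constR M P.S ⟨_, hℓS⟩ with hεdef
    have hε : (ℓ : ringR M P.S) * ε = 1 := by
      rw [hεdef, ← map_natCast (constR M P.S), ← map_mul, ← map_one (constR M P.S)]
      congr 1
      refine Subtype.ext ?_
      push_cast
      exact mul_inv_cancel₀ (Nat.cast_ne_zero.2 hℓ.ne')
    obtain ⟨k, hk⟩ := Polynomial.powAddExpansion (1 : ringR M P.S) (-(ε * e)) ℓ
    refine ⟨r * (1 - ε * e), ?_⟩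
    have key : U * (r * (1 - ε * e)) ^ ℓ - 1 = e ^ 2 * (-1 + (1 + e) * (k * ε ^ 2)) := by
      rw [mul_pow, ← mul_assoc, show U * r ^ ℓ = 1 + e by rw [he]; ring,
        show (1 : ringR M P.S) - ε * e = 1 + -(ε * e) by ring, hk, one_pow, one_pow]
      linear_combination (-(1 + e) * e) * hε
    rw [key]
    refine Dvd.dvd.mul_right ?_ _
    refine (pow_dvd_pow _ (show N + 1 + 1 ≤ (N + 1) * 2 by omega)).trans ?_
    rw [pow_mul]
    exact pow_dvd_pow_of_dvd hr 2

theorem dv_mono {π : P.S} {N : ℕ} {z : ℂ} (h : P.Dv (π ^ (N + 1)) z) : P.Dv (π ^ N) z := by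
  obtain ⟨s, rfl⟩ := h
  exact ⟨π * s, by push_cast; ring⟩

/-- Injectivity of reduction. -/
theorem eq_zero_of_congr_pow' (h : IsLevel n M) [Fact ℓ.Prime] (hℓM : ℓ ∣ M)
    (hφ : φ ∈ Chr M ℓ) {y : ℍ → ℂ} (hy : IsCFun M φ y)
    (F G : ringR M P.S) (hF : y ^ ℓ = (F : ℍ → ℂ))
    (hcong : P.redSer 1 F = P.redSer 1 G ^ ℓ) (hne : P.redSer 1 F ≠ 0) : φ = 0 := by
  classical
  by_contra hφ0
  have hℓp : ℓ.Prime := Fact.out
  have hℓ : 0 < ℓ := hℓp.pos
  haveI : NeZero ℓ := ⟨hℓ.ne'⟩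
  have hpℓ : ¬ P.p ∣ ℓ := fun hd => P.not_dvd (hd.trans hℓM)
  have hℓS := P.inv_natCast_mem hpℓ
  have hyMS : IsMS ℓ P φ y := ⟨hy, by rw [hF]; exact F.2⟩
  obtain ⟨Y, Z, hY, hZ, hsum⟩ := exists_pure P h hℓ hφ hyMS (by
    rwa [show (⟨y ^ ℓ, hyMS.pow⟩ : ringR M P.S) = F from Subtype.ext hF])
  have hadd : φ + -φ = 0 := AddMonoidHom.ext fun x => add_neg_cancel (φ x)
  have haddzero : φ + (0 : Additive (Gamma M) →+ Additive ℂˣ) = φ :=
    AddMonoidHom.ext fun x => add_zero (φ x)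
  have hmemR : ∀ {w : ℍ → ℂ} (b), IsMS ℓ P φ w → MemR M P.S (w * Z b) := fun b hw =>
    (hadd ▸ hw.mul (hZ b)).memR h hℓ
  have hint : ∀ {w : ℍ → ℂ}, IsMS ℓ P φ w → ∀ γ, HasExpIn M P.S (comp w γ) :=
    fun hw γ => hasExpIn_of_isMS P h hℓ hℓS hY hZ hsum hw γ
  have hG0 : ∀ γ, P.redSer γ G ≠ 0 := redSer_ne_zero_all P h fun h0 => hne (by
    rw [hcong, h0, zero_pow hℓ.ne'])
  have hcongall : ∀ γ, P.redSer γ F = P.redSer γ G ^ ℓ := fun γ => by
    have h1 := redSer_eq_zero' P h (x := F - G ^ ℓ) (by rw [map_sub, map_pow, hcong, sub_self]) γ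
    rwa [map_sub, map_pow, sub_eq_zero] at h1
  let x : Cl n M → ringR M P.S := fun b => ⟨_, hmemR b hyMS⟩
  let Zl : Cl n M → ringR M P.S := fun b => ⟨_, (hZ b).pow⟩
  let v : Cl n M → Cl n M → ringR M P.S := fun a b => ⟨_, hmemR b (hY a)⟩
  have hxpow : ∀ b, x b ^ ℓ = F * Zl b := fun b => Subtype.ext (by
    show (y * Z b) ^ ℓ = (F : ℍ → ℂ) * Z b ^ ℓ
    rw [mul_pow, hF])
  let W : Cl n M → SL(2, ℤ) → LaurentSeries (P.S ⧸ P.mI) := fun b γ =>
    P.redSer γ (x b) / P.redSer γ G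
  have hWG : ∀ b γ, W b γ * P.redSer γ G = P.redSer γ (x b) := fun b γ =>
    div_mul_cancel₀ _ (hG0 γ)
  have hWpow : ∀ b γ, W b γ ^ ℓ = P.redSer γ (Zl b) := fun b γ => by
    rw [div_pow, ← map_pow, hxpow, map_mul, ← hcongall γ, mul_div_cancel_left₀]
    rw [hcongall γ]
    exact pow_ne_zero _ (hG0 γ)
  -- the norm of `G`
  set Nf : ringR M P.S := ∏ g : sheetGrp n M, compR M P.S (sheetLift g) G with hNf
  have hNmem : MemB n M P.S (Nf : ℍ → ℂ) := by
    refine ⟨Nf.2, fun γ hγ => ?_⟩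
    let g₀ : sheetGrp n M := ⟨redM M γ, γ, hγ, rfl⟩
    rw [hNf, SubmonoidClass.coe_finsetProd, ← compHom_apply, map_prod]
    refine Fintype.prod_equiv (Equiv.mulRight g₀) _ _ fun g => ?_
    rw [compHom_apply, coe_compR, comp_comp, Equiv.coe_mulRight, coe_compR]
    refine (act_eq_comp G.2 (γ := sheetLift g * γ) ?_).symm
    rw [map_mul, redM_sheetLift, Subgroup.coe_mul]
  set β : ringB n M P.S := ⟨(Nf : ℍ → ℂ), hNmem⟩ with hβ
  have hβ1 : P.redSer 1 (inclB β) ≠ 0 := by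
    show P.redSer 1 Nf ≠ 0
    rw [hNf, map_prod, Finset.prod_ne_zero_iff]
    exact fun g _ => by rw [redSer_compR]; exact hG0 _
  have hfix : compR M P.S (sheetLift (1 : sheetGrp n M)) G = G := Subtype.ext (act_one G.2)
  have hlift : ∀ b, W b ∈ (P.redAll M).range := fun b => by
    obtain ⟨d, hd⟩ : ∃ d, ℓ = d + 2 := ⟨ℓ - 2, by have := hℓp.two_le; omega⟩
    refine normal P h (X := W b) (β := β) hβ1 ⟨x b * ∏ g ∈ Finset.univ.erase
      (1 : sheetGrp n M), compR M P.S (sheetLift g) G, funext fun γ => ?_⟩ (d := d) (r := 0)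
      (r' := Zl b) ?_
    · rw [Pi.mul_apply, redAll_apply, redAll_apply, show inclB β = Nf from rfl, hNf,
        ← Finset.mul_prod_erase _ _ (Finset.mem_univ (1 : sheetGrp n M)), hfix, map_mul, map_mul,
        ← mul_assoc, hWG]
    · rw [map_zero, zero_mul, zero_add, ← hd]
      exact funext fun γ => hWpow b γ
  choose wl hwl using hlift
  set u : ℍ → ℂ := ∑ a, Y a * (wl a : ℍ → ℂ) with hu
  have hwY : ∀ a, IsMS ℓ P φ (Y a * (wl a : ℍ → ℂ)) := fun a => by
    have h1 := (hY a).mul (IsMS.of_memR (ℓ := ℓ) (wl a).2)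
    rwa [haddzero] at h1
  have huMS : IsMS ℓ P φ u := IsMS.sum _ h hℓ hφ fun a _ => hwY a
  let uz : Cl n M → ringR M P.S := fun b => ⟨_, hmemR b huMS⟩
  have huz : ∀ b, P.redSer 1 (uz b) = W b 1 := fun b => by
    refine mul_right_cancel₀ (hG0 1) ?_
    rw [hWG]
    have e1 : uz b = ∑ a, v a b * wl a := Subtype.ext (by
      rw [AddSubmonoidClass.coe_finsetSum]
      show u * Z b = _
      rw [hu, Finset.sum_mul]
      exact Finset.sum_congr rfl fun a _ => mul_right_comm _ _ _)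
    have e2 : x b = ∑ a, v a b * x a := Subtype.ext (by
      rw [AddSubmonoidClass.coe_finsetSum]
      show y * Z b = ∑ a, Y a * Z b * (y * Z a)
      conv_lhs => rw [← mul_one (y * Z b), ← hsum, Finset.mul_sum]
      exact Finset.sum_congr rfl fun a _ => by ring)
    rw [e1, e2, map_sum, map_sum, Finset.sum_mul]
    refine Finset.sum_congr rfl fun a _ => ?_
    rw [map_mul, map_mul, mul_assoc, ← redAll_apply P (wl a), hwl, hWG]
  set U : ringR M P.S := ⟨_, huMS.pow⟩ with hUdef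
  have hU1 : P.redSer 1 U = 1 := by
    obtain ⟨b, hb⟩ : ∃ b, P.redSer 1 (Zl b) ≠ 0 := by
      by_contra hall
      push Not at hall
      have h1 : P.redSer 1 (∑ b, v b b) = 0 := by
        rw [map_sum]
        refine Finset.sum_eq_zero fun b _ => eq_zero_of_pow_eq_zero (n := ℓ) ?_
        have e : v b b ^ ℓ = ⟨_, (hY b).pow⟩ * Zl b := Subtype.ext (mul_pow _ _ _)
        rw [← map_pow, e, map_mul, hall b, mul_zero]
      rw [show ∑ b, v b b = 1 from Subtype.ext (by rw [AddSubmonoidClass.coe_finsetSum]; exact hsum),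
        map_one] at h1
      exact one_ne_zero h1
    refine mul_right_cancel₀ hb ?_
    rw [one_mul, ← map_mul, show U * Zl b = uz b ^ ℓ from Subtype.ext (mul_pow _ _ _).symm,
      map_pow, huz, hWpow]
  obtain ⟨π, hπ0, hπ, hdvd⟩ := exists_small_dvd P h (x := U - 1) ((redAll_eq_zero_iff P).2
    (redSer_eq_zero' P h (by rw [map_sub, hU1, map_one, sub_self])))
  -- the functions approaching a root of unity
  have hroot : ∀ (r : ringR M P.S) (N : ℕ), constR M P.S π ^ (N + 1) ∣ U * r ^ ℓ - 1 →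
      ∀ γ, ∃ ζ : P.S, ζ ^ ℓ = 1 ∧ ∀ k, P.Dv (π ^ (N + 1))
        ((qser M (comp (u * (r : ℍ → ℂ)) γ)).coeff k -
          (HahnSeries.C (ζ : ℂ) : LaurentSeries ℂ).coeff k) := by
    intro r N hr γ
    have hur : IsMS ℓ P φ (u * (r : ℍ → ℂ)) := by
      have h1 := huMS.mul (IsMS.of_memR (ℓ := ℓ) r.2)
      rwa [haddzero] at h1
    obtain ⟨ys, hys⟩ := exists_coeffMap_eq (hint hur γ).coeff_mem
    have hpow : ys ^ ℓ = serS M P.S γ (U * r ^ ℓ) := by
      refine coeffMap_subtype_injective ?_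
      rw [coeffMap_serS, map_pow, hys, serHom_apply, ← qser_comp_pow γ (hint hur γ)]
      congr 2
      exact mul_pow _ _ _
    have hredpow : P.red ys ^ ℓ = 1 := by
      rw [← map_pow, hpow, ← sub_eq_zero]
      have h1 : P.redSer γ (U * r ^ ℓ - 1) = 0 := by
        obtain ⟨t, ht⟩ := (dvd_pow_self _ N.succ_ne_zero).trans hr
        rw [ht, map_mul, redSer_constR_of_mem P γ hπ, zero_mul]
      rwa [map_sub, map_one] at h1
    obtain ⟨ζ₀, hζ₀⟩ : ∃ ζ₀ : P.S, IsPrimitiveRoot ζ₀ ℓ := by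
      refine ⟨⟨Complex.exp (2 * Real.pi * Complex.I / ℓ), P.mem_of_pow_eq_one hℓ
        (Complex.isPrimitiveRoot_exp ℓ hℓ.ne').pow_eq_one⟩, ?_⟩
      exact IsPrimitiveRoot.of_map_of_injective (f := P.S.subtype)
        (Complex.isPrimitiveRoot_exp ℓ hℓ.ne') Subtype.val_injective
    obtain ⟨ζ, hζ, hζred⟩ : ∃ ζ : P.S, ζ ^ ℓ = 1 ∧
        P.red ys = HahnSeries.C (Ideal.Quotient.mk P.mI ζ) := by
      have h1 := congrArg (Polynomial.eval₂ ((HahnSeries.C : (P.S ⧸ P.mI) →+* _).comp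
        (Ideal.Quotient.mk P.mI)) (P.red ys)) (Polynomial.X_pow_sub_one_eq_prod hℓ hζ₀)
      rw [Polynomial.eval₂_sub, Polynomial.eval₂_X_pow, Polynomial.eval₂_one, hredpow, sub_self,
        Polynomial.eval₂_finsetProd, eq_comm, Finset.prod_eq_zero_iff] at h1
      obtain ⟨ζ, hζ, he⟩ := h1
      rw [Polynomial.eval₂_sub, Polynomial.eval₂_X, Polynomial.eval₂_C, sub_eq_zero] at he
      exact ⟨ζ, (Polynomial.mem_nthRootsFinset hℓ 1).1 hζ, he⟩
    refine ⟨ζ, hζ, fun k => ?_⟩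
    have h2 := series_const_mod P (pow_ne_zero (N + 1) hπ0) (Polynomial.X ^ ℓ - 1) (e := ζ)
      (by simp [hζ]) ?_ ys hζred ?_ k
    · convert h2 using 1
      rw [HahnSeries.coeff_sub, AddSubgroupClass.coe_sub, ← hys]
      congr 1
      rw [HahnSeries.C_apply, HahnSeries.C_apply, HahnSeries.coeff_single, HahnSeries.coeff_single]
      split_ifs <;> simp
    · rw [Polynomial.derivative_sub, Polynomial.derivative_X_pow, Polynomial.derivative_one,
        sub_zero, Polynomial.eval_mul, Polynomial.eval_C, Polynomial.eval_pow, Polynomial.eval_X]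
      exact (P.natCast_isUnit hpℓ).mul ((IsUnit.of_pow_eq_one hζ hℓ.ne').pow _)
    · rw [Polynomial.map_sub, Polynomial.map_pow, Polynomial.map_X, Polynomial.map_one,
        Polynomial.eval_sub, Polynomial.eval_pow, Polynomial.eval_X, Polynomial.eval_one, hpow,
        ← map_one (serS M P.S γ), ← map_sub]
      exact redI_eq_zero_of_dvd P γ (by rw [map_pow]; exact hr)
  choose r₀ hr₀ using exists_root_approx P hℓS hℓ hdvd
  choose ζ₁ hζ₁ hconst₁ using fun N => hroot _ N (hr₀ N) 1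
  let r : ℕ → ringR M P.S := fun N => r₀ N * constR M P.S (ζ₁ N ^ (ℓ - 1))
  have hζpow : ∀ N, (ζ₁ N ^ (ℓ - 1)) ^ ℓ = 1 := fun N => by
    rw [← pow_mul, mul_comm, pow_mul, hζ₁, one_pow]
  have hr : ∀ N, constR M P.S π ^ (N + 1) ∣ U * r N ^ ℓ - 1 := fun N => by
    rw [mul_pow, ← map_pow (constR M P.S) (ζ₁ N ^ (ℓ - 1)), hζpow, map_one, mul_one]
    exact hr₀ N
  have hrMS : ∀ N, IsMS ℓ P φ (u * (r N : ℍ → ℂ)) := fun N => by
    have h1 := huMS.mul (IsMS.of_memR (ℓ := ℓ) (r N).2)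
    rwa [haddzero] at h1
  have hone : ∀ N, P.Dv (π ^ (N + 1)) ((qser M (comp (u * (r N : ℍ → ℂ)) 1)).coeff 0 - 1) := by
    intro N
    have h1 := Dv.mul_left ((ζ₁ N ^ (ℓ - 1)).2) (hconst₁ N 0)
    rw [HahnSeries.C_apply, HahnSeries.coeff_single_same, mul_sub] at h1
    have hur : IsMS ℓ P φ (u * (r₀ N : ℍ → ℂ)) := by
      have h2 := huMS.mul (IsMS.of_memR (ℓ := ℓ) (r₀ N).2)
      rwa [haddzero] at h2
    have e1 : u * (r N : ℍ → ℂ) =
        (fun _ => ((ζ₁ N ^ (ℓ - 1) : P.S) : ℂ)) * (u * (r₀ N : ℍ → ℂ)) := by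
      funext z
      simp only [Pi.mul_apply, r, Subring.coe_mul]
      rw [show ((constR M P.S (ζ₁ N ^ (ℓ - 1)) : ringR M P.S) : ℍ → ℂ) z =
        ((ζ₁ N ^ (ℓ - 1) : P.S) : ℂ) from rfl]
      ring
    rw [e1, qser_comp_mul (S := ⊤) 1 (hasExpIn_const (Subring.mem_top _)) (hur.cfun.expansion 1),
      show comp (fun _ : ℍ => ((ζ₁ N ^ (ℓ - 1) : P.S) : ℂ)) 1 =
        fun _ => ((ζ₁ N ^ (ℓ - 1) : P.S) : ℂ) from rfl, qser_const, HahnSeries.C_mul_eq_smul,
      HahnSeries.coeff_smul, smul_eq_mul]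
    convert h1 using 2
    rw [← Subring.coe_mul, ← pow_succ, Nat.sub_add_cancel hℓ, hζ₁]
    rfl
  -- pole bounds
  obtain ⟨E, hE⟩ : ∃ E : ℤ, ∀ b γ, LowBd (qser M (comp (Z b) γ)) E := by
    choose Eb hEb using fun b => exists_lowBd_all (hZ b).pow
    refine ⟨-∑ b, |Eb b|, fun b γ => ?_⟩
    set z := qser M (comp (Z b) γ)
    intro k hk
    by_contra hzk
    have hz0 : z ≠ 0 := fun e => hzk (by rw [e]; rfl)
    have ho : LowBd z z.order := fun _ h' => HahnSeries.coeff_eq_zero_of_lt_order h'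
    have hok : z.order ≤ k := HahnSeries.order_le_of_coeff_ne_zero hzk
    have h1 := coeff_pow_lowBd ho ℓ
    rw [← qser_comp_pow γ ((hZ b).cfun.expansion γ)] at h1
    have h2 : Eb b ≤ (ℓ : ℤ) * z.order := by
      by_contra hlt
      push Not at hlt
      rw [hEb b γ _ hlt] at h1
      exact pow_ne_zero _ (mt HahnSeries.coeff_order_eq_zero.1 hz0) h1.symm
    have h3 := Finset.single_le_sum (f := fun b => |Eb b|) (fun i _ => abs_nonneg _)
      (Finset.mem_univ b)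
    have h4 : (1 : ℤ) ≤ ℓ := by exact_mod_cast hℓ
    have h5 := neg_abs_le (Eb b)
    have h6 := abs_nonneg (Eb b)
    have h7 : (ℓ : ℤ) * z.order ≤ 1 * z.order := mul_le_mul_of_nonpos_right h4 (by linarith)
    linarith
  refine approx_false P h (ℓ := ℓ) (φ := φ) Y (fun a => (hY a).cfun) (fun a γ => hint (hY a) γ)
    π hπ0 hπ (fun N b => uz b * r N) E ?_ ?_ 1 1 1 0 ?_ ?_
  · intro N b γ k hk
    refine dv_mono P ?_
    obtain ⟨ζ, -, hcst⟩ := hroot _ N (hr N) γ
    have e1 : ((uz b * r N : ringR M P.S) : ℍ → ℂ) = (u * (r N : ℍ → ℂ)) * Z b :=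
      mul_right_comm _ _ _
    have hZint : ∀ j, (qser M (comp (Z b) γ)).coeff j ∈ P.S := by
      refine (hasExpIn_of_isMS P h hℓ hℓS (φ := -φ) (Y := Z) (Z := Y) hZ (fun a => ?_) ?_ (hZ b) γ).coeff_mem
      · rw [show -(-φ) = φ from AddMonoidHom.ext fun x => neg_neg (φ x)]
        exact hY a
      · rw [← hsum]; exact Finset.sum_congr rfl fun a _ => mul_comm _ _
    rw [e1, qser_comp_mul γ ((hrMS N).cfun.expansion γ) ((hZ b).cfun.expansion γ)]
    have e2 : (qser M (comp (u * (r N : ℍ → ℂ)) γ) * qser M (comp (Z b) γ)).coeff k =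
        ((qser M (comp (u * (r N : ℍ → ℂ)) γ) - HahnSeries.C (ζ : ℂ)) *
          qser M (comp (Z b) γ)).coeff k := by
      rw [sub_mul, HahnSeries.coeff_sub, HahnSeries.C_mul_eq_smul, HahnSeries.coeff_smul,
        hE b γ k hk, smul_zero, sub_zero]
    rw [e2, mul_comm]
    exact dv_coeff_mul hZint (fun j => by rw [HahnSeries.coeff_sub]; exact hcst j) k
  · intro N γ k hk
    refine dv_mono P ?_
    obtain ⟨ζ, -, hcst⟩ := hroot _ N (hr N) γ
    have := hcst k
    rw [HahnSeries.C_apply, HahnSeries.coeff_single_of_ne hk.ne, sub_zero] at this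
    convert this using 5
    show ∑ b, Y b * ((uz b * r N : ringR M P.S) : ℍ → ℂ) = u * (r N : ℍ → ℂ)
    rw [show u * (r N : ℍ → ℂ) = (∑ b, Y b * Z b) * (u * (r N : ℍ → ℂ)) by rw [hsum, one_mul],
      Finset.sum_mul]
    exact Finset.sum_congr rfl fun b _ => by
      show Y b * (u * Z b * (r N : ℍ → ℂ)) = _
      ring
  · intro f hf hp
    have hpow := memR_pow_of_isCFun hφ hf
    obtain ⟨c, hc⟩ := eq_const_of_noPole h.three_le hpow fun γ k hk => by
      rw [qser_comp_pow γ (hf.expansion γ)]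
      have := (show LowBd (qser M (comp f γ)) 0 from hp γ).pow ℓ
      exact this k (by simpa using hk)
    obtain ⟨d, rfl⟩ := eq_const_of_pow_eq_const hf.hol hℓ hc
    obtain ⟨δ, hδ⟩ : ∃ δ : Gamma M, chrVal φ δ ≠ 1 := by
      by_contra hall
      push Not at hall
      exact hφ0 (AddMonoidHom.ext fun x => Additive.toMul.injective (Units.ext (hall _)))
    have hd : d = 0 := by
      have h1 : d = chrVal φ δ * d := hf.smul δ UpperHalfPlane.I
      by_contra hd
      exact hδ ((mul_eq_right₀ hd).1 h1.symm)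
    subst hd
    simp only [show ∀ γ : SL(2, ℤ), comp (fun _ : ℍ => (0 : ℂ)) γ = fun _ => 0 from fun _ => rfl]
    rw [show qser M (fun _ : ℍ => (0 : ℂ)) = 0 from by rw [qser_const, map_zero]]
    simp
  · intro N
    refine dv_mono P ?_
    convert hone N using 2
    have e : ∑ b, Y b * ((uz b * r N : ringR M P.S) : ℍ → ℂ) = u * (r N : ℍ → ℂ) := by
      rw [show u * (r N : ℍ → ℂ) = (∑ b, Y b * Z b) * (u * (r N : ℍ → ℂ)) by rw [hsum, one_mul],
        Finset.sum_mul]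
      exact Finset.sum_congr rfl fun b _ => by
        show Y b * (u * Z b * (r N : ℍ → ℂ)) = _
        ring
    simp only [e, Subring.coe_one, ZeroMemClass.coe_zero, one_mul, zero_mul, add_zero]

end FLTAgent.Gamma1.Lv
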