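import Fermat.Agent.Gamma1.Ser
import Fermat.Agent.GalCommon.Basic

/-!
# A place above a prime `p ∤ M`, seen inside `ℂ`

`Plc M` bundles an embedding `ι : ℚ̄ →+* ℂ`, a valuation ring of `ℚ̄` over `p` and `p ∤ M`.
`Plc.S` is the valuation ring in `ℂ`, `Plc.mI` its maximal ideal, `Plc.redSer γ` the expansion
at the cusp `γ` of an integral function reduced modulo the place. `S` contains the roots of
unity and `1/d` for `p ∤ d` (`Plc.zr_le`, `Plc.inv_natCast_mem`).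
-/

set_option autoImplicit false
set_option linter.style.haveILetI false

noncomputable section

open UpperHalfPlane CongruenceSubgroup ModularCurve

namespace FLTAgent.Gamma1.Lv

open FLTAgent.Modular

local notation "ℚ̄" => AlgebraicClosure ℚ

/-- The standing data: a place of `ℚ̄` above a prime not dividing `M`. -/
structure Plc (M : ℕ) where
  ι : ℚ̄ →+* ℂ
  A : ValuationSubring ℚ̄
  p : ℕ
  prime : p.Prime
  lies : A.LiesOverPrime p
  not_dvd : ¬ p ∣ M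

variable {M : ℕ} (P : Plc M)

/-- The valuation ring in `ℂ`. -/
def Plc.S : Subring ℂ := placeC P.ι P.A

/-- Lying in the maximal ideal. -/
def Plc.Small (x : ℂ) : Prop := ∃ a ∈ P.A.nonunits, P.ι a = x

/-- The maximal ideal. -/
def Plc.mI : Ideal P.S where
  carrier := {x | P.Small x}
  zero_mem' := ⟨0, P.A.nonunits.zero_mem, map_zero _⟩
  add_mem' := by
    rintro x y ⟨a, ha, hax⟩ ⟨b, hb, hby⟩
    exact ⟨a + b, P.A.nonunits.add_mem ha hb, by rw [map_add, hax, hby, Subring.coe_add]⟩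
  smul_mem' := by
    rintro ⟨c, a, ha, rfl⟩ x ⟨b, hb, hbx⟩
    refine ⟨a * b, ?_, by rw [map_mul, hbx, smul_eq_mul, Subring.coe_mul]⟩
    rw [ValuationSubring.mem_nonunits_iff] at hb ⊢
    rw [map_mul]
    exact lt_of_le_of_lt (mul_le_of_le_one_left' ((P.A.valuation_le_one_iff a).2 ha)) hb

theorem Plc.mem_mI {x : P.S} : x ∈ P.mI ↔ P.Small x := Iff.rfl

theorem Plc.small_iff {a : ℚ̄} : P.Small (P.ι a) ↔ a ∈ P.A.nonunits :=
  ⟨fun ⟨_, hb, e⟩ => P.ι.injective e ▸ hb, fun h => ⟨a, h, rfl⟩⟩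

theorem Plc.small_zero : P.Small 0 := ⟨0, P.A.nonunits.zero_mem, map_zero _⟩

theorem Plc.not_small_one : ¬ P.Small 1 := fun h => by
  rw [← map_one P.ι, P.small_iff, ValuationSubring.mem_nonunits_iff, map_one] at h
  exact lt_irrefl _ h

instance plc_mI_isMaximal : P.mI.IsMaximal := by
  refine Ideal.isMaximal_iff.2 ⟨P.not_small_one, fun J x hJ hx hxJ => ?_⟩
  obtain ⟨a, ha, hax⟩ := x.2
  have hna : a ∉ P.A.nonunits := fun h => hx (P.mem_mI.2 ⟨a, h, hax⟩)
  rw [ValuationSubring.mem_nonunits_iff_or, not_or, not_not] at hna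
  have hone : (⟨P.ι a⁻¹, a⁻¹, hna.2, rfl⟩ : P.S) * x = 1 := by
    refine Subtype.ext ?_
    rw [Subring.coe_mul, ← hax, ← map_mul, inv_mul_cancel₀ hna.1, map_one, Subring.coe_one]
  exact hone ▸ J.mul_mem_left _ hxJ

/-- The reduction of a series. -/
def Plc.red : LaurentSeries P.S →+* LaurentSeries (P.S ⧸ P.mI) :=
  coeffMap (Ideal.Quotient.mk P.mI)

theorem Plc.red_eq_zero_iff {y : LaurentSeries P.S} :
    P.red y = 0 ↔ ∀ k, P.Small (y.coeff k : ℂ) := by
  constructor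
  · intro h k
    have := congrArg (fun w => w.coeff k) h
    simp only [Plc.red, coeffMap_coeff, HahnSeries.coeff_zero] at this
    exact P.mem_mI.1 (Ideal.Quotient.eq_zero_iff_mem.1 this)
  · intro h
    ext k
    simp only [Plc.red, coeffMap_coeff, HahnSeries.coeff_zero]
    exact Ideal.Quotient.eq_zero_iff_mem.2 (P.mem_mI.2 (h k))

/-- The series at a cusp, modulo the place. -/
def Plc.redSer [NeZero M] (γ : Matrix.SpecialLinearGroup (Fin 2) ℤ) :
    ringR M P.S →+* LaurentSeries (P.S ⧸ P.mI) :=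
  P.red.comp (serS M P.S γ)

theorem Plc.neZero (P : Plc M) : NeZero M := ⟨fun h => P.not_dvd ((dvd_zero P.p).trans (dvd_of_eq h.symm))⟩

theorem Plc.inv_natCast_mem {d : ℕ} (hd : ¬ P.p ∣ d) : ((d : ℕ) : ℂ)⁻¹ ∈ P.S := by
  have hd0 : ((d : ℕ) : ℚ̄) ≠ 0 := Nat.cast_ne_zero.2 fun h => hd (h ▸ dvd_zero _)
  refine ⟨((d : ℕ) : ℚ̄)⁻¹, ?_, by rw [map_inv₀, map_natCast]⟩
  have h := mt (GalCommon.natCast_mem_nonunits_iff P.prime P.lies d).1 hd
  rw [ValuationSubring.mem_nonunits_iff_or, not_or, not_not] at h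
  exact h.2

theorem Plc.mem_of_pow_eq_one {x : ℂ} {d : ℕ} (hd : 0 < d) (hx : x ^ d = 1) : x ∈ P.S := by
  haveI : NeZero d := ⟨hd.ne'⟩
  haveI : NeZero ((d : ℕ) : ℚ̄) := ⟨Nat.cast_ne_zero.2 hd.ne'⟩
  haveI : HasEnoughRootsOfUnity ℚ̄ d := IsSepClosed.hasEnoughRootsOfUnity _ _
  obtain ⟨ζ, hζ⟩ := HasEnoughRootsOfUnity.exists_primitiveRoot ℚ̄ d
  obtain ⟨i, -, hi⟩ := (hζ.map_of_injective P.ι.injective).eq_pow_of_pow_eq_one hx
  refine ⟨ζ ^ i, GalCommon.mem_of_isIntegral P.A ((hζ.isIntegral hd).pow i), ?_⟩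
  rw [map_pow, hi]

theorem Plc.zr_le [NeZero M] : zr M ≤ P.S := by
  refine Subring.closure_le.2 ?_
  rintro x (rfl | rfl)
  · exact P.mem_of_pow_eq_one (Nat.pos_of_ne_zero (NeZero.ne M))
      (Complex.isPrimitiveRoot_exp M (NeZero.ne M)).pow_eq_one
  · exact P.inv_natCast_mem P.not_dvd

theorem Plc.le_algC : P.S ≤ algC := by
  rintro _ ⟨a, -, rfl⟩
  exact mem_algebraicClosure_iff.2
    ((AlgebraicClosure.isAlgebraic ℚ).isAlgebraic a |>.algHom P.ι.toRatAlgHom)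

theorem Plc.exists_of_mem_algC {x : ℂ} (hx : x ∈ algC) : ∃ a : ℚ̄, P.ι a = x := by
  have hx' : IsAlgebraic ℚ x := mem_algebraicClosure_iff.1 hx
  have hsplit : ((minpoly ℚ x).map (algebraMap ℚ ℚ̄)).Splits := IsAlgClosed.splits _
  have hroots := hsplit.roots_map P.ι.toRatAlgHom.toRingHom
  have hmem : x ∈ (((minpoly ℚ x).map (algebraMap ℚ ℚ̄)).map P.ι.toRatAlgHom.toRingHom).roots := by
    rw [Polynomial.map_map, Subsingleton.elim (P.ι.toRatAlgHom.toRingHom.comp (algebraMap ℚ ℚ̄))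
        (algebraMap ℚ ℂ),
      Polynomial.mem_roots (Polynomial.map_ne_zero (minpoly.ne_zero hx'.isIntegral)),
      Polynomial.IsRoot.def, Polynomial.eval_map, ← Polynomial.aeval_def, minpoly.aeval]
  rw [hroots, Multiset.mem_map] at hmem
  obtain ⟨a, -, ha⟩ := hmem
  exact ⟨a, ha⟩

end FLTAgent.Gamma1.Lv
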