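import Fermat.Agent.Gamma1.Coords
import Fermat.Agent.Gamma1.Lv.Place
import Fermat.Agent.Gamma1.Lv.InjMain

/-!
# Injectivity of reduction on characters of order `ℓ`

At a place above `p ∤ M`: `redSer_eq_zero` (the expansion principle), `exists_scale` (scaling
to nonzero reduction) and `eq_zero_of_congr_pow` (a character whose Kummer function is an
`ℓ`-th power modulo the place is trivial), restating the results of `Lv/Principle`,
`Lv/Scale` and `Lv/InjMain`.
-/

set_option autoImplicit false

noncomputable section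

open UpperHalfPlane CongruenceSubgroup ModularCurve
open scoped MatrixGroups

namespace FLTAgent.Gamma1.Lv

open FLTAgent.Modular

variable {n M ℓ : ℕ} [NeZero M] (P : Plc M)

/-- The expansion principle modulo a place. -/
theorem redSer_eq_zero (h : IsLevel n M) {x : ringR M P.S} (h0 : P.redSer 1 x = 0)
    (γ : SL(2, ℤ)) : P.redSer γ x = 0 := redSer_eq_zero' P h h0 γ

/-- A function with algebraic coefficients can be scaled to have a nonzero reduction. -/
theorem exists_scale (h : IsLevel n M) {f : ℍ → ℂ} (hf : MemR M algC f) (hne : f ≠ 0) :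
    ∃ c ∈ algC, c ≠ 0 ∧ ∃ g : ringR M P.S, (g : ℍ → ℂ) = (fun z => c * f z) ∧
      P.redSer 1 g ≠ 0 := exists_scale' P h hf hne

/-- Injectivity of reduction: a character whose Kummer function is an `ℓ`-th power at the place is
trivial. -/
theorem eq_zero_of_congr_pow (h : IsLevel n M) [Fact ℓ.Prime] (hℓM : ℓ ∣ M)
    {φ : Additive (Gamma M) →+ Additive ℂˣ} (hφ : φ ∈ Chr M ℓ) {y : ℍ → ℂ} (hy : IsCFun M φ y)
    (F G : ringR M P.S) (hF : y ^ ℓ = (F : ℍ → ℂ))
    (hcong : P.redSer 1 F = P.redSer 1 G ^ ℓ) (hne : P.redSer 1 F ≠ 0) : φ = 0 :=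
  eq_zero_of_congr_pow' P h hℓM hφ hy F G hF hcong hne

end FLTAgent.Gamma1.Lv
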