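import Fermat.Agent.Gamma1.Lv.Place

/-!
# The valuation ring in `ℂ`: divisibility, rank one, residue field, number fields

For a place `P`: divisibility is total (`Plc.dvd_total`), units are the elements outside the
maximal ideal, powers of a small element are divisible by any given nonzero element
(`Plc.exists_dvd_pow`), the residue field is algebraically closed, and the trace `P.sub L` on
a number field `L` is a principal ideal domain (`Plc.sub_isPrincipalIdealRing`).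
-/

set_option autoImplicit false
set_option linter.style.haveILetI false

noncomputable section

open ModularCurve Polynomial

namespace FLTAgent.Gamma1.Lv

open FLTAgent.Modular

local notation "ℚ̄" => AlgebraicClosure ℚ

variable {M : ℕ} (P : Plc M)

/-- The valuation ring, mapped to `ℂ`. -/
def Plc.toS : P.A →+* P.S where
  toFun a := ⟨P.ι a, a, a.2, rfl⟩
  map_one' := Subtype.ext (map_one P.ι)
  map_mul' _ _ := Subtype.ext (map_mul P.ι _ _)
  map_zero' := Subtype.ext (map_zero P.ι)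
  map_add' _ _ := Subtype.ext (map_add P.ι _ _)

theorem Plc.toS_surjective : Function.Surjective P.toS := by
  rintro ⟨_, a, ha, rfl⟩
  exact ⟨⟨a, ha⟩, rfl⟩

theorem Plc.mem_or_inv_mem {x : ℂ} (hx : x ∈ algC) : x ∈ P.S ∨ x⁻¹ ∈ P.S := by
  obtain ⟨a, rfl⟩ := P.exists_of_mem_algC hx
  rcases P.A.mem_or_inv_mem a with h | h
  · exact Or.inl ⟨a, h, rfl⟩
  · exact Or.inr ⟨a⁻¹, h, map_inv₀ _ _⟩

theorem Plc.dvd_total (a b : P.S) : a ∣ b ∨ b ∣ a := by
  by_cases hb : (b : ℂ) = 0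
  · exact Or.inl ⟨0, Subtype.ext (by simp [hb])⟩
  by_cases ha : (a : ℂ) = 0
  · exact Or.inr ⟨0, Subtype.ext (by simp [ha])⟩
  rcases P.mem_or_inv_mem (algC.mul_mem (P.le_algC a.2) ((algebraicClosure ℚ ℂ).inv_mem (P.le_algC b.2)))
    with h | h
  · exact Or.inr ⟨⟨_, h⟩, Subtype.ext (by
      show (a : ℂ) = b * (a * (b : ℂ)⁻¹)
      field_simp)⟩
  · exact Or.inl ⟨⟨_, h⟩, Subtype.ext (by
      show (b : ℂ) = a * (a * (b : ℂ)⁻¹)⁻¹
      field_simp)⟩

theorem Plc.isUnit_iff {x : P.S} : IsUnit x ↔ x ∉ P.mI := by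
  refine ⟨fun h hx => plc_mI_isMaximal P |>.ne_top (Ideal.eq_top_of_isUnit_mem _ hx h), fun hx => ?_⟩
  obtain ⟨y, hy⟩ := (plc_mI_isMaximal P).exists_inv hx
  obtain ⟨i, hi, hyi⟩ := hy
  rcases P.dvd_total x i with ⟨c, hc⟩ | ⟨c, hc⟩
  · exact isUnit_of_dvd_one ⟨y + c, by rw [← hyi, hc]; ring⟩
  · exact absurd (hc ▸ P.mI.mul_mem_right c hi) hx

theorem Plc.natCast_isUnit {d : ℕ} (hd : ¬ P.p ∣ d) : IsUnit ((d : ℕ) : P.S) := by
  refine isUnit_of_dvd_one ⟨⟨_, P.inv_natCast_mem hd⟩, Subtype.ext ?_⟩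
  have : ((d : ℕ) : ℂ) ≠ 0 := Nat.cast_ne_zero.2 fun h => hd (h ▸ dvd_zero _)
  push_cast
  field_simp

theorem Plc.natCast_mem_mI : ((P.p : ℕ) : P.S) ∈ P.mI := by
  refine ⟨(P.p : ℚ̄), ?_, by push_cast; rw [map_natCast]⟩
  exact (GalCommon.natCast_mem_nonunits_iff P.prime P.lies _).2 dvd_rfl

theorem Plc.natCast_p_ne_zero : ((P.p : ℕ) : P.S) ≠ 0 := fun h => by
  have h' := congrArg (Subtype.val) h
  push_cast at h'
  exact P.prime.ne_zero (Nat.cast_eq_zero.1 h')

/-- One member of a finite family divides all of it. -/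
theorem Plc.exists_dvd_all {α : Type*} (s : Finset α) (f : α → P.S)
    (hne : ∃ i ∈ s, f i ≠ 0) :
    ∃ i₀ ∈ s, f i₀ ≠ 0 ∧ ∀ i ∈ s, f i₀ ∣ f i := by
  classical
  induction s using Finset.induction_on with
  | empty => simp at hne
  | insert a s ha ih =>
    by_cases hs : ∃ i ∈ s, f i ≠ 0
    · obtain ⟨i₀, hi₀, h0, hall⟩ := ih hs
      rcases P.dvd_total (f i₀) (f a) with h | h
      · exact ⟨i₀, Finset.mem_insert_of_mem hi₀, h0,
          Finset.forall_mem_insert .. |>.2 ⟨h, hall⟩⟩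
      · by_cases ha0 : f a = 0
        · exact ⟨i₀, Finset.mem_insert_of_mem hi₀, h0,
            Finset.forall_mem_insert .. |>.2 ⟨ha0 ▸ dvd_zero _, hall⟩⟩
        · exact ⟨a, Finset.mem_insert_self a s, ha0,
            Finset.forall_mem_insert .. |>.2 ⟨dvd_rfl, fun i hi => h.trans (hall i hi)⟩⟩
    · push Not at hs
      obtain ⟨i, hi, hi0⟩ := hne
      rcases Finset.mem_insert.1 hi with rfl | hi'
      · exact ⟨i, Finset.mem_insert_self _ _, hi0,
          Finset.forall_mem_insert .. |>.2 ⟨dvd_rfl, fun j hj => (hs j hj) ▸ dvd_zero _⟩⟩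
      · exact absurd (hs i hi') hi0

theorem Plc.isAlgebraic_int (x : P.S) : IsAlgebraic ℤ x := by
  refine (isAlgebraic_algebraMap_iff (A := ℂ) (S := P.S) (R := ℤ) Subtype.val_injective).1 ?_
  exact (IsFractionRing.isAlgebraic_iff ℤ ℚ ℂ).2 (mem_algebraicClosure_iff.1 (P.le_algC x.2))

theorem Plc.exists_dvd_p_pow {b : P.S} (hb : b ≠ 0) : ∃ k : ℕ, b ∣ ((P.p : ℕ) : P.S) ^ k := by
  obtain ⟨r, hr, hdvd⟩ := (P.isAlgebraic_int b).exists_nonzero_dvd (mem_nonZeroDivisors_of_ne_zero hb)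
  obtain ⟨k, u, hu, he⟩ :=
    Nat.exists_eq_pow_mul_and_not_dvd (Int.natAbs_ne_zero.2 hr) P.p P.prime.ne_one
  refine ⟨k, ?_⟩
  have h1 : b ∣ ((r.natAbs : ℕ) : P.S) := by
    rw [algebraMap_int_eq, eq_intCast] at hdvd
    rcases Int.natAbs_eq r with e | e
    · rw [e] at hdvd; simpa using hdvd
    · rw [e] at hdvd; simpa using hdvd
  rw [he, Nat.cast_mul, Nat.cast_pow] at h1
  exact ((P.natCast_isUnit hu).dvd_mul_right).1 h1

theorem Plc.exists_p_dvd_pow {a : P.S} (ha : a ∈ P.mI) :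
    ∃ N : ℕ, ((P.p : ℕ) : P.S) ∣ a ^ N := by
  classical
  by_contra hall
  push Not at hall
  have hdvd : ∀ N, a ^ N ∣ ((P.p : ℕ) : P.S) := fun N =>
    (P.dvd_total (a ^ N) _).resolve_right (hall N)
  have ha0 : a ≠ 0 := fun h => hall 1 (by simp [h])
  obtain ⟨q, hq0, hq⟩ := P.isAlgebraic_int a
  have hq' : aeval a q.primPart = 0 := aeval_primPart_eq_zero hq0 hq
  have hex : ∃ i, ¬ (P.p : ℤ) ∣ q.primPart.coeff i := by
    by_contra hh
    push Not at hh
    exact GalCommon.natCast_dvd_coeff_false P.prime q.isPrimitive_primPart hh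
  set i₀ := Nat.find hex with hi₀
  rw [aeval_eq_sum_range' (n := max q.primPart.natDegree i₀ + 1) (by omega)] at hq'
  rw [← Finset.add_sum_erase _ _ (show i₀ ∈ Finset.range (max q.primPart.natDegree i₀ + 1) by
    simp)] at hq'
  have hrest : a ^ (i₀ + 1) ∣
      ∑ i ∈ (Finset.range (max q.primPart.natDegree i₀ + 1)).erase i₀, q.primPart.coeff i • a ^ i := by
    refine Finset.dvd_sum fun i hi => ?_
    rw [zsmul_eq_mul]
    rcases lt_or_gt_of_ne (Finset.ne_of_mem_erase hi) with h | h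
    · obtain ⟨c, hc⟩ : (P.p : ℤ) ∣ q.primPart.coeff i := not_not.1 (Nat.find_min hex h)
      rw [hc]
      push_cast
      exact ((hdvd (i₀ + 1)).mul_right _).mul_right _
    · exact (pow_dvd_pow a h).mul_left _
  have h2 : a ^ (i₀ + 1) ∣ q.primPart.coeff i₀ • a ^ i₀ := by
    rw [eq_neg_of_add_eq_zero_left hq']
    exact hrest.neg_right
  rw [zsmul_eq_mul, pow_succ', mul_dvd_mul_iff_right (pow_ne_zero _ ha0)] at h2
  refine P.isUnit_iff.1 (isUnit_of_dvd_unit h2 ?_) ha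
  have hnd : ¬ P.p ∣ (q.primPart.coeff i₀).natAbs := fun h =>
    Nat.find_spec hex (Int.natCast_dvd.2 h)
  have := P.natCast_isUnit hnd
  rcases Int.natAbs_eq (q.primPart.coeff i₀) with e | e <;> rw [e] <;> simpa using this

/-- Rank one. -/
theorem Plc.exists_dvd_pow {a b : P.S} (ha : a ∈ P.mI) (hb : b ≠ 0) : ∃ N : ℕ, b ∣ a ^ N := by
  obtain ⟨k, hk⟩ := P.exists_dvd_p_pow hb
  obtain ⟨N, hN⟩ := P.exists_p_dvd_pow ha
  exact ⟨N * k, hk.trans (by rw [pow_mul]; exact pow_dvd_pow_of_dvd hN k)⟩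

/-- A complex root of a monic polynomial over the valuation ring lies in it. -/
theorem Plc.root_mem {f : P.A[X]} (hf : f.Monic) {x : ℚ̄} (hx : (f.map P.A.subtype).eval x = 0) :
    x ∈ P.A := by
  have hint : IsIntegral P.A x := ⟨f, hf, by rwa [eval_map] at hx⟩
  obtain ⟨y, hy⟩ := IsIntegrallyClosed.isIntegral_iff.mp hint
  exact hy ▸ y.2

theorem Plc.mem_of_pow_mem {x : ℂ} (hx : x ∈ algC) {e : ℕ} (he : 0 < e) (h : x ^ e ∈ P.S) :
    x ∈ P.S := by
  obtain ⟨a, rfl⟩ := P.exists_of_mem_algC hx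
  obtain ⟨b, hb, hbe⟩ := h
  rw [← map_pow] at hbe
  obtain rfl := P.ι.injective hbe
  refine ⟨a, P.root_mem (monic_X_pow_sub_C (⟨_, hb⟩ : P.A) he.ne') ?_, rfl⟩
  simp

instance plc_res_field : Field (P.S ⧸ P.mI) := Ideal.Quotient.field P.mI

instance plc_res_isAlgClosed : IsAlgClosed (P.S ⧸ P.mI) := by
  refine IsAlgClosed.of_exists_root _ fun f hf _ => ?_
  have hsurj : Function.Surjective ((Ideal.Quotient.mk P.mI).comp P.toS) :=
    Ideal.Quotient.mk_surjective.comp P.toS_surjective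
  obtain ⟨g, hg, hdeg, hgm⟩ := lifts_and_degree_eq_and_monic
    ((lifts_iff_coeff_lifts _).2 fun k => hsurj _ |> fun ⟨a, ha⟩ => ⟨a, ha⟩ :
      f ∈ lifts ((Ideal.Quotient.mk P.mI).comp P.toS)) hf
  by_cases hd : f.degree = 0
  · exact absurd (hf.degree_le_zero_iff_eq_one.1 hd.le) (by
      rintro rfl; exact Irreducible.not_isUnit ‹_› isUnit_one)
  have hgd : (g.map P.A.subtype).degree ≠ 0 := by
    rw [hgm.degree_map, hdeg]; exact hd
  obtain ⟨x, hx⟩ := IsAlgClosed.exists_root (g.map P.A.subtype) hgd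
  refine ⟨(Ideal.Quotient.mk P.mI).comp P.toS ⟨x, P.root_mem hgm hx⟩, ?_⟩
  rw [← hg, eval_map, eval₂_at_apply]
  have : g.eval ⟨x, P.root_mem hgm hx⟩ = 0 := by
    apply Subtype.ext
    have := hx
    rw [IsRoot.def, eval_map, show x = P.A.subtype ⟨x, P.root_mem hgm hx⟩ from rfl,
      eval₂_at_apply] at this
    exact this
  rw [this, map_zero]

theorem mem_algC_of_root {q : ℂ[X]} (hq : ∀ i, q.coeff i ∈ algC) (hne : q ≠ 0) {x : ℂ}
    (hx : q.eval x = 0) : x ∈ algC := by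
  obtain ⟨q', rfl⟩ : ∃ q' : (algebraicClosure ℚ ℂ)[X], q'.map (algebraMap _ ℂ) = q :=
    (mem_lifts q).1 ((lifts_iff_coeff_lifts q).2 fun i => ⟨⟨_, hq i⟩, rfl⟩)
  haveI : Algebra.IsAlgebraic ℚ ↥(algebraicClosure ℚ ℂ) :=
    ⟨fun y => (isAlgebraic_algebraMap_iff (A := ℂ) (R := ℚ) Subtype.val_injective).1
      (mem_algebraicClosure_iff.1 y.2)⟩
  refine mem_algebraicClosure_iff.2 (IsAlgebraic.restrictScalars ℚ (S := algebraicClosure ℚ ℂ) ?_)
  exact ⟨q', fun h => hne (by simp [h]), by rwa [eval_map] at hx⟩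

section Dvr

variable (L : IntermediateField ℚ ℂ)

/-- The trace of the valuation ring on a subfield. -/
def Plc.sub : Subring ℂ := P.S ⊓ L.toSubfield.toSubring

theorem Plc.sub_le : P.sub L ≤ P.S := inf_le_left

theorem Plc.sub_dvd {x y : P.sub L} (hx : x ≠ 0)
    (h : (⟨x, P.sub_le L x.2⟩ : P.S) ∣ ⟨y, P.sub_le L y.2⟩) : x ∣ y := by
  obtain ⟨c, hc⟩ := h
  have hc' : (y : ℂ) = x * c := congrArg Subtype.val hc
  have hcL : (c : ℂ) ∈ L := by
    have : (c : ℂ) = y * (x : ℂ)⁻¹ := by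
      rw [hc']
      have : (x : ℂ) ≠ 0 := fun e => hx (Subtype.ext e)
      field_simp
    rw [this]
    exact L.mul_mem y.2.2 (L.inv_mem x.2.2)
  exact ⟨⟨c, c.2, hcL⟩, Subtype.ext hc'⟩

theorem Plc.sub_isUnit {x : P.sub L} (hx : (⟨x, P.sub_le L x.2⟩ : P.S) ∉ P.mI) : IsUnit x := by
  have hx0 : x ≠ 0 := by
    rintro rfl
    exact hx P.mI.zero_mem
  exact isUnit_of_dvd_one (P.sub_dvd L hx0 (P.isUnit_iff.2 hx).dvd)

/-- The trace of the valuation ring on a number field is a discrete valuation ring. -/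
theorem Plc.sub_isPrincipalIdealRing [FiniteDimensional ℚ L] :
    IsPrincipalIdealRing (P.sub L) := by
  classical
  set emb : P.sub L →+* P.S := Subring.inclusion (P.sub_le L) with hemb
  have hmI : ∀ x : P.sub L, ¬ IsUnit x → emb x ∈ P.mI := fun x hx => by
    by_contra h
    exact hx (P.sub_isUnit L h)
  obtain ⟨π, hπm, hπ0, hπ⟩ : ∃ π : P.sub L, emb π ∈ P.mI ∧ π ≠ 0 ∧
      ∀ x : P.sub L, emb x ∈ P.mI → π ∣ x := by
    by_contra hno
    push Not at hno
    have hstep : ∀ a : {a : P.sub L // emb a ∈ P.mI ∧ a ≠ 0},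
        ∃ b : {a : P.sub L // emb a ∈ P.mI ∧ a ≠ 0},
          ∃ c : P.sub L, emb c ∈ P.mI ∧ a.1 = b.1 * c := by
      intro a
      obtain ⟨x, hxm, hx⟩ := hno a.1 a.2.1 a.2.2
      have hx0 : x ≠ 0 := fun h => hx (h.symm ▸ dvd_zero _)
      obtain ⟨c, hc⟩ := P.sub_dvd L hx0
        ((P.dvd_total (emb a.1) (emb x)).resolve_left fun h => hx (P.sub_dvd L a.2.2 h))
      refine ⟨⟨x, hxm, hx0⟩, c, hmI c fun hu => hx ⟨(hu.unit⁻¹ : (P.sub L)ˣ), ?_⟩, hc⟩
      rw [hc, mul_assoc, IsUnit.mul_val_inv, mul_one]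
    choose nxt cf hcm hceq using hstep
    have hp0 : ((P.p : ℕ) : P.sub L) ≠ 0 := fun h => P.natCast_p_ne_zero (by
      have := congrArg emb h
      rwa [map_natCast, map_zero] at this)
    let a : ℕ → {a : P.sub L // emb a ∈ P.mI ∧ a ≠ 0} := fun i => nxt^[i]
      ⟨((P.p : ℕ) : P.sub L), by rw [map_natCast]; exact P.natCast_mem_mI, hp0⟩
    have ha0 : (a 0).1 = ((P.p : ℕ) : P.sub L) := rfl
    have hlt : ∀ i j, i < j → ∃ c : P.sub L, emb c ∈ P.mI ∧ (a i).1 = (a j).1 * c := by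
      intro i j hij
      induction j, hij using Nat.le_induction with
      | base =>
        refine ⟨cf (a i), hcm _, ?_⟩
        have : a (i + 1) = nxt (a i) := Function.iterate_succ_apply' _ _ _
        rw [this]
        exact hceq _
      | succ j _ ih =>
        obtain ⟨c, hc, he⟩ := ih
        refine ⟨cf (a j) * c, by rw [map_mul]; exact P.mI.mul_mem_left _ hc, ?_⟩
        have : a (j + 1) = nxt (a j) := Function.iterate_succ_apply' _ _ _
        rw [he, this, ← mul_assoc, ← hceq]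
    set d := Module.finrank ℚ L with hd
    let v : Fin (d + 1) → L := fun i => ⟨((a i).1 : ℂ), (a i).1.2.2⟩
    have hdep : ¬ LinearIndependent ℚ v := fun h => by
      have := h.fintype_card_le_finrank
      simp [← hd] at this
    rw [LinearIndependent.iff_fractionRing ℤ ℚ |>.symm] at hdep
    obtain ⟨g, hg, i₁, hi₁⟩ := Fintype.not_linearIndependent_iff.1 hdep
    -- make the relation primitive
    obtain ⟨g', hgg', hgcd⟩ := Finset.extract_gcd g (Finset.univ_nonempty (α := Fin (d + 1)))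
    have hG : Finset.univ.gcd g ≠ 0 := fun h => hi₁ (Finset.gcd_eq_zero_iff.1 h i₁ (Finset.mem_univ _))
    have hg' : ∑ i, g' i • (a i).1 = 0 := by
      apply Subtype.ext
      have h1 := congrArg (fun z : L => (z : ℂ)) hg
      simp only [AddSubmonoidClass.coe_finsetSum, ZeroMemClass.coe_zero, v] at h1
      simp only [AddSubmonoidClass.coe_finsetSum, zsmul_eq_mul, Subring.coe_mul,
        ZeroMemClass.coe_zero, Subring.coe_intCast]
      have h2 : ((Finset.univ.gcd g : ℤ) : ℂ) * ∑ i, ((g' i : ℤ) : ℂ) * ((a i).1 : ℂ) = 0 := by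
        rw [← h1, Finset.mul_sum]
        refine Finset.sum_congr rfl fun i _ => ?_
        rw [hgg' i (Finset.mem_univ _), zsmul_eq_mul]
        push_cast
        ring
      exact (mul_eq_zero.1 h2).resolve_left (Int.cast_ne_zero.2 hG)
    have hex : (Finset.univ.filter fun i => ¬ (P.p : ℤ) ∣ g' i).Nonempty := by
      rw [Finset.filter_nonempty_iff]
      by_contra hh
      push Not at hh
      have := Finset.dvd_gcd (s := Finset.univ) (f := g') fun i _ => hh i (Finset.mem_univ _)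
      rw [hgcd] at this
      exact P.prime.ne_one (by simpa using Int.eq_one_of_dvd_one (by positivity) this)
    set i₀ := (Finset.univ.filter fun i => ¬ (P.p : ℤ) ∣ g' i).max' hex with hi₀
    have hrest : ∃ c : P.sub L, emb c ∈ P.mI ∧
        ∑ i ∈ Finset.univ.erase i₀, g' i • (a i).1 = (a i₀).1 * c := by
      refine Finset.sum_induction _ (fun z => ∃ c : P.sub L, emb c ∈ P.mI ∧ z = (a i₀).1 * c)
        ?_ ⟨0, by simp, by simp⟩ ?_
      · rintro _ _ ⟨c, hc, rfl⟩ ⟨c', hc', rfl⟩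
        exact ⟨c + c', by rw [map_add]; exact P.mI.add_mem hc hc', by ring⟩
      · intro i hi
        rw [zsmul_eq_mul]
        rcases lt_or_gt_of_ne (Finset.ne_of_mem_erase hi) with h | h
        · obtain ⟨c, hc, he⟩ := hlt i i₀ h
          exact ⟨g' i * c, by rw [map_mul]; exact P.mI.mul_mem_left _ hc, by rw [he]; ring⟩
        · obtain ⟨k, hk⟩ : (P.p : ℤ) ∣ g' i := by
            by_contra hnd
            exact absurd (Finset.le_max' _ i (by simpa using hnd)) (hi₀ ▸ h).not_ge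
          obtain ⟨c, -, he⟩ : ∃ c : P.sub L, True ∧ (a 0).1 = (a i₀).1 * c := by
            rcases Nat.eq_zero_or_pos (i₀ : ℕ) with h0 | h0
            · exact ⟨1, trivial, by rw [h0, mul_one]⟩
            · obtain ⟨c, -, he⟩ := hlt 0 i₀ h0
              exact ⟨c, trivial, he⟩
          refine ⟨c * k * (a i).1, by rw [map_mul]; exact P.mI.mul_mem_left _ (a i).2.1, ?_⟩
          rw [hk]
          push_cast
          rw [← ha0, he]
          ring
    obtain ⟨c, hc, he⟩ := hrest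
    rw [← Finset.add_sum_erase _ _ (Finset.mem_univ i₀), he, zsmul_eq_mul] at hg'
    have hz : ((g' i₀ : ℤ) : P.sub L) + c = 0 := by
      refine (mul_eq_zero.1 ?_).resolve_left (a i₀).2.2
      linear_combination hg'
    have hmem : ((g' i₀ : ℤ) : P.S) ∈ P.mI := by
      have := congrArg emb hz
      rw [map_add, map_intCast, map_zero] at this
      rw [eq_neg_of_add_eq_zero_left this]
      exact P.mI.neg_mem hc
    have hnd : ¬ P.p ∣ (g' i₀).natAbs := fun h =>
      (Finset.mem_filter.1 (Finset.max'_mem _ hex)).2 (Int.natCast_dvd.2 h)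
    refine P.isUnit_iff.1 ?_ hmem
    have := P.natCast_isUnit hnd
    rcases Int.natAbs_eq (g' i₀) with e | e <;> rw [e] <;> simpa using this
  have hirr : Irreducible π := by
    refine ⟨fun hu => P.isUnit_iff.1 (hu.map emb) hπm, fun a b hab => ?_⟩
    by_contra hh
    push Not at hh
    obtain ⟨a', rfl⟩ := hπ a (hmI a hh.1)
    obtain ⟨b', rfl⟩ := hπ b (hmI b hh.2)
    exact hh.1 (IsUnit.mul_iff.2 ⟨isUnit_of_dvd_one ⟨a' * b', by
      apply mul_left_cancel₀ hπ0
      linear_combination hab⟩, isUnit_of_dvd_one ⟨b' * π, by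
      apply mul_left_cancel₀ hπ0
      linear_combination hab⟩⟩)
  haveI : IsDiscreteValuationRing (P.sub L) := by
    refine IsDiscreteValuationRing.ofHasUnitMulPowIrreducibleFactorization ⟨π, hirr, fun {x} hx => ?_⟩
    obtain ⟨N, hN⟩ := P.exists_dvd_pow hπm (b := emb x) fun h => hx (Subtype.ext (congrArg
      (Subtype.val : P.S → ℂ) h))
    have hNO : x ∣ π ^ N := P.sub_dvd L hx (by rwa [← map_pow] at hN)
    have hfin : ¬ π ^ (N + 1) ∣ x := fun h => by
      have h' := h.trans hNO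
      rw [pow_succ] at h'
      nth_rewrite 2 [← mul_one (π ^ N)] at h'
      exact hirr.not_isUnit (isUnit_of_dvd_one ((mul_dvd_mul_iff_left (pow_ne_zero _ hπ0)).1 h'))
    have hex : ∃ k, ¬ π ^ k ∣ x := ⟨_, hfin⟩
    obtain ⟨k, hk, hk'⟩ : ∃ k, π ^ k ∣ x ∧ ¬ π ^ (k + 1) ∣ x := by
      obtain ⟨k, hk⟩ : ∃ k, Nat.find hex = k + 1 :=
        Nat.exists_eq_succ_of_ne_zero fun h0 => by
          have := Nat.find_spec hex
          rw [h0, pow_zero] at this
          exact this (one_dvd _)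
      exact ⟨k, not_not.1 (Nat.find_min hex (by omega)), hk ▸ Nat.find_spec hex⟩
    obtain ⟨u, hu⟩ := hk
    refine ⟨k, ?_⟩
    have huu : IsUnit u := by
      by_contra hh
      exact hk' (by rw [hu, pow_succ]; exact mul_dvd_mul_left _ (hπ u (hmI u hh)))
    exact ⟨huu.unit, hu.symm⟩
  infer_instance

end Dvr

end FLTAgent.Gamma1.Lv
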