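import Fermat.Agent.Gamma1.Lv.GalRel
import Fermat.Agent.Gamma1.Lv.Inj
import Fermat.Agent.Gamma1.Lv.Val
import Fermat.Agent.Kronecker.CoeffGalois
import Mathlib.FieldTheory.IsAlgClosed.Basic

/-!
# The congruences at a place

`chr_eq_of_inertia`: an automorphism trivial on the residue field fixes every character.
`chr_hecke_eq`: for one inducing the `p`-th power, the Hecke operator at `p` sends `φ` to the
sum of its image and of `p` times the diamond translate of its preimage. Both compare reduced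
expansions at `∞` of Kummer functions and conclude by `eq_zero_of_congr_pow`. `hS_of_inertia`
and `hS_of_frobenius` supply the hypotheses from places of `ℚ̄`.
-/

set_option autoImplicit false
set_option linter.style.haveILetI false
set_option linter.unusedSectionVars false

noncomputable section

open UpperHalfPlane CongruenceSubgroup ModularCurve
open scoped MatrixGroups

namespace FLTAgent.Gamma1.Lv

open FLTAgent.Modular FLTAgent.ModularCosets

local notation "ℚ̄" => AlgebraicClosure ℚ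
local notation "Γℚ" => (AlgebraicClosure ℚ ≃ₐ[ℚ] AlgebraicClosure ℚ)

variable {n M ℓ : ℕ} [NeZero M]

/-! ### Kummer functions -/

theorem rootOf_const_mul [NeZero ℓ] {φ : Additive (Gamma M) →+ Additive ℂˣ} {f : ℍ → ℂ}
    (hf : RootOf ℓ φ f) {c : ℂ} (hc : c ≠ 0) : RootOf ℓ φ ((fun _ => c) * f) := by
  obtain ⟨y, hy, hy0, rfl⟩ := hf
  obtain ⟨d, hd⟩ := IsAlgClosed.exists_pow_nat_eq c (Nat.pos_of_ne_zero (NeZero.ne ℓ))
  have hd0 : d ≠ 0 := by
    rintro rfl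
    exact hc (by rw [← hd, zero_pow (NeZero.ne ℓ)])
  refine ⟨(fun _ => d) * y, isCFun_const_mul hy d, ?_, ?_⟩
  · obtain ⟨z, hz⟩ := Function.ne_iff.mp hy0
    exact Function.ne_iff.mpr ⟨z, mul_ne_zero hd0 hz⟩
  · funext z
    simp [mul_pow, hd]

theorem qser_const_mul {S : Subring ℂ} {f : ℍ → ℂ} (hf : MemR M S f) (c : ℂ) (k : ℤ) :
    (qser M ((fun _ => c) * f)).coeff k = c * (qser M f).coeff k := by
  have h1 := qser_mulC (f := fun _ => c) (g := f) (memR_const (M := M) trivial) (memR_top hf) 1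
  rw [comp_one, comp_one, comp_one, qser_const] at h1
  rw [h1, HahnSeries.C_mul_eq_smul, HahnSeries.coeff_smul, smul_eq_mul]

/-! ### Series at a place -/

variable (P : Plc M)

/-- The series at `∞` of an integral function. -/
theorem coe_serS_one (F : ringR M P.S) (k : ℤ) :
    (((serS M P.S 1 F).coeff k : P.S) : ℂ) = (qser M (F : ℍ → ℂ)).coeff k := by
  rw [coe_serS_coeff, serHom_apply, comp_one]

/-- Integrality at `∞` is integrality everywhere. -/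
theorem memR_S_of_infty (h : IsLevel n M) {f : ℍ → ℂ} (hf : MemR M algC f)
    (hk : ∀ k, (qser M f).coeff k ∈ P.S) : MemR M P.S f := by
  by_cases hf0 : f = 0
  · subst hf0
    exact memR_const (c := 0) P.S.zero_mem
  obtain ⟨c, hc, hc0, g, hg, hne⟩ := exists_scale P h hf hf0
  by_cases hci : c⁻¹ ∈ P.S
  · have hgR : MemR M P.S (g : ℍ → ℂ) := g.2
    have : f = (fun _ => c⁻¹) * (g : ℍ → ℂ) := by
      funext z
      rw [Pi.mul_apply, hg, ← mul_assoc, inv_mul_cancel₀ hc0, one_mul]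
    rw [this]
    exact (memR_const hci).mul hgR
  · have hcS : c ∈ P.S := (P.mem_or_inv_mem hc).resolve_right hci
    have hcm : (⟨c, hcS⟩ : P.S) ∈ P.mI := by
      by_contra hnot
      obtain ⟨u, hu⟩ := (P.isUnit_iff.mpr hnot).exists_right_inv
      refine hci ?_
      have h1 : c * (u : ℂ) = 1 := by simpa using congrArg Subtype.val hu
      rw [inv_eq_of_mul_eq_one_right h1]
      exact u.2
    refine absurd (P.red_eq_zero_iff.mpr fun k => ?_) hne
    have he : (serS M P.S 1 g).coeff k = ⟨c, hcS⟩ * ⟨_, hk k⟩ := Subtype.ext (by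
      rw [coe_serS_one, hg, Subring.coe_mul]
      exact qser_const_mul hf c k)
    rw [he]
    exact P.mem_mI.mp (P.mI.mul_mem_right _ hcm)

instance plc_charP : CharP (P.S ⧸ P.mI) P.p := by
  haveI : Nontrivial (P.S ⧸ P.mI) :=
    Ideal.Quotient.nontrivial_iff.mpr (Ideal.IsMaximal.ne_top inferInstance)
  refine (CharP.charP_iff_prime_eq_zero P.prime).mpr ?_
  rw [← map_natCast (Ideal.Quotient.mk P.mI)]
  exact Ideal.Quotient.eq_zero_iff_mem.mpr P.natCast_mem_mI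

theorem redSer_one_coeff (F : ringR M P.S) (k : ℤ) :
    (P.redSer 1 F).coeff k = Ideal.Quotient.mk P.mI ((serS M P.S 1 F).coeff k) := rfl

/-- Conjugation by `σ` reduces to a power map on the coefficients. -/
theorem redSer_conj {σ : ℂ →+* ℂ} (e : ℕ)
    (hS : ∀ x ∈ P.S, σ x ∈ P.S ∧ P.Small (σ x - x ^ e)) {F F' : ringR M P.S}
    (hc : Conj M σ (F : ℍ → ℂ) (F' : ℍ → ℂ)) (k : ℤ) :
    (P.redSer 1 F').coeff k = (P.redSer 1 F).coeff k ^ e := by
  rw [redSer_one_coeff, redSer_one_coeff, ← map_pow, Ideal.Quotient.eq, P.mem_mI]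
  have h1 : (((serS M P.S 1 F').coeff k : P.S) : ℂ) = σ ((serS M P.S 1 F).coeff k : ℂ) := by
    rw [coe_serS_one, coe_serS_one, ← hc.at_one, coeffMap_coeff]
  rw [AddSubgroupClass.coe_sub, h1, SubmonoidClass.coe_pow]
  exact (hS _ ((serS M P.S 1 F).coeff k).2).2

/-! ### Inertia -/

/-- An automorphism trivial on the residue field fixes every character. -/
theorem chr_eq_of_inertia (h : IsLevel n M) [Fact ℓ.Prime] (hℓM : ℓ ∣ M) {σ : ℂ →+* ℂ}
    (hS : ∀ x ∈ P.S, σ x ∈ P.S ∧ P.Small (σ x - x))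
    {φ ψ : Additive (Gamma M) →+ Additive ℂˣ} (hφ : φ ∈ Chr M ℓ) (hψ : ψ ∈ Chr M ℓ)
    {f f' : ℍ → ℂ} (hf : RootOf ℓ φ f) (halg : MemR M algC f) (hc : Conj M σ f f')
    (hf' : RootOf ℓ ψ f') : ψ = φ := by
  haveI : NeZero ℓ := ⟨(Fact.out : ℓ.Prime).ne_zero⟩
  obtain ⟨c, -, hc0, F, hFg, hne⟩ := exists_scale P h halg hf.ne_zero
  have hFf : (F : ℍ → ℂ) = (fun _ => c) * f := hFg
  have hcF : Conj M σ (F : ℍ → ℂ) ((fun _ => σ c) * f') := by
    rw [hFf]
    exact (Conj.const σ c).mul hc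
  obtain ⟨y, hy, -, hyF⟩ := rootOf_const_mul hf hc0
  obtain ⟨y', hy', -, hyF'⟩ := rootOf_const_mul hf' ((map_ne_zero σ).mpr hc0)
  let F' : ringR M P.S := ⟨_, hcF.memR F.2 fun x hx => (hS x hx).1⟩
  have hred : P.redSer 1 F' = P.redSer 1 F := by
    ext k
    rw [redSer_conj P 1 (fun x hx => by rw [pow_one]; exact hS x hx) hcF k, pow_one]
  have hY := isCFun_mul hy' (isCFun_pow hy (ℓ - 1))
  have hchr : ψ + (ℓ - 1) • φ ∈ Chr M ℓ := add_mem hψ (AddSubgroup.nsmul_mem _ hφ _)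
  have hℓ1 : ℓ - 1 + 1 = ℓ := Nat.sub_add_cancel (Fact.out : ℓ.Prime).one_le
  have h0 : ψ + (ℓ - 1) • φ = 0 := by
    refine eq_zero_of_congr_pow P h hℓM hchr hY (F' * F ^ (ℓ - 1)) F ?_ ?_ ?_
    · rw [Subring.coe_mul, SubmonoidClass.coe_pow, mul_pow, ← pow_mul, mul_comm (ℓ - 1) ℓ, pow_mul,
        hyF', hyF, ← hFf]
    · rw [map_mul, map_pow, hred, ← pow_succ', hℓ1]
    · rw [map_mul, map_pow, hred, ← pow_succ']
      exact pow_ne_zero _ hne
  refine AddMonoidHom.ext fun x => ?_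
  have h0x : ψ x + (ℓ - 1) • φ x = 0 := by simpa using DFunLike.congr_fun h0 x
  have hφx : (ℓ - 1) • φ x + φ x = 0 := by
    rw [← succ_nsmul, hℓ1]
    simpa using DFunLike.congr_fun hφ.2 x
  calc ψ x = ψ x + ((ℓ - 1) • φ x + φ x) := by rw [hφx, add_zero]
    _ = (ψ x + (ℓ - 1) • φ x) + φ x := (add_assoc _ _ _).symm
    _ = φ x := by rw [h0x, zero_add]

/-! ### Frobenius -/

theorem Plc.zeta_mem (b : ℕ) : ((zetaP P.p ^ b : ℂˣ) : ℂ) ∈ P.S := by
  refine P.mem_of_pow_eq_one P.prime.pos ?_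
  rw [Units.val_pow_eq_pow_val, ← pow_mul, mul_comm b, pow_mul, zetaP, Units.val_mk0,
    (Complex.isPrimitiveRoot_exp P.p P.prime.ne_zero).pow_eq_one, one_pow]

/-- `exp (2πib/p)` as a unit at the place. -/
def Plc.zetaS (b : ℕ) : (P.S)ˣ where
  val := ⟨_, P.zeta_mem b⟩
  inv := ⟨((zetaP P.p ^ b : ℂˣ)⁻¹ : ℂˣ), by
    refine P.mem_of_pow_eq_one P.prime.pos ?_
    rw [Units.val_inv_eq_inv_val, Units.val_pow_eq_pow_val, inv_pow, ← pow_mul, mul_comm b,
      pow_mul, zetaP, Units.val_mk0,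
      (Complex.isPrimitiveRoot_exp P.p P.prime.ne_zero).pow_eq_one, one_pow, inv_one]⟩
  val_inv := Subtype.ext (by simp)
  inv_val := Subtype.ext (by simp)

theorem Plc.mk_zetaS (b : ℕ) :
    Units.map (Ideal.Quotient.mk P.mI : P.S →* P.S ⧸ P.mI) (P.zetaS b) = 1 := by
  haveI := Fact.mk P.prime
  have h1 : (P.zetaS b : P.S) ^ P.p = 1 := Subtype.ext (by
    show ((zetaP P.p ^ b : ℂˣ) : ℂ) ^ P.p = 1
    rw [Units.val_pow_eq_pow_val, ← pow_mul, mul_comm b, pow_mul, zetaP, Units.val_mk0,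
      (Complex.isPrimitiveRoot_exp P.p P.prime.ne_zero).pow_eq_one, one_pow])
  refine Units.ext ?_
  show Ideal.Quotient.mk P.mI (P.zetaS b : P.S) = 1
  have h2 : (Ideal.Quotient.mk P.mI (P.zetaS b : P.S) - 1) ^ P.p = 0 := by
    rw [sub_pow_char, ← map_pow, h1, map_one, one_pow, sub_self]
  exact sub_eq_zero.mp (eq_zero_of_pow_eq_zero h2)

theorem Plc.coprime : P.p.Coprime M := P.prime.coprime_iff_not_dvd.mpr P.not_dvd

theorem redM_twSL_dia {s : (ZMod M)ˣ} {d : ℕ} (hd : d.Coprime M) :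
    redM M (twSL s (dia M d)) = redM M (dia M d) := by
  obtain ⟨h01, h10, -⟩ := dia_spec hd
  rw [redM_twSL]
  refine Matrix.SpecialLinearGroup.ext _ _ fun i j => ?_
  fin_cases i <;> fin_cases j <;> simp [twMat, redM_apply, h01, h10]

theorem chr_eq_of_relation [Fact ℓ.Prime] {p : ℕ} {T ψ δ : Additive (Gamma M) →+ Additive ℂˣ}
    (hψ : ℓ • ψ = 0) (hδ : ℓ • δ = 0) (h : T + (ℓ - 1) • ψ + (p * (ℓ - 1)) • δ = 0) :
    T = ψ + p • δ := by
  have hℓ1 : ℓ - 1 + 1 = ℓ := Nat.sub_add_cancel (Fact.out : ℓ.Prime).one_le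
  refine AddMonoidHom.ext fun x => ?_
  have hψx : (ℓ - 1) • ψ x + ψ x = 0 := by
    rw [← succ_nsmul, hℓ1]
    simpa using DFunLike.congr_fun hψ x
  have hδx : (p * (ℓ - 1)) • δ x + p • δ x = 0 := by
    rw [← add_nsmul, ← Nat.mul_succ, Nat.succ_eq_add_one, hℓ1, mul_nsmul',
      show ℓ • δ x = 0 by simpa using DFunLike.congr_fun hδ x, smul_zero]
  have hx : T x + (ℓ - 1) • ψ x + (p * (ℓ - 1)) • δ x = 0 := by
    simpa using DFunLike.congr_fun h x
  calc T x = T x + ((ℓ - 1) • ψ x + ψ x) + ((p * (ℓ - 1)) • δ x + p • δ x) := by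
        rw [hψx, hδx, add_zero, add_zero]
    _ = (T x + (ℓ - 1) • ψ x + (p * (ℓ - 1)) • δ x) + (ψ x + p • δ x) := by abel
    _ = ψ x + p • δ x := by rw [hx, zero_add]

set_option maxHeartbeats 1000000 in
/-- The congruence relation. -/
theorem chr_hecke_eq (h : IsLevel n M) [Fact ℓ.Prime] (hℓM : ℓ ∣ M) {σ : ℂ →+* ℂ}
    (hS : ∀ x ∈ P.S, σ x ∈ P.S ∧ P.Small (σ x - x ^ P.p))
    {χ φ ψ : Additive (Gamma M) →+ Additive ℂˣ} (hχ : χ ∈ Chr M ℓ) (hφ : φ ∈ Chr M ℓ)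
    (hψ : ψ ∈ Chr M ℓ) {f₀ f f' : ℍ → ℂ} (hf₀ : RootOf ℓ χ f₀) (hf : RootOf ℓ φ f)
    (hf' : RootOf ℓ ψ f') (halg : MemR M algC f₀) (hc₀ : Conj M σ f₀ f) (hc : Conj M σ f f') :
    heckeHom M P.p φ = ψ + P.p • conjLin (dia M P.p) χ := by
  haveI : NeZero ℓ := ⟨(Fact.out : ℓ.Prime).ne_zero⟩
  haveI : Fact P.p.Prime := ⟨P.prime⟩
  letI : Field (P.S ⧸ P.mI) := Ideal.Quotient.field P.mI
  have hℓ1 : ℓ - 1 + 1 = ℓ := Nat.sub_add_cancel (Fact.out : ℓ.Prime).one_le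
  set d := dia M P.p with hd
  -- scaling
  obtain ⟨c, -, hc0, G₀, hG₀g, hne⟩ := exists_scale P h halg hf₀.ne_zero
  have hG₀f : (G₀ : ℍ → ℂ) = (fun _ => c) * f₀ := hG₀g
  have hcF : Conj M σ (G₀ : ℍ → ℂ) ((fun _ => σ c) * f) := by
    rw [hG₀f]
    exact (Conj.const σ c).mul hc₀
  let F : ringR M P.S := ⟨_, hcF.memR G₀.2 fun x hx => (hS x hx).1⟩
  have hcF' : Conj M σ (F : ℍ → ℂ) ((fun _ => σ (σ c)) * f') := (Conj.const σ (σ c)).mul hc
  let F' : ringR M P.S := ⟨_, hcF'.memR F.2 fun x hx => (hS x hx).1⟩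
  obtain ⟨y₀, hy₀, -, hyG⟩ := rootOf_const_mul hf₀ hc0
  obtain ⟨y, hy, -, hyF⟩ := rootOf_const_mul hf ((map_ne_zero σ).mpr hc0)
  obtain ⟨y', hy', -, hyF'⟩ :=
    rootOf_const_mul hf' ((map_ne_zero σ).mpr ((map_ne_zero σ).mpr hc0))
  rw [← hG₀f] at hyG
  -- the translates
  let G₀d : ringR M P.S := ⟨comp (G₀ : ℍ → ℂ) d, MemR.comp_sl G₀.2 d⟩
  let Fd : ringR M P.S := ⟨comp (F : ℍ → ℂ) d, MemR.comp_sl F.2 d⟩
  have hcd : Conj M σ (G₀d : ℍ → ℂ) (Fd : ℍ → ℂ) := by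
    have h1 := hcF.comp_sl d
    rwa [MemR.comp_eq_of_redM_eq hcF.mem' (redM_twSL_dia P.coprime)] at h1
  have hG₀d0 : P.redSer 1 G₀d ≠ 0 := by
    intro h0
    have h1 := redSer_eq_zero P h h0 d⁻¹
    refine hne (Eq.trans ?_ h1)
    ext k
    show Ideal.Quotient.mk P.mI ((serS M P.S 1 G₀).coeff k) =
      Ideal.Quotient.mk P.mI ((serS M P.S d⁻¹ G₀d).coeff k)
    congr 1
    refine Subtype.ext ?_
    rw [coe_serS_coeff, coe_serS_coeff]
    show _ = (qser M (comp (comp (G₀ : ℍ → ℂ) d) d⁻¹)).coeff k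
    rw [comp_comp, mul_inv_cancel, serHom_apply]
  have hfrob : ∀ A B : ringR M P.S, Conj M σ (A : ℍ → ℂ) (B : ℍ → ℂ) →
      P.redSer 1 B = coeffMap (frobenius (P.S ⧸ P.mI) P.p) (P.redSer 1 A) := by
    intro A B hAB
    ext k
    rw [coeffMap_coeff, frobenius_def, redSer_conj P P.p hS hAB k]
  -- the Hecke transform
  have hH := isCFun_hecke hy P.prime P.not_dvd
  have hHpow : heckeFun M P.p y ^ ℓ = heckeFun M P.p (F : ℍ → ℂ) := by
    show _ = heckeFun M P.p ((fun _ => σ c) * f)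
    rw [← hyF]
    funext z
    simp [heckeFun, mul_pow, Finset.prod_pow]
  have hHtop : MemR M ⊤ (heckeFun M P.p (F : ℍ → ℂ)) := memR_heckeFun (memR_top F.2) P.prime P.not_dvd
  let Z : LaurentSeries P.S := qScale P.S (P.p * P.p) (serS M P.S 1 Fd) *
    ∏ b : Fin P.p, twist (P.zetaS b) (serS M P.S 1 F)
  have hsub : ∀ A : ringR M P.S, coeffMap P.S.subtype (serS M P.S 1 A) = qser M (A : ℍ → ℂ) :=
    fun A => HahnSeries.ext (funext fun k => by rw [coeffMap_coeff]; exact coe_serS_one P A k)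
  have hZ : coeffMap P.S.subtype Z = qScale ℂ P.p (qser M (heckeFun M P.p (F : ℍ → ℂ))) := by
    rw [qScale_qser_hecke (isCFun_of_memR F.2) P.prime P.not_dvd, map_mul, map_prod,
      coeffMap_qScale, hsub]
    refine congrArg₂ (· * ·) rfl (Finset.prod_congr rfl fun b _ => ?_)
    rw [coeffMap_twist, hsub]
    rfl
  have hint : ∀ k, (qser M (heckeFun M P.p (F : ℍ → ℂ))).coeff k ∈ P.S := fun k => by
    rw [← qScale_coeff_mul (R := ℂ) P.prime.ne_zero _ k, ← hZ, coeffMap_coeff]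
    exact (Z.coeff _).2
  let HF : ringR M P.S :=
    ⟨_, memR_S_of_infty P h (memR_algC_of_infty h hHtop fun k => P.le_algC (hint k)) hint⟩
  have hZ' : qScale P.S P.p (serS M P.S 1 HF) = Z :=
    coeffMap_subtype_injective (by rw [hZ, coeffMap_qScale, hsub])
  have hHred : P.redSer 1 HF = P.redSer 1 G₀d ^ P.p * P.redSer 1 F' := by
    refine qScale_injective (R := P.S ⧸ P.mI) P.p ?_
    have h1 := congrArg P.red hZ'
    simp only [Z, Plc.red, map_mul, map_prod, coeffMap_qScale, coeffMap_twist, Plc.mk_zetaS,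
      twist_one, Finset.prod_const, Finset.card_univ, Fintype.card_fin] at h1
    change qScale _ P.p (P.redSer 1 HF) =
      qScale _ (P.p * P.p) (P.redSer 1 Fd) * P.redSer 1 F ^ P.p at h1
    rw [h1, map_mul, map_pow, hfrob F F' hcF', hfrob G₀d Fd hcd,
      ← qScale_qScale P.prime.ne_zero P.prime.ne_zero, qScale_eq P.p,
      ← Kronecker.pow_char_eq_qExpand, ← Kronecker.pow_char_eq_qExpand, map_pow]
  have hne' : P.redSer 1 F' ≠ 0 := by
    have hinj : Function.Injective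
        (coeffMap (frobenius (P.S ⧸ P.mI) P.p) :
          LaurentSeries (P.S ⧸ P.mI) → LaurentSeries (P.S ⧸ P.mI)) := fun a b hab =>
      HahnSeries.ext (funext fun k => (frobenius (P.S ⧸ P.mI) P.p).injective
        (by simpa using congrArg (fun w => w.coeff k) hab))
    rw [hfrob F F' hcF', hfrob G₀ F hcF]
    exact (map_ne_zero_iff _ hinj).mpr ((map_ne_zero_iff _ hinj).mpr hne)
  -- the combination
  have hY := isCFun_mul (isCFun_mul hH (isCFun_pow hy' (ℓ - 1)))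
    (isCFun_pow (isCFun_comp hy₀ d) (P.p * (ℓ - 1)))
  have hδ : conjLin d χ ∈ Chr M ℓ := conjLin_mem_chr hχ d
  have hchr : heckeHom M P.p φ + (ℓ - 1) • ψ + (P.p * (ℓ - 1)) • conjLin d χ ∈ Chr M ℓ :=
    add_mem (add_mem (heckeHom_mem_chr hφ P.prime P.not_dvd) (AddSubgroup.nsmul_mem _ hψ _))
      (AddSubgroup.nsmul_mem _ hδ _)
  refine chr_eq_of_relation hψ.2 hδ.2 ?_
  have hred : P.redSer 1 (HF * F' ^ (ℓ - 1) * G₀d ^ (P.p * (ℓ - 1))) =
      P.redSer 1 (F' * G₀d ^ P.p) ^ ℓ := by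
    simp only [map_mul, map_pow, hHred]
    conv_rhs => rw [← hℓ1]
    rw [mul_pow, pow_mul, pow_succ' (P.redSer 1 F'),
      pow_succ' (P.redSer 1 G₀d ^ P.p)]
    ring
  refine eq_zero_of_congr_pow P h hℓM hchr hY
    (HF * F' ^ (ℓ - 1) * G₀d ^ (P.p * (ℓ - 1))) (F' * G₀d ^ P.p) ?_ hred ?_
  · have hG₀d : comp y₀ d ^ ℓ = (G₀d : ℍ → ℂ) := by
      show _ = comp (G₀ : ℍ → ℂ) d
      rw [← hyG]
      rfl
    rw [Subring.coe_mul, Subring.coe_mul, SubmonoidClass.coe_pow, SubmonoidClass.coe_pow, mul_pow,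
      mul_pow, hHpow, ← pow_mul, mul_comm (ℓ - 1) ℓ, pow_mul, hyF', ← pow_mul,
      mul_comm (P.p * (ℓ - 1)) ℓ, pow_mul, hG₀d]
  · rw [hred, map_mul, map_pow]
    exact pow_ne_zero _ (mul_ne_zero hne' (pow_ne_zero _ hG₀d0))

/-! ### From places of `ℚ̄` -/

theorem hS_of_frobenius {σ : Γℚ} (hσ : P.A.IsFrobeniusAt σ P.p) :
    ∀ x ∈ P.S, extC P.ι σ x ∈ P.S ∧ P.Small (extC P.ι σ x - x ^ P.p) := by
  obtain ⟨hdec, hfr⟩ := GalCommon.isFrobeniusAt_iff.mp hσ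
  rintro _ ⟨a, ha, rfl⟩
  refine ⟨⟨σ a, (GalCommon.map_mem_iff_of_mem_decomposition hdec).mpr ha, (extC_apply _ _ _).symm⟩,
    ?_⟩
  rw [extC_apply, ← map_pow, ← map_sub, P.small_iff]
  exact hfr a ha

theorem hS_of_inertia {σ : Γℚ} (hσ : σ ∈ P.A.inertiaSubgroupIn ℚ) :
    ∀ x ∈ P.S, extC P.ι σ x ∈ P.S ∧ P.Small (extC P.ι σ x - x) := by
  obtain ⟨hdec, hin⟩ := GalCommon.mem_inertiaSubgroupIn_iff.mp hσ
  rintro _ ⟨a, ha, rfl⟩
  refine ⟨⟨σ a, (GalCommon.map_mem_iff_of_mem_decomposition hdec).mpr ha, (extC_apply _ _ _).symm⟩,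
    ?_⟩
  rw [extC_apply, ← map_sub, P.small_iff]
  exact hin a ha

end FLTAgent.Gamma1.Lv
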