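import Fermat.Agent.Gamma1.Lv.GalRel
import Fermat.Agent.Gamma1.Lv.Inj
import Fermat.Agent.Gamma1.Lv.Cong
import Fermat.Agent.GalCommon.Frobenius
import Fermat.Prelude.Def_GaloisRep_Residual

/-!
# Inertia and Frobenius at a place above a prime not dividing the level

For a place `P` above `p` with `p ∤ M` and `ℓ ∣ M`: `galAct_inertia` (inertia acts trivially
on the characters) and `galAct_frobenius` (the congruence relation of Eichler and Shimura,
`T_p φ = σ φ + p ⟨p⟩ σ⁻¹ φ` for a Frobenius `σ`). Both follow from `Lv/Cong` applied to a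
Kummer function with algebraic coefficients and its conjugates.
-/

set_option autoImplicit false
set_option linter.style.haveILetI false

noncomputable section

open CongruenceSubgroup

namespace FLTAgent.Gamma1.Lv

local notation "Γℚ" => (AlgebraicClosure ℚ ≃ₐ[ℚ] AlgebraicClosure ℚ)

variable {n M ℓ : ℕ} [NeZero M] [Fact ℓ.Prime]

/-- Inertia acts trivially. -/
theorem galAct_inertia (h : IsLevel n M) (hℓM : ℓ ∣ M) (P : Plc M) {σ : Γℚ}
    (hσ : σ ∈ P.A.inertiaSubgroupIn ℚ) : galAct (ℓ := ℓ) h P.ι σ = 1 := by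
  haveI : NeZero ℓ := ⟨(Fact.out : ℓ.Prime).ne_zero⟩
  refine AddMonoidHom.ext fun φ => ?_
  obtain ⟨f, hf, hfa⟩ := exists_root_algC h φ.2
  obtain ⟨f', hc⟩ := exists_conj h (extC P.ι σ) (hf.memR φ.2)
  exact Subtype.ext (chr_eq_of_inertia P h hℓM (hS_of_inertia P hσ) φ.2 (galAct h P.ι σ φ).2 hf hfa
    hc (galAct_spec h P.ι σ φ hf hc))

/-- The congruence relation of Eichler and Shimura. -/
theorem galAct_frobenius (h : IsLevel n M) (hℓM : ℓ ∣ M) (P : Plc M) {σ : Γℚ}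
    (hσ : P.A.IsFrobeniusAt σ P.p) (φ : Chr M ℓ) :
    heckeHom M P.p (φ : Additive (Gamma M) →+ Additive ℂˣ) =
      (galAct h P.ι σ φ : Additive (Gamma M) →+ Additive ℂˣ) +
        P.p • conjLin (dia M P.p)
          ((galAct h P.ι σ⁻¹ φ : Chr M ℓ) : Additive (Gamma M) →+ Additive ℂˣ) := by
  haveI : NeZero ℓ := ⟨(Fact.out : ℓ.Prime).ne_zero⟩
  obtain ⟨f₀, hf₀, hfa⟩ := exists_root_algC h (galAct h P.ι σ⁻¹ φ).2
  obtain ⟨f, hc₀⟩ := exists_conj h (extC P.ι σ) (hf₀.memR (galAct h P.ι σ⁻¹ φ).2)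
  have hback : galAct h P.ι σ (galAct h P.ι σ⁻¹ φ) = φ := by
    refine ((DFunLike.congr_fun (map_mul (galAct (ℓ := ℓ) h P.ι) σ σ⁻¹) φ).symm).trans ?_
    rw [mul_inv_cancel, map_one, AddMonoid.End.coe_one, id_eq]
  have hf := galAct_spec h P.ι σ _ hf₀ hc₀
  rw [hback] at hf
  obtain ⟨f', hc⟩ := exists_conj h (extC P.ι σ) hc₀.mem'
  exact chr_hecke_eq P h hℓM (hS_of_frobenius P hσ) (galAct h P.ι σ⁻¹ φ).2 φ.2
    (galAct h P.ι σ φ).2 hf₀ hf (galAct_spec h P.ι σ φ hf hc) hfa hc₀ hc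

end FLTAgent.Gamma1.Lv
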