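import Fermat.Agent.Gamma1.Lv.GalRel

/-!
# The Galois action commutes with the Hecke and diamond operators

`Conj.comp_dia` and `Conj.hecke`: conjugation commutes with the translate by the diamond matrix
and with the Hecke transform, the latter compared on expansions at `∞`, where the automorphism
only permutes the twisting factors (`coeffMap_prod_twist`). Main result `galAct_comm`.
-/

set_option autoImplicit false
set_option linter.style.haveILetI false
set_option linter.unusedSectionVars false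

noncomputable section

open UpperHalfPlane CongruenceSubgroup ModularCurve
open scoped MatrixGroups

namespace FLTAgent.Gamma1.Lv

open FLTAgent.Modular FLTAgent.ModularCosets

local notation "ℚ̄" => AlgebraicClosure ℚ
local notation "Γℚ" => (AlgebraicClosure ℚ ≃ₐ[ℚ] AlgebraicClosure ℚ)

variable {n M ℓ p : ℕ} [NeZero M]

theorem zetaP_isPrimitiveRoot (hp : p.Prime) : IsPrimitiveRoot (zetaP p) p :=
  IsPrimitiveRoot.coe_units_iff.mp (Complex.isPrimitiveRoot_exp p hp.ne_zero)

/-- A product over the powers of a primitive root does not depend on the root. -/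
theorem prod_pow_primitiveRoot {G R : Type*} [CommMonoid G] [CommMonoid R] (F : G → R)
    {ζ η : G} (hp : p ≠ 0) (hζ : IsPrimitiveRoot ζ p) (hη : IsPrimitiveRoot η p) {i : ℕ}
    (hi : ζ ^ i = η) : ∏ b : Fin p, F (η ^ (b : ℕ)) = ∏ b : Fin p, F (ζ ^ (b : ℕ)) := by
  classical
  have hη' : Function.Injective fun b : Fin p => η ^ (b : ℕ) :=
    fun a b hab => Fin.ext (hη.pow_inj a.2 b.2 hab)
  have hζ' : Function.Injective fun b : Fin p => ζ ^ (b : ℕ) :=
    fun a b hab => Fin.ext (hζ.pow_inj a.2 b.2 hab)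
  have himg : Finset.univ.image (fun b : Fin p => η ^ (b : ℕ)) =
      Finset.univ.image fun b : Fin p => ζ ^ (b : ℕ) := by
    refine Finset.eq_of_subset_of_card_le (fun x hx => ?_) ?_
    · obtain ⟨b, -, rfl⟩ := Finset.mem_image.mp hx
      refine Finset.mem_image.mpr ⟨⟨(i * (b : ℕ)) % p, Nat.mod_lt _ (Nat.pos_of_ne_zero hp)⟩,
        Finset.mem_univ _, ?_⟩
      simp only
      rw [← hi, ← pow_mul]
      exact (pow_eq_pow_mod _ hζ.pow_eq_one).symm
    · rw [Finset.card_image_of_injective _ hη', Finset.card_image_of_injective _ hζ']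
  rw [← Finset.prod_image (f := F) (fun a _ b _ hab => hη' hab), himg,
    Finset.prod_image (fun a _ b _ hab => hζ' hab)]

/-- An automorphism of `ℂ` permutes the twisting factors. -/
theorem coeffMap_prod_twist (σ : ℂ →+* ℂ) (hp : p.Prime) (x : LaurentSeries ℂ) :
    coeffMap σ (∏ b : Fin p, twist (zetaP p ^ (b : ℕ)) x) =
      ∏ b : Fin p, twist (zetaP p ^ (b : ℕ)) (coeffMap σ x) := by
  have : NeZero p := ⟨hp.ne_zero⟩
  have hζ := zetaP_isPrimitiveRoot hp
  have hη : IsPrimitiveRoot (Units.map σ.toMonoidHom (zetaP p)) p :=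
    IsPrimitiveRoot.coe_units_iff.mp
      ((IsPrimitiveRoot.coe_units_iff.mpr hζ).map_of_injective σ.injective)
  obtain ⟨i, -, hi⟩ := (IsPrimitiveRoot.coe_units_iff.mpr hζ).eq_pow_of_pow_eq_one
    (IsPrimitiveRoot.coe_units_iff.mpr hη).pow_eq_one
  have hi' : zetaP p ^ i = Units.map σ.toMonoidHom (zetaP p) := Units.ext (by
    rw [Units.val_pow_eq_pow_val]; exact hi)
  rw [map_prod, ← prod_pow_primitiveRoot (fun c => twist c (coeffMap σ x)) hp.ne_zero hζ hη hi']
  refine Finset.prod_congr rfl fun b _ => ?_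
  rw [coeffMap_twist]
  exact congrArg (fun c => twist c (coeffMap σ x)) (map_pow _ _ _)

theorem redM_twSL_diaH (s : (ZMod M)ˣ) (hp : p.Coprime M) :
    redM M (twSL s (dia M p)) = redM M (dia M p) := by
  obtain ⟨h01, h10, -⟩ := dia_spec (M := M) hp
  rw [redM_twSL]
  refine Matrix.SpecialLinearGroup.ext _ _ fun i j => ?_
  have h01' : redM M (dia M p) 0 1 = 0 := h01
  have h10' : redM M (dia M p) 1 0 = 0 := h10
  fin_cases i <;> fin_cases j <;> simp [twMat, h01', h10']

theorem Conj.comp_dia {σ : ℂ →+* ℂ} {f f' : ℍ → ℂ} (hc : Conj M σ f f') (hp : p.Coprime M) :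
    Conj M σ (comp f (dia M p)) (comp f' (dia M p)) := by
  have h1 := hc.comp_sl (dia M p)
  rwa [hc.mem'.comp_eq_of_redM_eq (redM_twSL_diaH _ hp)] at h1

/-- Conjugation commutes with the Hecke transform. -/
theorem Conj.hecke (h : IsLevel n M) {σ : ℂ →+* ℂ} {f f' : ℍ → ℂ} (hc : Conj M σ f f')
    (hp : p.Prime) (hpM : ¬ p ∣ M) : Conj M σ (heckeFun M p f) (heckeFun M p f') := by
  obtain ⟨H, hH⟩ := exists_conj h σ (memR_heckeFun hc.mem hp hpM)
  suffices e : heckeFun M p f' = H by rw [e]; exact hH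
  refine eq_of_qser_eq (γ := 1) (memR_heckeFun hc.mem' hp hpM) hH.mem' ?_
  rw [comp_one, comp_one, ← hH.at_one]
  refine qScale_injective p ?_
  rw [← coeffMap_qScale, qScale_qser_hecke (isCFun_of_memR hc.mem') hp hpM,
    qScale_qser_hecke (isCFun_of_memR hc.mem) hp hpM, map_mul, coeffMap_qScale,
    coeffMap_prod_twist σ hp, hc.at_one,
    (hc.comp_dia (coprime_of_not_dvd hp hpM)).at_one]

variable (h : IsLevel n M) [NeZero ℓ] (ι : ℚ̄ →+* ℂ)

/-- The action commutes with the operators. -/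
theorem galAct_comm (σ : Γℚ) (i : OpIndex M) (φ ψ : Chr M ℓ)
    (e : opGen M (Additive ℂˣ) i φ.1 = ψ.1) :
    opGen M (Additive ℂˣ) i (galAct h ι σ φ).1 = (galAct h ι σ ψ).1 := by
  obtain ⟨f, hf, -⟩ := exists_root_algC h φ.2
  obtain ⟨f', hf'⟩ := exists_conj h (extC ι σ) (hf.memR φ.2)
  have hφ' := galAct_spec h ι σ φ hf hf'
  obtain ⟨⟨p, hp, hpM⟩, _ | _⟩ := i
  · simp only [opGen] at e ⊢
    refine eq_of_rootOf (hφ'.comp_sl (dia M p)) ?_
    exact galAct_spec h ι σ ψ (e ▸ hf.comp_sl (dia M p))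
      (hf'.comp_dia (coprime_of_not_dvd hp hpM))
  · simp only [opGen] at e ⊢
    refine eq_of_rootOf (hφ'.hecke hp hpM) ?_
    exact galAct_spec h ι σ ψ (e ▸ hf.hecke hp hpM) (hf'.hecke h hp hpM)

end FLTAgent.Gamma1.Lv
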