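import Fermat.Agent.Gamma1.Lv.Normal
import Fermat.Agent.Gamma1.MultBasic

/-!
# Approximate functions with bounded poles: passing to the limit

`approx_false`: if, for every `N`, a combination of fixed multiplier functions has no poles
modulo `π ^ N` while a linear form in its constant terms at two cusps is `1` modulo `π ^ N`,
then that form cannot vanish on all multiplier functions without poles. Proof: such combinations
live in a fixed finite family, so this is linear algebra over the algebraic numbers.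
-/

set_option autoImplicit false
set_option linter.unusedSectionVars false

noncomputable section

open UpperHalfPlane CongruenceSubgroup ModularCurve Polynomial
open scoped MatrixGroups

namespace FLTAgent.Gamma1.Lv

open FLTAgent.Modular

variable {n M ℓ : ℕ} [NeZero M]

/-! ### Expansions -/

theorem qser_add' {f g : ℍ → ℂ} {S : Subring ℂ} (hf : HasExpIn M S f) (hg : HasExpIn M S g) :
    qser M (f + g) = qser M f + qser M g := qser_eq (hf.hasQExp.add hg.hasQExp)

theorem qser_mul' {f g : ℍ → ℂ} {S : Subring ℂ} (hf : HasExpIn M S f) (hg : HasExpIn M S g) :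
    qser M (f * g) = qser M f * qser M g := qser_eq (hf.hasQExp.mul hg.hasQExp)

theorem hasExpIn_finset_sum {α : Type*} (s : Finset α) {f : α → ℍ → ℂ} {S : Subring ℂ}
    (hf : ∀ i ∈ s, HasExpIn M S (f i)) :
    HasExpIn M S (∑ i ∈ s, f i) ∧ qser M (∑ i ∈ s, f i) = ∑ i ∈ s, qser M (f i) := by
  classical
  induction s using Finset.induction_on with
  | empty =>
    simp only [Finset.sum_empty]
    exact ⟨⟨0, hasQExp_zero _, fun k => S.zero_mem⟩, qser_eq (hasQExp_zero _)⟩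
  | insert a s ha ih =>
    obtain ⟨h1, h2⟩ := ih fun i hi => hf i (Finset.mem_insert_of_mem hi)
    have h3 := hf a (Finset.mem_insert_self a s)
    rw [Finset.sum_insert ha, Finset.sum_insert ha, qser_add' h3 h1, h2]
    exact ⟨h3.add h1, rfl⟩

theorem comp_finset_sum {α : Type*} (s : Finset α) (f : α → ℍ → ℂ) (γ : SL(2, ℤ)) :
    comp (∑ i ∈ s, f i) γ = ∑ i ∈ s, comp (f i) γ := map_sum (compHom γ) _ _

theorem qser_comp_mul {f g : ℍ → ℂ} (γ : SL(2, ℤ)) {S : Subring ℂ}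
    (hf : HasExpIn M S (comp f γ)) (hg : HasExpIn M S (comp g γ)) :
    qser M (comp (f * g) γ) = qser M (comp f γ) * qser M (comp g γ) :=
  qser_mul' hf hg

theorem exists_lowBd_all {S : Subring ℂ} {f : ℍ → ℂ} (hf : MemR M S f) :
    ∃ E : ℤ, ∀ γ : SL(2, ℤ), LowBd (qser M (comp f γ)) E := by
  classical
  choose a ha using fun g : SL(2, ZMod M) => exists_lowBd (qser M (comp f (cuspReps M g)))
  refine ⟨-∑ g : SL(2, ZMod M), |a g|, fun γ => ?_⟩
  obtain ⟨g, hg⟩ := exists_cuspRep (M := M) γ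
  rw [← hg f S hf]
  refine (ha g).mono ?_
  have h1 := Finset.single_le_sum (f := fun g => |a g|) (fun i _ => abs_nonneg _) (Finset.mem_univ g)
  have := neg_abs_le (a g)
  omega

variable (P : Plc M)

/-- Divisible by `c` in the valuation ring. -/
def Plc.Dv (c : P.S) (z : ℂ) : Prop := ∃ s : P.S, z = (c : ℂ) * s

variable {P}

theorem Dv.add {c : P.S} {z w : ℂ} (hz : P.Dv c z) (hw : P.Dv c w) : P.Dv c (z + w) := by
  obtain ⟨s, rfl⟩ := hz
  obtain ⟨t, rfl⟩ := hw
  exact ⟨s + t, by push_cast; ring⟩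

theorem Dv.sub {c : P.S} {z w : ℂ} (hz : P.Dv c z) (hw : P.Dv c w) : P.Dv c (z - w) := by
  obtain ⟨s, rfl⟩ := hz
  obtain ⟨t, rfl⟩ := hw
  exact ⟨s - t, by push_cast; ring⟩

theorem Dv.zero (c : P.S) : P.Dv c 0 := ⟨0, by simp⟩

theorem Dv.mul_left {c : P.S} {z w : ℂ} (hw : w ∈ P.S) (hz : P.Dv c z) : P.Dv c (w * z) := by
  obtain ⟨s, rfl⟩ := hz
  exact ⟨⟨w, hw⟩ * s, by push_cast; ring⟩

theorem Dv.sum {α : Type*} {c : P.S} (t : Finset α) {f : α → ℂ} (hf : ∀ i ∈ t, P.Dv c (f i)) :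
    P.Dv c (∑ i ∈ t, f i) :=
  Finset.sum_induction f (P.Dv c) (fun _ _ => Dv.add) (Dv.zero c) hf

theorem dv_coeff_mul {c : P.S} {y z : LaurentSeries ℂ} (hy : ∀ k, y.coeff k ∈ P.S)
    (hz : ∀ k, P.Dv c (z.coeff k)) (k : ℤ) : P.Dv c ((y * z).coeff k) := by
  rw [HahnSeries.coeff_mul]
  exact Dv.sum _ fun ij _ => Dv.mul_left (hy _) (hz _)

variable (P)

/-- The series of a function modulo `c`. -/
def Plc.redI (c : P.S) (γ : SL(2, ℤ)) :
    ringR M P.S →+* LaurentSeries (P.S ⧸ Ideal.span {c}) :=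
  (coeffMap (Ideal.Quotient.mk (Ideal.span {c}))).comp (serS M P.S γ)

theorem redI_coeff_eq_zero_iff (c : P.S) (γ : SL(2, ℤ)) (x : ringR M P.S) (k : ℤ) :
    (P.redI c γ x).coeff k = 0 ↔ P.Dv c ((qser M (comp (x : ℍ → ℂ) γ)).coeff k) := by
  rw [Plc.redI, RingHom.comp_apply, coeffMap_coeff, Ideal.Quotient.eq_zero_iff_mem,
    Ideal.mem_span_singleton]
  constructor
  · rintro ⟨s, hs⟩
    exact ⟨s, congrArg Subtype.val hs⟩
  · rintro ⟨s, hs⟩
    exact ⟨s, Subtype.ext hs⟩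

/-- Congruences pass to the limit. -/
theorem approx_false (h : IsLevel n M) [NeZero ℓ] {φ : Additive (Gamma M) →+ Additive ℂˣ}
    {ι : Type} [Fintype ι] (Y : ι → ℍ → ℂ) (hY : ∀ a, IsCFun M φ (Y a))
    (hYS : ∀ a γ, HasExpIn M P.S (comp (Y a) γ))
    (π : P.S) (hπ0 : π ≠ 0) (hπ : π ∈ P.mI) (x : ℕ → ι → ringR M P.S) (E : ℤ)
    (hx : ∀ N a γ, ∀ k < E, P.Dv (π ^ N) ((qser M (comp (x N a : ℍ → ℂ) γ)).coeff k))
    (hpol : ∀ (N : ℕ) γ, ∀ k < (0 : ℤ),
      P.Dv (π ^ N) ((qser M (comp (∑ a, Y a * (x N a : ℍ → ℂ)) γ)).coeff k))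
    (γ₁ γ₂ : SL(2, ℤ)) (w₁ w₂ : P.S)
    (hΨ : ∀ f, IsCFun M φ f → (∀ γ, ∀ k < (0 : ℤ), (qser M (comp f γ)).coeff k = 0) →
      (w₁ : ℂ) * (qser M (comp f γ₁)).coeff 0 + (w₂ : ℂ) * (qser M (comp f γ₂)).coeff 0 = 0)
    (hone : ∀ N : ℕ, P.Dv (π ^ N)
      ((w₁ : ℂ) * (qser M (comp (∑ a, Y a * (x N a : ℍ → ℂ)) γ₁)).coeff 0 +
        (w₂ : ℂ) * (qser M (comp (∑ a, Y a * (x N a : ℍ → ℂ)) γ₂)).coeff 0 - 1)) : False := by
  classical
  have hS := P.zr_le
  choose Ee hEe using fun i => exists_lowBd_all (fE_mem h hS i)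
  set E₁ : ℤ := -∑ i, |Ee i| with hE₁
  have hEe' : ∀ i γ, LowBd (qser M (comp (fE h i : ℍ → ℂ) γ)) E₁ := fun i γ => (hEe i γ).mono (by
    have h1 := Finset.single_le_sum (f := fun i => |Ee i|) (fun i _ => abs_nonneg _)
      (Finset.mem_univ i)
    have := neg_abs_le (Ee i)
    omega)
  set D : ℕ := (-(E + E₁)).toNat with hD
  obtain ⟨L, hL⟩ := exists_lowBd (serB n M P.S 1 (cuspH h hS))
  set N₀ : ℕ := (-((D : ℤ) * L + (E + E₁))).toNat with hN₀
  have hz : ∀ N a i, ∃ Q : P.S[X], Q.natDegree ≤ N₀ ∧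
      ∀ γ, P.redI (π ^ N) γ (inclB (coord h hS i (x N a))) =
        P.redI (π ^ N) γ (inclB (cuspHInv h hS ^ D * evalT h hS Q)) := by
    intro N a i
    set I : Ideal P.S := Ideal.span {π ^ N} with hI
    have hz1 : ∀ γ, CongMod I γ (coord h hS i (x N a)) (E + E₁) := by
      intro γ k hk
      show (P.redI (π ^ N) γ (inclB (coord h hS i (x N a)))).coeff k = 0
      rw [inclB_coord, map_sum, HahnSeries.coeff_sum]
      refine Finset.sum_eq_zero fun g _ => ?_
      have h1 : P.redI (π ^ N) γ (compR M P.S (sheetLift g) (x N a * ⟨_, fE_mem h hS i⟩)) =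
          P.redI (π ^ N) (sheetLift g * γ) (x N a) *
            P.redI (π ^ N) (sheetLift g * γ) ⟨_, fE_mem h hS i⟩ := by
        rw [← map_mul]
        exact congrArg (coeffMap _) (serS_compR _ _ _)
      rw [h1]
      refine LowBd.mul (a := E) (b := E₁) ?_ ?_ k hk
      · exact fun k hk => (redI_coeff_eq_zero_iff P _ _ _ _).2 (hx N a _ k hk)
      · exact fun k hk => (redI_coeff_eq_zero_iff P _ _ _ _).2 (by
          rw [hEe' i _ k hk]; exact Dv.zero _)
    have hpow : ∀ {γ : SL(2, ℤ)} {b : ringB n M P.S} {e : ℤ}, CongMod I γ b e →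
        CongMod I γ (b ^ D) (D * e) := fun {γ b e} hb => by
      show LowBd (coeffMap (Ideal.Quotient.mk I) (serS M P.S γ (inclB (b ^ D)))) _
      rw [map_pow inclB, map_pow, map_pow]
      exact LowBd.pow hb D
    obtain ⟨Q, hQd, hQ⟩ := exists_evalT_approx (I := I) h hS
      (cuspH h hS ^ D * coord h hS i (x N a)) N₀
      (fun γ hγ => LowBd.mono ((hpow (congMod_of_lowBd (lowBd_cuspH h hS hγ))).mul (hz1 γ))
        (by omega))
      (LowBd.mono ((hpow (congMod_of_lowBd hL)).mul (hz1 1)) (by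
        have hw := width_pos h
        have h1 : (N₀ : ℤ) ≤ N₀ * width n M := le_mul_of_one_le_right (by omega) hw
        have h2 : -((D : ℤ) * L + (E + E₁)) ≤ N₀ := Int.self_le_toNat _
        linarith))
    refine ⟨Q, hQd, fun γ => ?_⟩
    have h2 : P.redI (π ^ N) γ (inclB (cuspH h hS ^ D * coord h hS i (x N a) - evalT h hS Q)) = 0 :=
      hQ γ
    rw [map_sub, map_sub, sub_eq_zero] at h2
    rw [map_mul, map_mul, ← h2, ← map_mul, ← map_mul, ← mul_assoc, ← mul_pow,
      mul_comm (cuspHInv h hS), cuspH_mul_inv, one_pow, one_mul]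
  choose Q hQd hQ using hz
  -- the finite family
  let J := ι × FIdx h × Fin (N₀ + 1)
  let r : J → ringR M P.S := fun J =>
    inclB (cuspHInv h hS ^ D * tB h hS ^ (J.2.2 : ℕ)) * fMR h hS J.2.1
  let β : J → ℍ → ℂ := fun J => Y J.1 * (r J : ℍ → ℂ)
  have hβexp : ∀ J γ, HasExpIn M P.S (comp (β J) γ) := fun J γ =>
    (hYS J.1 γ).mul ((r J).2.expansion γ)
  have hcongr : ∀ N γ k, P.Dv (π ^ N)
      ((qser M (comp (∑ a, Y a * (x N a : ℍ → ℂ)) γ)).coeff k -
        ∑ J : J, ((Q N J.1 J.2.1).coeff J.2.2 : ℂ) * (qser M (comp (β J) γ)).coeff k) := by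
    intro N γ k
    have hx' : ∀ a, ∀ j, P.Dv (π ^ N) ((qser M (comp (x N a : ℍ → ℂ) γ)).coeff j -
        (qser M (comp ((∑ i, ∑ m : Fin (N₀ + 1),
          constR M P.S ((Q N a i).coeff m) * r (a, i, m) : ringR M P.S) : ℍ → ℂ) γ)).coeff j) := by
      intro a j
      set y : ringR M P.S := ∑ i, ∑ m : Fin (N₀ + 1), constR M P.S ((Q N a i).coeff m) * r (a, i, m)
      have hxy : P.redI (π ^ N) γ (x N a - y) = 0 := by
        rw [map_sub, sub_eq_zero]
        conv_lhs => rw [← sum_coord_mul' h hS (x N a)]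
        simp only [y, map_sum]
        refine Finset.sum_congr rfl fun i _ => ?_
        rw [map_mul, hQ N a i γ]
        conv_lhs => rw [(Q N a i).as_sum_range' (N₀ + 1) (Nat.lt_succ_of_le (hQd N a i))]
        rw [map_sum (evalT h hS), Finset.mul_sum, map_sum, map_sum, Finset.sum_mul,
          ← Fin.sum_univ_eq_sum_range (n := N₀ + 1)]
        refine Finset.sum_congr rfl fun m _ => ?_
        rw [← C_mul_X_pow_eq_monomial, map_mul (evalT h hS), map_pow, evalT_C, evalT_X]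
        simp only [r, map_mul, map_pow, inclB_constB]
        ring
      have h1 := (redI_coeff_eq_zero_iff P (π ^ N) γ (x N a - y) j).1 (by rw [hxy]; rfl)
      have h2 := congrArg (fun s => HahnSeries.coeff s j) ((serHom M P.S γ).map_sub (x N a) y)
      simp only [serHom_apply, HahnSeries.coeff_sub] at h2
      rwa [h2] at h1
    have hexp : ∀ a, HasExpIn M P.S (comp (Y a * (x N a : ℍ → ℂ)) γ) :=
      fun a => (hYS a γ).mul ((x N a).2.expansion γ)
    rw [comp_finset_sum, (hasExpIn_finset_sum _ fun a _ => hexp a).2, HahnSeries.coeff_sum,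
      Fintype.sum_prod_type, ← Finset.sum_sub_distrib]
    refine Dv.sum _ fun a _ => ?_
    set y : ringR M P.S := ∑ i, ∑ m : Fin (N₀ + 1), constR M P.S ((Q N a i).coeff m) * r (a, i, m)
      with hy
    have hsum : ∑ p : FIdx h × Fin (N₀ + 1),
        ((Q N a p.1).coeff p.2 : ℂ) * (qser M (comp (β (a, p)) γ)).coeff k =
        (qser M (comp (Y a) γ) * qser M (comp (y : ℍ → ℂ) γ)).coeff k := by
      rw [← serHom_apply, hy, map_sum, Finset.mul_sum, HahnSeries.coeff_sum,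
        Fintype.sum_prod_type]
      refine Finset.sum_congr rfl fun i _ => ?_
      rw [map_sum, Finset.mul_sum, HahnSeries.coeff_sum]
      refine Finset.sum_congr rfl fun m _ => ?_
      rw [map_mul, serHom_apply, serHom_apply,
        show (comp ((constR M P.S ((Q N a i).coeff m) : ringR M P.S) : ℍ → ℂ) γ) =
          fun _ => (((Q N a i).coeff m : P.S) : ℂ) from rfl, qser_const, mul_left_comm,
        HahnSeries.C_mul_eq_smul, HahnSeries.coeff_smul, smul_eq_mul,
        ← qser_comp_mul γ (hYS a γ) ((r (a, i, m)).2.expansion γ)]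
    rw [hsum, qser_comp_mul γ (hYS a γ) ((x N a).2.expansion γ), ← HahnSeries.coeff_sub, ← mul_sub]
    exact dv_coeff_mul (hYS a γ).coeff_mem (fun j => by
      rw [HahnSeries.coeff_sub]; exact hx' a j) k
  -- linear algebra over the algebraic numbers
  let K := algebraicClosure ℚ ℂ
  let val : ∀ (J : J) (γ : SL(2, ℤ)) (k : ℤ), K := fun J γ k =>
    ⟨(qser M (comp (β J) γ)).coeff k, P.le_algC ((hβexp J γ).coeff_mem k)⟩
  let Lf : (SL(2, ℤ) × {k : ℤ // k < 0}) → Module.Dual K (J → K) := fun i =>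
    ∑ J : J, val J i.1 i.2 • LinearMap.proj J
  let ψ : Module.Dual K (J → K) := ∑ J : J,
    ((⟨(w₁ : ℂ), P.le_algC w₁.2⟩ : K) * val J γ₁ 0 + ⟨(w₂ : ℂ), P.le_algC w₂.2⟩ * val J γ₂ 0) •
      LinearMap.proj J
  have hker : ψ ∈ Submodule.span K (Set.range Lf) := by
    rw [← Subspace.dualCoannihilator_dualAnnihilator_eq (W := Submodule.span K (Set.range Lf)),
      Submodule.mem_dualAnnihilator]
    intro z hz
    rw [Submodule.mem_dualCoannihilator] at hz
    set f : ℍ → ℂ := ∑ J : J, (fun _ => ((z J : K) : ℂ)) * β J with hf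
    have hexpf : ∀ J : J, ∀ γ, HasExpIn M ⊤ (comp ((fun _ => ((z J : K) : ℂ)) * β J) γ) :=
      fun J γ => (hasExpIn_const (Subring.mem_top _)).mul ((hβexp J γ).mono le_top)
    have hcoef : ∀ γ k, (qser M (comp f γ)).coeff k = ∑ J : J, ((z J : K) : ℂ) *
        (qser M (comp (β J) γ)).coeff k := fun γ k => by
      rw [hf, comp_finset_sum, (hasExpIn_finset_sum _ fun J _ => hexpf J γ).2,
        HahnSeries.coeff_sum]
      refine Finset.sum_congr rfl fun J _ => ?_
      rw [qser_comp_mul (S := ⊤) γ (hasExpIn_const (Subring.mem_top _)) ((hβexp J γ).mono le_top),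
        show comp (fun _ : ℍ => ((z J : K) : ℂ)) γ = fun _ => ((z J : K) : ℂ) from rfl,
        qser_const, HahnSeries.C_mul_eq_smul, HahnSeries.coeff_smul, smul_eq_mul]
    have hcf : IsCFun M φ f := by
      refine ⟨?_, fun δ w => ?_, fun γ => ?_⟩
      · show DifferentiableOn ℂ ((∑ J : J, (fun _ => ((z J : K) : ℂ)) * β J) ∘ ofComplex) _
        rw [show (∑ J : J, (fun _ => ((z J : K) : ℂ)) * β J) ∘ ofComplex =
          ∑ J : J, ((fun _ => ((z J : K) : ℂ)) * β J) ∘ ofComplex by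
            funext w; simp [Finset.sum_apply]]
        exact DifferentiableOn.sum fun J _ =>
          (differentiableOn_const (c := ((z J : K) : ℂ))).mul ((hY J.1).hol.mul (r J).2.hol)
      · simp only [hf, Finset.sum_apply, Pi.mul_apply, β, Finset.mul_sum]
        refine Finset.sum_congr rfl fun J _ => ?_
        rw [(hY J.1).smul, show ((r J : ringR M P.S) : ℍ → ℂ) ((δ : SL(2, ℤ)) • w) =
          ((r J : ringR M P.S) : ℍ → ℂ) w from congrFun ((r J).2.inv δ δ.2) w]
        ring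
      · rw [hf, comp_finset_sum]
        exact (hasExpIn_finset_sum _ fun J _ => hexpf J γ).1
    have h0 := hΨ f hcf fun γ k hk => by
      have h1 := congrArg (fun w : K => (w : ℂ))
        (hz (Lf (γ, ⟨k, hk⟩)) (Submodule.subset_span ⟨_, rfl⟩))
      simp only [Lf, LinearMap.sum_apply, LinearMap.smul_apply,
        LinearMap.proj_apply, smul_eq_mul, AddSubmonoidClass.coe_finsetSum, MulMemClass.coe_mul,
        ZeroMemClass.coe_zero, val] at h1
      rw [hcoef, ← h1]
      exact Finset.sum_congr rfl fun J _ => mul_comm _ _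
    apply Subtype.ext
    simp only [ψ, LinearMap.sum_apply, LinearMap.smul_apply,
      LinearMap.proj_apply, smul_eq_mul, AddSubmonoidClass.coe_finsetSum, MulMemClass.coe_mul,
      AddMemClass.coe_add, ZeroMemClass.coe_zero, val]
    rw [← h0, hcoef, hcoef, Finset.mul_sum, Finset.mul_sum, ← Finset.sum_add_distrib]
    exact Finset.sum_congr rfl fun J _ => by ring
  obtain ⟨c, hc⟩ := Finsupp.mem_span_range_iff_exists_finsupp.1 hker
  obtain ⟨d, hd0, hdc⟩ : ∃ d : P.S, d ≠ 0 ∧ ∀ i ∈ c.support, (d : ℂ) * (c i : ℂ) ∈ P.S := by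
    suffices hall : ∀ s : Finset (SL(2, ℤ) × {k : ℤ // k < 0}), ∃ d : P.S, d ≠ 0 ∧
        ∀ i ∈ s, (d : ℂ) * (c i : ℂ) ∈ P.S from hall _
    intro s
    induction s using Finset.induction_on with
    | empty => exact ⟨1, one_ne_zero, by simp⟩
    | insert i s _ hs =>
    obtain ⟨d, hd, hds⟩ := hs
    rcases P.mem_or_inv_mem (show (c i : ℂ) ∈ algC from (c i).2) with hi | hi
    · refine ⟨d, hd, Finset.forall_mem_insert .. |>.2 ⟨P.S.mul_mem d.2 hi, hds⟩⟩
    · by_cases hci : (c i : ℂ) = 0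
      · exact ⟨d, hd, Finset.forall_mem_insert .. |>.2 ⟨by simp [hci, P.S.zero_mem], hds⟩⟩
      refine ⟨d * ⟨_, hi⟩, mul_ne_zero hd fun e => inv_ne_zero hci (congrArg Subtype.val e),
        Finset.forall_mem_insert .. |>.2 ⟨?_, fun j hj => ?_⟩⟩
      · simp only [Subring.coe_mul]
        rw [mul_assoc, inv_mul_cancel₀ hci, mul_one]
        exact d.2
      · simp only [Subring.coe_mul]
        rw [mul_right_comm]
        exact P.S.mul_mem (hds j hj) hi
  obtain ⟨N, hN⟩ := P.exists_dvd_pow hπ hd0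
  set M₁ := N + 1
  let q : J → K := fun J => ⟨((Q M₁ J.1 J.2.1).coeff J.2.2 : ℂ), P.le_algC (SetLike.coe_mem _)⟩
  have h3 := congrArg (fun w : K => (d : ℂ) * (w : ℂ)) (LinearMap.congr_fun hc q)
  simp only [Finsupp.sum, LinearMap.sum_apply, LinearMap.smul_apply,
    smul_eq_mul, AddSubmonoidClass.coe_finsetSum, MulMemClass.coe_mul, Finset.mul_sum] at h3
  have hL0 : P.Dv (π ^ M₁) (∑ i ∈ c.support, (d : ℂ) * ((c i : ℂ) * ((Lf i q : K) : ℂ))) := by
    refine Dv.sum _ fun i hi => ?_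
    rw [← mul_assoc]
    refine Dv.mul_left (hdc i hi) ?_
    have h4 := Dv.sub (hpol M₁ i.1 i.2 i.2.2) (hcongr M₁ i.1 i.2)
    rw [sub_sub_cancel] at h4
    simp only [Lf, LinearMap.sum_apply, LinearMap.smul_apply,
      LinearMap.proj_apply, smul_eq_mul, AddSubmonoidClass.coe_finsetSum, MulMemClass.coe_mul,
      val, q]
    convert h4 using 2 with J
    ring
  rw [h3] at hL0
  have hψ : P.Dv (π ^ M₁) (((ψ q : K) : ℂ) - 1) := by
    have h4 := Dv.sub (hone M₁) (Dv.add (Dv.mul_left w₁.2 (hcongr M₁ γ₁ 0))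
      (Dv.mul_left w₂.2 (hcongr M₁ γ₂ 0)))
    convert h4 using 1
    simp only [ψ, LinearMap.sum_apply, LinearMap.smul_apply,
      LinearMap.proj_apply, smul_eq_mul, AddSubmonoidClass.coe_finsetSum, MulMemClass.coe_mul,
      AddMemClass.coe_add, val, q]
    have e1 : ∑ J : J, ((w₁ : ℂ) * (qser M (comp (β J) γ₁)).coeff 0 +
        (w₂ : ℂ) * (qser M (comp (β J) γ₂)).coeff 0) * ((Q M₁ J.1 J.2.1).coeff J.2.2 : ℂ) =
        (w₁ : ℂ) * ∑ J : J, ((Q M₁ J.1 J.2.1).coeff J.2.2 : ℂ) * (qser M (comp (β J) γ₁)).coeff 0 +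
        (w₂ : ℂ) * ∑ J : J, ((Q M₁ J.1 J.2.1).coeff J.2.2 : ℂ) *
          (qser M (comp (β J) γ₂)).coeff 0 := by
      rw [Finset.mul_sum, Finset.mul_sum, ← Finset.sum_add_distrib]
      exact Finset.sum_congr rfl fun J _ => by ring
    rw [e1]
    ring
  have h5 := Dv.sub hL0 (Dv.mul_left d.2 hψ)
  rw [mul_sub, sub_sub_cancel, mul_one] at h5
  obtain ⟨s, hs⟩ := h5
  obtain ⟨t, ht⟩ := hN
  have h6 : π ^ N * 1 = π ^ N * (π * (s * t)) := by
    rw [mul_one]
    refine Subtype.ext ?_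
    have ht' := congrArg (Subtype.val : P.S → ℂ) ht
    push_cast at hs ht' ⊢
    rw [hs] at ht'
    simp only [M₁, pow_succ] at ht'
    linear_combination ht'
  exact P.isUnit_iff.1 (isUnit_of_dvd_one ⟨_, mul_left_cancel₀ (pow_ne_zero _ hπ0) h6⟩) hπ

end FLTAgent.Gamma1.Lv
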