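import Fermat.Agent.Gamma1.Lv.Scale
import Fermat.Agent.Gamma1.HeckeAPI

/-!
# Integral multiplier functions and determinants over the sheets modulo `±1`

`IsMS ℓ P φ w` says that `w` is a multiplier function of `φ` whose `ℓ`-th power is integral at
the place; these are closed under sums, products, translates and determinants (`IsMS.det`).
For a tuple `Y` indexed by the sheets of `Γ(n)` over `±Γ(M)`, `colDB` is the power `2 ℓ` of
the determinant of the translates, an element of the integral base ring.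
-/

set_option autoImplicit false
set_option linter.unusedSectionVars false

noncomputable section

open UpperHalfPlane CongruenceSubgroup ModularCurve
open scoped MatrixGroups

namespace FLTAgent.Gamma1.Lv

open FLTAgent.Modular

variable {n M ℓ : ℕ} [NeZero M] {P : Plc M} {φ ψ : Additive (Gamma M) →+ Additive ℂˣ}
  {w w' : ℍ → ℂ}

theorem hom_zero_add (φ : Additive (Gamma M) →+ Additive ℂˣ) :
    (0 : Additive (Gamma M) →+ Additive ℂˣ) + φ = φ := AddMonoidHom.ext fun x => zero_add (φ x)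

theorem hom_zero_nsmul (φ : Additive (Gamma M) →+ Additive ℂˣ) : (0 : ℕ) • φ = 0 :=
  AddMonoidHom.ext fun x => zero_nsmul (φ x)

theorem hom_succ_nsmul (φ : Additive (Gamma M) →+ Additive ℂˣ) (k : ℕ) :
    (k + 1) • φ = k • φ + φ := AddMonoidHom.ext fun x => succ_nsmul (φ x) k

theorem hom_add_nsmul (φ : Additive (Gamma M) →+ Additive ℂˣ) (i j : ℕ) :
    (i + j) • φ = i • φ + j • φ := AddMonoidHom.ext fun x => add_nsmul (φ x) i j

/-- A multiplier function whose `ℓ`-th power is integral. -/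
structure IsMS (ℓ : ℕ) (P : Plc M) (φ : Additive (Gamma M) →+ Additive ℂˣ) (w : ℍ → ℂ) :
    Prop where
  cfun : IsCFun M φ w
  pow : MemR M P.S (w ^ ℓ)

theorem isCFun_mul' (hw : IsCFun M φ w) (hw' : IsCFun M ψ w') : IsCFun M (φ + ψ) (w * w') :=
  ⟨DifferentiableOn.mul hw.hol hw'.hol, fun γ z => by
      simp only [Pi.mul_apply, hw.smul, hw'.smul, chrVal, AddMonoidHom.add_apply, toMul_add,
        Units.val_mul]
      ring,
    fun γ => (hw.expansion γ).mul (hw'.expansion γ)⟩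

theorem isCFun_zero_fun (φ : Additive (Gamma M) →+ Additive ℂˣ) : IsCFun M φ (0 : ℍ → ℂ) :=
  ⟨differentiableOn_const (c := (0 : ℂ)), fun _ _ => (mul_zero _).symm,
    fun _ => ⟨0, hasQExp_zero _, fun _ => Subring.mem_top _⟩⟩

theorem isCFun_add (hw : IsCFun M φ w) (hw' : IsCFun M φ w') : IsCFun M φ (w + w') :=
  ⟨DifferentiableOn.add hw.hol hw'.hol, fun γ z => by
      simp only [Pi.add_apply, hw.smul, hw'.smul, mul_add],
    fun γ => (hw.expansion γ).add (hw'.expansion γ)⟩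

theorem IsMS.mul (hw : IsMS ℓ P φ w) (hw' : IsMS ℓ P ψ w') : IsMS ℓ P (φ + ψ) (w * w') :=
  ⟨isCFun_mul' hw.cfun hw'.cfun, by rw [mul_pow]; exact hw.pow.mul hw'.pow⟩

theorem IsMS.of_memR {f : ℍ → ℂ} (hf : MemR M P.S f) : IsMS ℓ P 0 f :=
  ⟨memR_isCFun_zero hf, (ringR M P.S).pow_mem (show f ∈ ringR M P.S from hf) ℓ⟩

theorem IsMS.zero (hℓ : ℓ ≠ 0) (φ : Additive (Gamma M) →+ Additive ℂˣ) :
    IsMS ℓ P φ (0 : ℍ → ℂ) :=
  ⟨isCFun_zero_fun φ, by rw [zero_pow hℓ]; exact (ringR M P.S).zero_mem⟩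

theorem IsMS.smul_mem {c : ℂ} (hc : c ∈ P.S) (hw : IsMS ℓ P φ w) :
    IsMS ℓ P φ ((fun _ => c) * w) := by
  have := (IsMS.of_memR (ℓ := ℓ) (memR_const (M := M) hc)).mul hw
  rwa [hom_zero_add] at this

theorem IsMS.memR (h : IsLevel n M) (hℓ : 0 < ℓ) (hw : IsMS ℓ P 0 w) : MemR M P.S w :=
  memR_S_of_pow P h (isCFun_zero_memR hw.cfun) hℓ hw.pow

theorem IsMS.npow (hw : IsMS ℓ P φ w) (k : ℕ) : IsMS ℓ P (k • φ) (w ^ k) := by
  induction k with
  | zero => rw [hom_zero_nsmul, pow_zero]; exact IsMS.of_memR (ringR M P.S).one_mem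
  | succ k ih => rw [hom_succ_nsmul, pow_succ]; exact ih.mul hw

theorem IsMS.add (h : IsLevel n M) (hℓ : 0 < ℓ) (hφ : φ ∈ Chr M ℓ) (hw : IsMS ℓ P φ w)
    (hw' : IsMS ℓ P φ w') : IsMS ℓ P φ (w + w') := by
  refine ⟨isCFun_add hw.cfun hw'.cfun, ?_⟩
  rw [add_pow]
  refine (sum_mem fun i hi => ?_ : _ ∈ ringR M P.S)
  refine (ringR M P.S).mul_mem ?_ (natCast_mem _ _)
  have h1 := (hw.npow i).mul (hw'.npow (ℓ - i))
  rw [← hom_add_nsmul, Nat.add_sub_cancel' (Finset.mem_range_succ_iff.1 hi), hφ.2] at h1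
  exact h1.memR h hℓ

theorem IsMS.sum {α : Type*} (s : Finset α) (h : IsLevel n M) (hℓ : 0 < ℓ) (hφ : φ ∈ Chr M ℓ)
    {f : α → ℍ → ℂ} (hf : ∀ i ∈ s, IsMS ℓ P φ (f i)) : IsMS ℓ P φ (∑ i ∈ s, f i) :=
  Finset.sum_induction f (IsMS ℓ P φ) (fun _ _ => IsMS.add h hℓ hφ) (IsMS.zero hℓ.ne' φ) hf

theorem IsMS.prod {α : Type*} (s : Finset α) {χ : α → (Additive (Gamma M) →+ Additive ℂˣ)}
    {f : α → ℍ → ℂ} (hf : ∀ i ∈ s, IsMS ℓ P (χ i) (f i)) :
    IsMS ℓ P (∑ i ∈ s, χ i) (∏ i ∈ s, f i) := by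
  classical
  induction s using Finset.induction_on with
  | empty => rw [Finset.sum_empty, Finset.prod_empty]; exact IsMS.of_memR (ringR M P.S).one_mem
  | insert a s ha ih =>
    rw [Finset.sum_insert ha, Finset.prod_insert ha]
    exact (hf a (Finset.mem_insert_self a s)).mul
      (ih fun i hi => hf i (Finset.mem_insert_of_mem hi))

theorem IsMS.comp_sl (hw : IsMS ℓ P φ w) (g : SL(2, ℤ)) :
    IsMS ℓ P (conjLin g φ) (comp w g) :=
  ⟨isCFun_comp hw.cfun g, hw.pow.comp_sl g⟩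

theorem IsMS.det {ι : Type*} [Fintype ι] [DecidableEq ι] (h : IsLevel n M) (hℓ : 0 < ℓ)
    {χ : ι → (Additive (Gamma M) →+ Additive ℂˣ)} (hχ : ∀ g, χ g ∈ Chr M ℓ)
    {W : Matrix ι ι (ℍ → ℂ)} (hW : ∀ a g, IsMS ℓ P (χ g) (W a g)) :
    IsMS ℓ P (∑ g, χ g) W.det := by
  rw [Matrix.det_apply]
  refine IsMS.sum _ h hℓ (sum_mem fun g _ => hχ g) fun σ _ => ?_
  have h1 := IsMS.prod (P := P) (ℓ := ℓ) Finset.univ fun g _ => hW (σ g) g
  rcases Int.units_eq_one_or (Equiv.Perm.sign σ) with e | e <;> rw [e]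
  · simpa using h1
  · have h2 := h1.smul_mem (P.S.neg_mem P.S.one_mem)
    convert h2 using 1
    funext z
    simp

/-! ### Sheets modulo signs -/

variable (n M) in
/-- The signs among the sheets, as a subgroup. -/
def signSub : Subgroup (sheetGrp n M) where
  carrier := {g | (g : SL(2, ZMod M)) = 1 ∨ (g : SL(2, ZMod M)) = -1}
  one_mem' := Or.inl rfl
  mul_mem' := by
    rintro a b (ha | ha) (hb | hb) <;>
      simp only [Set.mem_ofPred_eq, Subgroup.coe_mul, ha, hb, one_mul, mul_one, neg_mul, neg_neg,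
        true_or, or_true]
  inv_mem' := by
    rintro a (ha | ha) <;> simp only [Set.mem_ofPred_eq, Subgroup.coe_inv, ha]
    · exact Or.inl inv_one
    · exact Or.inr (inv_eq_of_mul_eq_one_right (by simp))

instance signSub_normal : (signSub n M).Normal where
  conj_mem := by
    rintro a (ha | ha) g
    · left
      simp only [Subgroup.coe_mul, Subgroup.coe_inv, ha, mul_one, mul_inv_cancel]
    · right
      simp only [Subgroup.coe_mul, Subgroup.coe_inv, ha, mul_neg, mul_one, neg_mul, mul_inv_cancel]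

variable (n M) in
/-- The sheets modulo `±1`. -/
abbrev Cl : Type := sheetGrp n M ⧸ signSub n M

instance fintype_cl : Fintype (Cl n M) := Fintype.ofFinite _

open Classical in
/-- A lift of a class. -/
def colLift (q : Cl n M) : SL(2, ℤ) := if q = 1 then 1 else sheetLift q.out

theorem colLift_mem (q : Cl n M) : colLift q ∈ Gamma n := by
  rw [colLift]
  split_ifs
  exacts [(Gamma n).one_mem, sheetLift_mem _]

theorem colLift_one : colLift (1 : Cl n M) = 1 := if_pos rfl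

/-- The sheet of an element of `Γ(n)`. -/
def sheetOf {δ : SL(2, ℤ)} (hδ : δ ∈ Gamma n) : sheetGrp n M := ⟨redM M δ, δ, hδ, rfl⟩

theorem mk_sheetOf_colLift (q : Cl n M) :
    QuotientGroup.mk (sheetOf (M := M) (colLift_mem q)) = q := by
  by_cases hq : q = 1
  · subst hq
    refine (QuotientGroup.eq_one_iff _).2 (Or.inl ?_)
    show redM M (colLift 1) = 1
    rw [colLift_one, map_one]
  · conv_rhs => rw [← QuotientGroup.out_eq' q]
    congr 1
    refine Subtype.ext ?_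
    show redM M (colLift q) = _
    rw [colLift, if_neg hq, redM_sheetLift]

theorem exists_eq_colLift {δ : SL(2, ℤ)} (hδ : δ ∈ Gamma n) :
    ∃ ε : Gamma M, δ = (ε : SL(2, ℤ)) * colLift (QuotientGroup.mk (sheetOf (M := M) hδ)) ∨
      δ = -((ε : SL(2, ℤ)) * colLift (QuotientGroup.mk (sheetOf (M := M) hδ))) := by
  set q : Cl n M := QuotientGroup.mk (sheetOf (M := M) hδ)
  have hq := mk_sheetOf_colLift q
  rw [QuotientGroup.eq] at hq
  have hmul : ∀ s : SL(2, ZMod M), (redM M (colLift q))⁻¹ * redM M δ = s →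
      redM M δ = redM M (colLift q) * s := fun s e => by rw [← e, mul_inv_cancel_left]
  have hmem : ∀ x : SL(2, ℤ), redM M x = 1 → x ∈ Gamma M := fun x hx => by
    rw [Gamma_mem']; exact hx
  rcases hq with hq | hq
  · have h1 := hmul 1 hq
    rw [mul_one] at h1
    exact ⟨⟨δ * (colLift q)⁻¹, hmem _ (by rw [map_mul, map_inv, h1, mul_inv_cancel])⟩,
      Or.inl (inv_mul_cancel_right _ _).symm⟩
  · have h1 := hmul (-1) hq
    rw [mul_neg, mul_one] at h1
    have hneg : redM M (-δ) = -redM M δ := by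
      ext i j
      simp [redM_apply]
    refine ⟨⟨-δ * (colLift q)⁻¹, hmem _ (by rw [map_mul, map_inv, hneg, h1, neg_neg,
      mul_inv_cancel])⟩, Or.inr ?_⟩
    rw [inv_mul_cancel_right, neg_neg]

/-- Values of a multiplier function on `Γ(n) z`. -/
theorem apply_smul_eq {δ : SL(2, ℤ)} (hδ : δ ∈ Gamma n) (hw : IsCFun M φ w) :
    ∃ ε : Gamma M, ∀ z, w (δ • z) =
      chrVal φ ε * w (colLift (QuotientGroup.mk (sheetOf (M := M) hδ)) • z) := by
  obtain ⟨ε, hε | hε⟩ := exists_eq_colLift (M := M) hδ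
  · exact ⟨ε, fun z => by conv_lhs => rw [hε, mul_smul, hw.smul]⟩
  · exact ⟨ε, fun z => by conv_lhs => rw [hε, ModularGroup.SL_neg_smul, mul_smul, hw.smul]⟩

/-- The determinant over the sheets. -/
def colMat (Y : Cl n M → ℍ → ℂ) : Matrix (Cl n M) (Cl n M) (ℍ → ℂ) :=
  Matrix.of fun a g => comp (Y a) (colLift g)

theorem det_apply' {ι : Type*} [Fintype ι] [DecidableEq ι] (W : Matrix ι ι (ℍ → ℂ)) (z : ℍ) :
    W.det z = (W.map fun f => f z).det :=
  RingHom.map_det (Pi.evalRingHom (fun _ : ℍ => ℂ) z) W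

open Classical in
/-- The determinant. -/
def colDet (Y : Cl n M → ℍ → ℂ) : ℍ → ℂ := (colMat Y).det

/-- The norm-like invariant. -/
def colD (ℓ : ℕ) (Y : Cl n M → ℍ → ℂ) : ℍ → ℂ := colDet Y ^ (2 * ℓ)

variable (hℓ : 0 < ℓ) (h : IsLevel n M) (hφ : φ ∈ Chr M ℓ) {Y : Cl n M → ℍ → ℂ}

include hφ in
theorem conj_mem_chr (g : Cl n M) : conjLin (colLift g) φ ∈ Chr M ℓ :=
  conjLin_mem_chr hφ _

include hℓ h hφ in
theorem isMS_colDet (hY : ∀ a, IsMS ℓ P φ (Y a)) :
    IsMS ℓ P (∑ g : Cl n M, conjLin (colLift g) φ) (colDet Y) := by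
  classical
  exact IsMS.det h hℓ (fun g => conj_mem_chr hφ g) fun a g => (hY a).comp_sl _

include hℓ h hφ in
theorem memR_colD (hY : ∀ a, IsMS ℓ P φ (Y a)) : MemR M P.S (colD ℓ Y) := by
  have h1 := (isMS_colDet hℓ h hφ hY).pow
  rw [colD, two_mul, pow_add]
  exact h1.mul h1

include hφ in
theorem colD_invariant (hY : ∀ a, IsCFun M φ (Y a)) {δ : SL(2, ℤ)} (hδ : δ ∈ Gamma n) :
    comp (colD ℓ Y) δ = colD ℓ Y := by
  classical
  funext z
  let g₀ : Cl n M := QuotientGroup.mk (sheetOf (M := M) hδ)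
  have hmem : ∀ g : Cl n M, colLift g * δ ∈ Gamma n :=
    fun g => (Gamma n).mul_mem (colLift_mem g) hδ
  have hcls : ∀ g : Cl n M, QuotientGroup.mk (sheetOf (M := M) (hmem g)) = g * g₀ := fun g => by
    conv_rhs => rw [← mk_sheetOf_colLift g]
    rw [← QuotientGroup.mk_mul]
    congr 1
    exact Subtype.ext (map_mul (redM M) _ _)
  choose ε hε using fun g : Cl n M => exists_eq_colLift (M := M) (hmem g)
  have hval : ∀ a g, Y a (colLift g • δ • z) =
      chrVal φ (ε g) * Y a (colLift (g * g₀) • z) := fun a g => by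
    rw [← hcls g, ← mul_smul]
    rcases hε g with e | e
    · conv_lhs => rw [e, mul_smul, (hY a).smul]
    · conv_lhs => rw [e, ModularGroup.SL_neg_smul, mul_smul, (hY a).smul]
  show colDet Y (δ • z) ^ (2 * ℓ) = colDet Y z ^ (2 * ℓ)
  rw [colDet, det_apply', det_apply']
  have hmat : (colMat Y).map (fun f => f (δ • z)) = Matrix.of fun a g =>
      chrVal φ (ε g) * ((colMat Y).map fun f => f z).submatrix id (Equiv.mulRight g₀) a g := by
    ext a g
    exact hval a g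
  rw [hmat, Matrix.det_mul_row, Matrix.det_permute', mul_pow, mul_pow]
  have h1 : (∏ g : Cl n M, chrVal φ (ε g)) ^ (2 * ℓ) = 1 := by
    rw [← Finset.prod_pow]
    exact Finset.prod_eq_one fun g _ => by
      rw [mul_comm 2 ℓ, pow_mul, chrVal_pow_eq_one hφ, one_pow]
  rw [h1, one_mul, pow_mul]
  rcases Int.units_eq_one_or (Equiv.Perm.sign (Equiv.mulRight g₀)) with e | e <;> rw [e] <;> simp

/-- `colD` in the base. -/
def colDB (hY : ∀ a, IsMS ℓ P φ (Y a)) : ringB n M P.S :=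
  ⟨colD ℓ Y, memR_colD hℓ h hφ hY, fun _ hδ => colD_invariant hφ (fun a => (hY a).cfun) hδ⟩

end FLTAgent.Gamma1.Lv
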