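import Fermat.Agent.Gamma1.Ser
import Fermat.Agent.GalCommon.Basic
import Fermat.Agent.WeightOne.RationalSeries

/-!
# Automorphisms of `ℂ` over an embedding of `ℚ̄`

For `ι : ℚ̄ →+* ℂ`, `extC ι σ` is an automorphism of `ℂ` extending `σ` (`extC_apply`). The
algebraic numbers `algC` are the image of `ι` (`exists_eq_of_mem_algC`), and a complex number
with finite orbit under endomorphisms fixing them is algebraic (`mem_algC_of_finite_orbit`,
`mem_algC_of_fixed`).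
-/

set_option autoImplicit false
set_option linter.style.haveILetI false

noncomputable section

namespace FLTAgent.Gamma1.Lv

local notation "ℚ̄" => AlgebraicClosure ℚ
local notation "Γℚ" => (AlgebraicClosure ℚ ≃ₐ[ℚ] AlgebraicClosure ℚ)

theorem countable_Qbar : Countable ℚ̄ := by
  haveI : Algebra.IsAlgebraic ℚ ℚ̄ := AlgebraicClosure.isAlgebraic ℚ
  rw [← Cardinal.mk_le_aleph0_iff]
  exact (Algebra.IsAlgebraic.cardinalMk_le_max ℚ ℚ̄).trans (by simp)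

theorem mem_algC_iff {x : ℂ} : x ∈ algC ↔ x ∈ algebraicClosure ℚ ℂ := Iff.rfl

theorem mem_algC_of_embedding (ι : ℚ̄ →+* ℂ) (a : ℚ̄) : ι a ∈ algC :=
  mem_algebraicClosure_iff.2
    ((AlgebraicClosure.isAlgebraic ℚ).isAlgebraic a |>.algHom ι.toRatAlgHom)

theorem exists_eq_of_mem_algC (ι : ℚ̄ →+* ℂ) {x : ℂ} (hx : x ∈ algC) : ∃ a : ℚ̄, ι a = x := by
  have hx' : IsAlgebraic ℚ x := mem_algebraicClosure_iff.1 hx
  have hsplit : ((minpoly ℚ x).map (algebraMap ℚ ℚ̄)).Splits := IsAlgClosed.splits _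
  have hroots := hsplit.roots_map ι.toRatAlgHom.toRingHom
  have hmem : x ∈ (((minpoly ℚ x).map (algebraMap ℚ ℚ̄)).map ι.toRatAlgHom.toRingHom).roots := by
    rw [Polynomial.map_map, Subsingleton.elim (ι.toRatAlgHom.toRingHom.comp (algebraMap ℚ ℚ̄))
        (algebraMap ℚ ℂ),
      Polynomial.mem_roots (Polynomial.map_ne_zero (minpoly.ne_zero hx'.isIntegral)),
      Polynomial.IsRoot.def, Polynomial.eval_map, ← Polynomial.aeval_def, minpoly.aeval]
  rw [hroots, Multiset.mem_map] at hmem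
  obtain ⟨a, -, ha⟩ := hmem
  exact ⟨a, ha⟩

theorem inv_mem_algC {x : ℂ} (hx : x ∈ algC) : x⁻¹ ∈ algC :=
  (algebraicClosure ℚ ℂ).inv_mem hx

theorem zr_le_algC (M : ℕ) [NeZero M] : zr M ≤ algC := by
  refine Subring.closure_le.2 ?_
  rintro x (rfl | rfl)
  · exact mem_algebraicClosure_iff.2 (isAlgebraic_iff_isIntegral.2
      ((Complex.isPrimitiveRoot_exp M (NeZero.ne M)).isIntegral (NeZero.pos M)).tower_top)
  · exact inv_mem_algC (natCast_mem _ _)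

/-- A number with finite orbit over the algebraic numbers is algebraic. -/
theorem mem_algC_of_finite_orbit {z : ℂ}
    (h : {w : ℂ | ∃ σ : ℂ →+* ℂ, (∀ x ∈ algC, σ x = x) ∧ σ z = w}.Finite) : z ∈ algC := by
  haveI : Algebra.IsAlgebraic ℚ (algebraicClosure ℚ ℂ) := algebraicClosure.isAlgebraic ℚ ℂ
  refine mem_algebraicClosure_iff.2 (isAlgebraic_iff_isIntegral.2
    (WeightOne.isIntegral_of_finite_orbit (K := algebraicClosure ℚ ℂ) ?_))
  exact h.subset fun w ⟨σ, hσ, hw⟩ => ⟨σ, fun x hx => hσ ⟨x, hx⟩, hw⟩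

theorem mem_algC_of_fixed {z : ℂ}
    (h : ∀ σ : ℂ →+* ℂ, (∀ x ∈ algC, σ x = x) → σ z = z) : z ∈ algC :=
  mem_algC_of_finite_orbit ((Set.finite_singleton z).subset fun _ ⟨σ, hσ, hw⟩ =>
    hw.symm.trans (h σ hσ))

/-- An automorphism of `ℂ` extending an automorphism of `ℚ̄`. -/
theorem exists_extC (ι : ℚ̄ →+* ℂ) (σ : Γℚ) : ∃ e : ℂ ≃+* ℂ, ∀ a, e (ι a) = ι (σ a) := by
  haveI := countable_Qbar
  exact IntStr.exists_ringEquiv_complex_of_two_homs ι (ι.comp (σ : ℚ̄ →+* ℚ̄)) ι.injective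
    (ι.injective.comp σ.injective)

/-- The chosen extension. -/
def extC (ι : ℚ̄ →+* ℂ) (σ : Γℚ) : ℂ →+* ℂ := (exists_extC ι σ).choose.toRingHom

theorem extC_apply (ι : ℚ̄ →+* ℂ) (σ : Γℚ) (a : ℚ̄) : extC ι σ (ι a) = ι (σ a) :=
  (exists_extC ι σ).choose_spec a

theorem extC_one {ι : ℚ̄ →+* ℂ} {x : ℂ} (hx : x ∈ algC) : extC ι 1 x = x := by
  obtain ⟨a, rfl⟩ := exists_eq_of_mem_algC ι hx
  rw [extC_apply]
  rfl

theorem extC_mul {ι : ℚ̄ →+* ℂ} (σ τ : Γℚ) {x : ℂ} (hx : x ∈ algC) :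
    extC ι (σ * τ) x = extC ι σ (extC ι τ x) := by
  obtain ⟨a, rfl⟩ := exists_eq_of_mem_algC ι hx
  rw [extC_apply, extC_apply, extC_apply]
  rfl

theorem extC_mem_algC {ι : ℚ̄ →+* ℂ} (σ : Γℚ) {x : ℂ} (hx : x ∈ algC) : extC ι σ x ∈ algC := by
  obtain ⟨a, rfl⟩ := exists_eq_of_mem_algC ι hx
  rw [extC_apply]
  exact mem_algC_of_embedding ι _

end FLTAgent.Gamma1.Lv
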