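import Fermat.Agent.Gamma1.Coords
import Fermat.Agent.Gamma1.Lv.GalField

/-!
# Conjugation of the coefficients of functions of level `M`

`Conj M σ f f'` says that the expansion of `f'` at the cusp twisted by the cyclotomic exponent
of `σ` is `σ` applied to that of `f`, at every cusp. `exists_conj`: every function of level `M`
has such a conjugate, because the ratios of Weierstrass values do and generate the ring over a
field of constants (`mem_of_ratios`). Consequences: `memR_algC_of_infty` (algebraic coefficients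
at `∞` are algebraic at every cusp) and `exists_finset_fix` (a function with algebraic
coefficients is fixed once finitely many numbers are).
-/

set_option autoImplicit false
set_option linter.style.haveILetI false
set_option linter.unusedSectionVars false

noncomputable section

open UpperHalfPlane CongruenceSubgroup ModularCurve
open scoped MatrixGroups

namespace FLTAgent.Gamma1.Lv

open FLTAgent.Modular

variable {n M : ℕ} [NeZero M]

/-! ### The twisting of matrices -/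

theorem isPrimitiveRoot_zeta : IsPrimitiveRoot (zeta M) M :=
  Complex.isPrimitiveRoot_exp M (NeZero.ne M)

theorem exists_cycExp (σ : ℂ →+* ℂ) : ∃ s : (ZMod M)ˣ, σ (zeta M) = zeta M ^ (s : ZMod M).val := by
  have hz := isPrimitiveRoot_zeta (M := M)
  have hσ : IsPrimitiveRoot (σ (zeta M)) M := hz.map_of_injective σ.injective
  obtain ⟨i, hi, he⟩ := hz.eq_pow_of_pow_eq_one hσ.pow_eq_one
  rw [← he] at hσ
  have hc : i.Coprime M := (hz.pow_iff_coprime (NeZero.pos M) i).mp hσ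
  exact ⟨ZMod.unitOfCoprime i hc, by
    rw [ZMod.coe_unitOfCoprime, ZMod.val_natCast_of_lt hi, he]⟩

/-- The exponent by which `σ` acts on `exp (2πi/M)`. -/
def cycExp (M : ℕ) [NeZero M] (σ : ℂ →+* ℂ) : (ZMod M)ˣ := (exists_cycExp σ).choose

theorem cycExp_spec (σ : ℂ →+* ℂ) : σ (zeta M) = zeta M ^ (cycExp M σ : ZMod M).val :=
  (exists_cycExp σ).choose_spec

theorem zeta_pow_inj {s t : ZMod M} (h : zeta M ^ s.val = zeta M ^ t.val) : s = t :=
  ZMod.val_injective M ((isPrimitiveRoot_zeta (M := M)).pow_inj (ZMod.val_lt s) (ZMod.val_lt t) h)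

theorem zeta_pow_val (i : ℕ) : zeta M ^ ((i : ℕ) : ZMod M).val = zeta M ^ i := by
  rw [ZMod.val_natCast, ← pow_eq_pow_mod i (isPrimitiveRoot_zeta (M := M)).pow_eq_one]

theorem cycExp_comp (σ τ : ℂ →+* ℂ) : cycExp M (σ.comp τ) = cycExp M σ * cycExp M τ := by
  refine Units.ext (zeta_pow_inj ?_)
  rw [← cycExp_spec, RingHom.comp_apply, cycExp_spec, map_pow, cycExp_spec, ← pow_mul,
    Units.val_mul]
  conv_rhs => rw [← ZMod.natCast_zmod_val (cycExp M σ : ZMod M),
    ← ZMod.natCast_zmod_val (cycExp M τ : ZMod M), ← Nat.cast_mul]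
  exact (zeta_pow_val _).symm

theorem cycExp_eq_one {σ : ℂ →+* ℂ} (h : σ (zeta M) = zeta M) : cycExp M σ = 1 := by
  refine Units.ext (zeta_pow_inj ?_)
  rw [← cycExp_spec, h, Units.val_one, ← Nat.cast_one, zeta_pow_val, pow_one]

/-- The matrix `(a, sb; c/s, d)`. -/
def twMat (s : (ZMod M)ˣ) (g : SL(2, ZMod M)) : SL(2, ZMod M) :=
  ⟨!![g 0 0, s * g 0 1; (s⁻¹ : (ZMod M)ˣ) * g 1 0, g 1 1], by
    have hd := g.2
    rw [Matrix.det_fin_two] at hd
    rw [Matrix.det_fin_two_of]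
    linear_combination hd - g 0 1 * g 1 0 * Units.mul_inv s⟩

/-- A lift of `(a, sb; c/s, d)`. -/
def twSL (s : (ZMod M)ˣ) (γ : SL(2, ℤ)) : SL(2, ℤ) :=
  (exists_lift_SL M (twMat s (redM M γ))).choose

theorem redM_twSL (s : (ZMod M)ˣ) (γ : SL(2, ℤ)) : redM M (twSL s γ) = twMat s (redM M γ) :=
  Matrix.SpecialLinearGroup.ext _ _ (exists_lift_SL M (twMat s (redM M γ))).choose_spec

theorem twMat_one (g : SL(2, ZMod M)) : twMat 1 g = g := by
  refine Matrix.SpecialLinearGroup.ext _ _ fun i j => ?_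
  fin_cases i <;> fin_cases j <;> simp [twMat]

theorem twMat_twMat (s t : (ZMod M)ˣ) (g : SL(2, ZMod M)) :
    twMat s (twMat t g) = twMat (s * t) g := by
  refine Matrix.SpecialLinearGroup.ext _ _ fun i j => ?_
  fin_cases i <;> fin_cases j <;> simp [twMat, mul_assoc, mul_comm]

theorem redM_twSL_twSL (s t : (ZMod M)ˣ) (γ : SL(2, ℤ)) :
    redM M (twSL s (twSL t γ)) = redM M (twSL (s * t) γ) := by
  rw [redM_twSL, redM_twSL, redM_twSL, twMat_twMat]

theorem redM_twSL_one (γ : SL(2, ℤ)) : redM M (twSL (1 : (ZMod M)ˣ) γ) = redM M γ := by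
  rw [redM_twSL, twMat_one]

theorem redM_twSL_inv (s : (ZMod M)ˣ) (γ : SL(2, ℤ)) :
    redM M (twSL s (twSL s⁻¹ γ)) = redM M γ := by
  rw [redM_twSL_twSL, mul_inv_cancel, redM_twSL_one]

theorem redM_twSL_self (s : (ZMod M)ˣ) : redM M (twSL s 1) = redM M 1 := by
  rw [redM_twSL, map_one]
  refine Matrix.SpecialLinearGroup.ext _ _ fun i j => ?_
  fin_cases i <;> fin_cases j <;> simp [twMat]

theorem comp_twSL_one {S : Subring ℂ} {f : ℍ → ℂ} (hf : MemR M S f) (s : (ZMod M)ˣ) :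
    comp f (twSL s 1) = f := by
  rw [hf.comp_eq_of_redM_eq (redM_twSL_self s), comp_one]

/-! ### The generators -/

theorem serHom_comp (f : ℍ → ℂ) (γ δ : SL(2, ℤ)) :
    qser M (comp (comp f γ) δ) = qser M (comp f (γ * δ)) := by rw [comp_comp]

theorem lowBd_comp_mul_T {S : Subring ℂ} {f : ℍ → ℂ} (hf : MemR M S f) {γ : SL(2, ℤ)} {a : ℤ}
    (h : LowBd (qser M (comp f γ)) a) (i : ℤ) :
    LowBd (qser M (comp f (γ * ModularGroup.T ^ i))) a := by
  intro k hk
  rw [← comp_comp, qser_comp_T_zpow (hf := hf.expansion γ), h k hk, mul_zero]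

/-- `γ` is in the class of `∞` modulo `±Γ(n)`. -/
def InClass (n : ℕ) (γ : SL(2, ℤ)) : Prop :=
  ∃ i : ℤ, γ * ModularGroup.T ^ i ∈ Gamma n ∨ -(γ * ModularGroup.T ^ i) ∈ Gamma n

variable {S : Subring ℂ}

theorem lowBd_of_inClass {f : ℍ → ℂ} (hf : MemB n M S f) {δ : SL(2, ℤ)} (g : SL(2, ℤ))
    (hδ : InClass n δ) {a : ℤ} (h : LowBd (qser M (comp f g)) a) :
    LowBd (qser M (comp f (g * δ))) a := by
  obtain ⟨i, hi⟩ := hδ
  have key : ∀ ε ∈ Gamma n, LowBd (qser M (comp f (g * ε * ModularGroup.T ^ (-i)))) a := by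
    intro ε hε
    refine lowBd_comp_mul_T hf.1 ?_ _
    rw [show g * ε = g * ε * g⁻¹ * g by group, ← comp_comp,
      hf.2 _ ((Gamma_normal n).conj_mem ε hε g)]
    exact h
  rcases hi with hi | hi
  · have := key _ hi
    rwa [show g * (δ * ModularGroup.T ^ i) * ModularGroup.T ^ (-i) = g * δ by group] at this
  · have := key _ hi
    rwa [show g * -(δ * ModularGroup.T ^ i) * ModularGroup.T ^ (-i) = -(g * δ) by
      rw [mul_neg, neg_mul]; congr 1; group, comp_neg] at this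

theorem lowBd_zero_of_not_inClass (h : IsLevel n M) {γ : SL(2, ℤ)} (hγ : ¬ InClass n γ) :
    LowBd (qser M (comp (tFun n M) γ)) 0 := fun k hk => by
  by_contra hne
  exact hγ (tFun_pole_class h γ ⟨k, hk, hne⟩)

theorem not_inClass_of_lowBd (h : IsLevel n M) {γ : SL(2, ℤ)}
    (hγ : LowBd (qser M (comp (tFun n M) γ)) 0) : ¬ InClass n γ⁻¹ := by
  intro hc
  have htB : MemB n M (zr M) (tFun n M) := tFun_memB h
  have h1 := lowBd_of_inClass (δ := γ⁻¹) htB γ hc hγ
  rw [mul_inv_cancel, comp_one] at h1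
  obtain ⟨u, -, hu⟩ := (tFun_leading h).2
  rw [h1 _ (by have := width_pos h; simp only [width] at this; omega), zero_mul] at hu
  exact zero_ne_one hu

theorem memB_comp {f : ℍ → ℂ} (hf : MemB n M S f) (g : SL(2, ℤ)) : MemB n M S (comp f g) := by
  refine ⟨hf.1.comp_sl g, fun ε hε => ?_⟩
  rw [comp_comp, show g * ε = g * ε * g⁻¹ * g by group, ← comp_comp,
    hf.2 _ ((Gamma_normal n).conj_mem ε hε g)]

/-- The inverses `1/(t - c)` are expressible through ratios. -/
theorem inv_sub_mem (h : IsLevel n M) (hS : zr M ≤ S) (hSinv : ∀ x ∈ S, x⁻¹ ∈ S)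
    {U : Subring (ℍ → ℂ)} (hc : ∀ c ∈ S, (fun _ => c) ∈ U)
    (hr : ∀ v w v' w' : Vec M, Sep v w → Sep v' w' → ratio v w v' w' ∈ U)
    {c : ℂ} (hcv : c ∈ cuspVals n M) : (fun z => (tFun n M z - c)⁻¹) ∈ U := by
  obtain ⟨γ, hγ, hcγ⟩ := id hcv
  have hcS : c ∈ S := cusp_mem h hS hcv
  let u : ringB n M S := ⟨comp (tFun n M) γ⁻¹, memB_comp (tB h hS).2 γ⁻¹⟩
  let d : ringB n M S := tB h hS - constB n M S ⟨c, hcS⟩
  have hu_at : serB n M S γ u = serB n M S 1 (tB h hS) := by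
    rw [serB_apply, serB_apply]
    show qser M (comp (comp (tFun n M) γ⁻¹) γ) = qser M (comp (tFun n M) 1)
    rw [comp_comp, inv_mul_cancel]
  have hdw : LowBd (serB n M S γ d) (width n M) := by
    have h1 : LowBd (serB n M S γ d) 1 := lowBd_sub_self h hS hγ hcS hcγ
    intro k hk
    by_contra hne
    let d' : ringB n M S := ⟨comp (d : ℍ → ℂ) γ, memB_comp d.2 γ⟩
    have e : serB n M S 1 d' = serB n M S γ d := by
      rw [serB_apply, serB_apply]
      show qser M (comp (comp (d : ℍ → ℂ) γ) 1) = _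
      rw [comp_one]
    have hdvd := width_dvd_of_coeff_ne_zero h d' (k := k) (by rwa [e])
    have hk1 : 1 ≤ k := by
      by_contra hlt
      exact hne (h1 k (by omega))
    have := Int.le_of_dvd (by omega) hdvd
    omega
  have hfin : ∀ δ, IsFiniteCusp n M δ → LowBd (serB n M S δ (d * u)) 0 := by
    intro δ hδ
    by_cases hcl : InClass n (γ⁻¹ * δ)
    · have hbase : LowBd (qser M (comp ((d * u : ringB n M S) : ℍ → ℂ) γ)) 0 := by
        rw [← serB_apply, map_mul, hu_at]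
        simpa using hdw.mul (lowBd_tB h hS)
      have := lowBd_of_inClass (f := ((d * u : ringB n M S) : ℍ → ℂ)) (d * u).2 γ hcl hbase
      rwa [mul_inv_cancel_left, ← serB_apply] at this
    · have hu0 : LowBd (serB n M S δ u) 0 := by
        rw [serB_apply]
        show LowBd (qser M (comp (comp (tFun n M) γ⁻¹) δ)) 0
        rw [comp_comp]
        exact lowBd_zero_of_not_inClass h hcl
      rw [map_mul]
      have hd0 : LowBd (serB n M S δ d) 0 := lowBd_sub_at h hS hδ hcS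
      simpa using hd0.mul hu0
  obtain ⟨P, hP⟩ := exists_evalT_eq h hS (d * u) hfin
  have hinf : LowBd (serB n M S 1 (d * u)) (-width n M) := by
    rw [map_mul]
    have h0 : LowBd (serB n M S 1 u) 0 := by
      rw [serB_apply]
      show LowBd (qser M (comp (comp (tFun n M) γ⁻¹) 1)) 0
      rw [comp_one]
      exact lowBd_zero_of_not_inClass h (not_inClass_of_lowBd h hγ)
    have hd1 : LowBd (serB n M S 1 d) (-width n M) := by
      simp only [d, map_sub, serB_const]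
      exact (lowBd_tB h hS).sub ((lowBd_C c).mono (by have := width_pos h; omega))
    simpa using hd1.mul h0
  have hdeg : P.natDegree ≤ 1 := by
    by_contra hlt
    obtain ⟨-, htop⟩ := lowBd_evalT h hS P P.natDegree le_rfl
    obtain ⟨u', -, hlu⟩ := tB_unit h hS
    rw [hP, hinf _ (by
      have := width_pos h
      have : (2 : ℤ) ≤ (P.natDegree : ℤ) := by omega
      nlinarith)] at htop
    have hne : (serB n M S 1 (tB h hS)).coeff (-width n M) ≠ 0 := left_ne_zero_of_mul_eq_one hlu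
    rcases mul_eq_zero.mp htop.symm with h0 | h0
    · have hP0 : P ≠ 0 := by
        rintro rfl
        simp at hlt
      exact Polynomial.leadingCoeff_ne_zero.mpr hP0 (Subtype.ext h0)
    · exact pow_ne_zero _ hne h0
  obtain ⟨a, b, rfl⟩ := Polynomial.exists_eq_X_add_C_of_natDegree_le_one hdeg
  rw [map_add, map_mul, evalT_C, evalT_X, evalT_C] at hP
  have hpt : ∀ z, (tFun n M z - c) * (tFun n M (γ⁻¹ • z) - a) = b + a * c := fun z => by
    have := congrFun (congrArg Subtype.val hP) z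
    simp only [d, u, constB, tB, RingHom.coe_mk, MonoidHom.coe_mk, OneHom.coe_mk, Subring.coe_mul,
      Subring.coe_add, AddSubgroupClass.coe_sub, Pi.mul_apply, Pi.add_apply, Pi.sub_apply, comp]
      at this
    linear_combination -this
  have hb : (b : ℂ) + a * c ≠ 0 := by
    intro h0
    have hu' : u = constB n M S a := by
      refine Subtype.ext (funext fun z => ?_)
      have h1 := hpt z
      rw [h0, mul_eq_zero, or_iff_right (sub_ne_zero.mpr ((tFun_sub_unit h hcv).1 z)),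
        sub_eq_zero] at h1
      simpa [u, comp, constB] using h1
    rw [hu', serB_const] at hu_at
    obtain ⟨u', -, hlu⟩ := tB_unit h hS
    rw [← hu_at, lowBd_C (a : ℂ) _ (by have := width_pos h; omega), zero_mul] at hlu
    exact zero_ne_one hlu
  have hfun : (fun z => (tFun n M z - c)⁻¹) =
      (fun _ : ℍ => ((b : ℂ) + a * c)⁻¹) * (comp (tFun n M) γ⁻¹ - fun _ => (a : ℂ)) := by
    funext z
    have h0 := sub_ne_zero.mpr ((tFun_sub_unit h hcv).1 z)
    simp only [Pi.mul_apply, Pi.sub_apply, comp]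
    have hne := hb
    rw [← hpt z] at hne ⊢
    rw [mul_inv, mul_assoc, inv_mul_cancel₀ (right_ne_zero_of_mul hne), mul_one]
  rw [hfun]
  refine U.mul_mem (hc _ (hSinv _ (S.add_mem b.2 (S.mul_mem a.2 hcS)))) (U.sub_mem ?_ (hc _ a.2))
  rw [tFun, ratio_comp]
  exact hr _ _ _ _ (sep_vecMulZ (sep_base h).1 _) (sep_vecMulZ (sep_base h).2 _)

/-- Over a field of constants, the ratios generate all functions of level `M`. -/
theorem mem_of_ratios (h : IsLevel n M) (hS : zr M ≤ S) (hSinv : ∀ x ∈ S, x⁻¹ ∈ S)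
    {U : Subring (ℍ → ℂ)} (hc : ∀ c ∈ S, (fun _ => c) ∈ U)
    (hr : ∀ v w v' w' : Vec M, Sep v w → Sep v' w' → ratio v w v' w' ∈ U)
    {f : ℍ → ℂ} (hf : MemR M S f) : f ∈ U :=
  mem_of_generators h hS hc hr (fun _ hcv => inv_sub_mem h hS hSinv hc hr hcv) hf

/-! ### Conjugation -/

/-- `f'` is the conjugate of `f` by `σ`, at every cusp. -/
structure Conj (M : ℕ) [NeZero M] (σ : ℂ →+* ℂ) (f f' : ℍ → ℂ) : Prop where
  mem : MemR M ⊤ f
  mem' : MemR M ⊤ f'
  eq : ∀ γ : SL(2, ℤ),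
    coeffMap σ (qser M (comp f γ)) = qser M (comp f' (twSL (cycExp M σ) γ))

theorem memR_top {f : ℍ → ℂ} (hf : MemR M S f) : MemR M ⊤ f := hf.mono le_top

theorem Conj.at_one {σ : ℂ →+* ℂ} {f f' : ℍ → ℂ} (hc : Conj M σ f f') :
    coeffMap σ (qser M f) = qser M f' := by
  simpa [comp_one, comp_twSL_one hc.mem'] using hc.eq 1

theorem Conj.unique {σ : ℂ →+* ℂ} {f f' g' : ℍ → ℂ} (h1 : Conj M σ f f') (h2 : Conj M σ f g') :
    f' = g' :=
  eq_of_qser_eq (γ := 1) h1.mem' h2.mem' (by rw [comp_one, comp_one, ← h1.at_one, ← h2.at_one])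

theorem coeffMap_injective' {σ : ℂ →+* ℂ} :
    Function.Injective (coeffMap σ : LaurentSeries ℂ → LaurentSeries ℂ) := fun x y h =>
  HahnSeries.ext (funext fun k => σ.injective (by simpa using congrArg (fun w => w.coeff k) h))

theorem Conj.injective {σ : ℂ →+* ℂ} {f g f' : ℍ → ℂ} (h1 : Conj M σ f f') (h2 : Conj M σ g f') :
    f = g :=
  eq_of_qser_eq (γ := 1) h1.mem h2.mem (by
    rw [comp_one, comp_one]; exact coeffMap_injective' (h1.at_one.trans h2.at_one.symm))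

theorem qser_addC {f g : ℍ → ℂ} (hf : MemR M ⊤ f) (hg : MemR M ⊤ g) (γ : SL(2, ℤ)) :
    qser M (comp (f + g) γ) = qser M (comp f γ) + qser M (comp g γ) :=
  map_add (serHom M ⊤ γ) ⟨f, hf⟩ ⟨g, hg⟩

theorem qser_mulC {f g : ℍ → ℂ} (hf : MemR M ⊤ f) (hg : MemR M ⊤ g) (γ : SL(2, ℤ)) :
    qser M (comp (f * g) γ) = qser M (comp f γ) * qser M (comp g γ) :=
  map_mul (serHom M ⊤ γ) ⟨f, hf⟩ ⟨g, hg⟩

theorem Conj.const (σ : ℂ →+* ℂ) (c : ℂ) : Conj M σ (fun _ => c) (fun _ => σ c) := by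
  refine ⟨memR_const trivial, memR_const trivial, fun γ => ?_⟩
  rw [show comp (fun _ => c) γ = fun _ => c from rfl,
    show comp (fun _ => σ c) (twSL (cycExp M σ) γ) = fun _ => σ c from rfl, qser_const, qser_const,
    HahnSeries.C_apply, HahnSeries.C_apply, coeffMap_single]

theorem Conj.add {σ : ℂ →+* ℂ} {f g f' g' : ℍ → ℂ} (h1 : Conj M σ f f') (h2 : Conj M σ g g') :
    Conj M σ (f + g) (f' + g') :=
  ⟨h1.mem.add h2.mem, h1.mem'.add h2.mem', fun γ => by
    rw [qser_addC h1.mem h2.mem, qser_addC h1.mem' h2.mem', map_add, h1.eq, h2.eq]⟩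

theorem Conj.mul {σ : ℂ →+* ℂ} {f g f' g' : ℍ → ℂ} (h1 : Conj M σ f f') (h2 : Conj M σ g g') :
    Conj M σ (f * g) (f' * g') :=
  ⟨h1.mem.mul h2.mem, h1.mem'.mul h2.mem', fun γ => by
    rw [qser_mulC h1.mem h2.mem, qser_mulC h1.mem' h2.mem', map_mul, h1.eq, h2.eq]⟩

theorem Conj.neg {σ : ℂ →+* ℂ} {f f' : ℍ → ℂ} (h1 : Conj M σ f f') : Conj M σ (-f) (-f') := by
  have := (Conj.const (M := M) σ (-1)).mul h1
  convert this using 1 <;> funext z <;> simp

theorem Conj.pow {σ : ℂ →+* ℂ} {f f' : ℍ → ℂ} (h1 : Conj M σ f f') (k : ℕ) :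
    Conj M σ (f ^ k) (f' ^ k) := by
  induction k with
  | zero =>
    rw [pow_zero, pow_zero]
    convert Conj.const (M := M) σ 1 using 1 <;> funext z <;> simp
  | succ k ih => rw [pow_succ, pow_succ]; exact ih.mul h1

theorem Conj.trans {σ τ : ℂ →+* ℂ} {f f' f'' : ℍ → ℂ} (h1 : Conj M τ f f')
    (h2 : Conj M σ f' f'') : Conj M (σ.comp τ) f f'' := by
  refine ⟨h1.mem, h2.mem', fun γ => ?_⟩
  rw [← coeffMap_coeffMap, h1.eq, h2.eq, cycExp_comp]
  exact congrArg _ (h2.mem'.comp_eq_of_redM_eq (redM_twSL_twSL _ _ _))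

theorem twMat_mul (s : (ZMod M)ˣ) (g g' : SL(2, ZMod M)) :
    twMat s (g * g') = twMat s g * twMat s g' := by
  refine Subtype.ext ?_
  show !![(g.1 * g'.1) 0 0, (s : ZMod M) * (g.1 * g'.1) 0 1;
      ((s⁻¹ : (ZMod M)ˣ) : ZMod M) * (g.1 * g'.1) 1 0, (g.1 * g'.1) 1 1] =
    !![g.1 0 0, (s : ZMod M) * g.1 0 1; ((s⁻¹ : (ZMod M)ˣ) : ZMod M) * g.1 1 0, g.1 1 1] *
      !![g'.1 0 0, (s : ZMod M) * g'.1 0 1; ((s⁻¹ : (ZMod M)ˣ) : ZMod M) * g'.1 1 0, g'.1 1 1]
  rw [Matrix.mul_fin_two]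
  have hu := Units.mul_inv s
  ext i j
  fin_cases i <;> fin_cases j <;> simp [Matrix.mul_apply, Fin.sum_univ_two] <;> try ring1
  · linear_combination -(g.1 0 1 * g'.1 1 0) * hu
  · linear_combination -(g.1 1 0 * g'.1 0 1) * hu

theorem Conj.comp_sl {σ : ℂ →+* ℂ} {f f' : ℍ → ℂ} (h1 : Conj M σ f f') (g : SL(2, ℤ)) :
    Conj M σ (comp f g) (comp f' (twSL (cycExp M σ) g)) := by
  refine ⟨h1.mem.comp_sl g, h1.mem'.comp_sl _, fun γ => ?_⟩
  rw [comp_comp, h1.eq, comp_comp]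
  refine congrArg _ (h1.mem'.comp_eq_of_redM_eq ?_)
  rw [redM_twSL, map_mul, map_mul, redM_twSL, redM_twSL, twMat_mul]

/-- The torsion point moved by `σ`. -/
def twVec (s : (ZMod M)ˣ) (v : Vec M) : Vec M := (v.1, s * v.2)

theorem sep_twVec (s : (ZMod M)ˣ) {v w : Vec M} (h : Sep v w) : Sep (twVec s v) (twVec s w) := by
  have hinj : Function.Injective (twVec s) := fun a b hab => by
    simp only [twVec, Prod.mk.injEq] at hab
    exact Prod.ext hab.1 (s.isUnit.mul_left_cancel hab.2)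
  have h0 : twVec s (0 : Vec M) = 0 := by simp [twVec]
  have hn : twVec s (-w) = -twVec s w := by simp [twVec]
  obtain ⟨h1, h2, h3, h4⟩ := h
  exact ⟨fun e => h1 (hinj (e.trans h0.symm)), fun e => h2 (hinj (e.trans h0.symm)),
    fun e => h3 (hinj e), fun e => h4 (hinj (e.trans hn.symm))⟩

theorem vecMulZ_twVec (s : (ZMod M)ˣ) (v : Vec M) (γ : SL(2, ℤ)) :
    vecMulZ (twVec s v) (twSL s γ) = twVec s (vecMulZ v γ) := by
  rw [vecMulZ_eq, redM_twSL, vecMulZ_eq]
  refine Prod.ext ?_ ?_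
  · simp only [vecMulM, twMat, twVec]
    simp
    linear_combination v.2 * (redM M γ 1 0) * Units.mul_inv s
  · simp only [vecMulM, twMat, twVec]
    simp
    ring

theorem Conj.ratio (h : IsLevel n M) (σ : ℂ →+* ℂ) {v w v' w' : Vec M} (h1 : Sep v w)
    (h2 : Sep v' w') :
    Conj M σ (ratio v w v' w') (ratio (twVec (cycExp M σ) v) (twVec (cycExp M σ) w)
      (twVec (cycExp M σ) v') (twVec (cycExp M σ) w')) := by
  refine ⟨memR_top (ratio_mem h.three_le h1 h2),
    memR_top (ratio_mem h.three_le (sep_twVec _ h1) (sep_twVec _ h2)), fun γ => ?_⟩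
  rw [ratio_comp, ratio_comp, vecMulZ_twVec, vecMulZ_twVec, vecMulZ_twVec, vecMulZ_twVec,
    ratio_conj h.three_le (sep_vecMulZ h1 γ) (sep_vecMulZ h2 γ) σ _ (cycExp_spec σ),
    ZMod.natCast_zmod_val]
  rfl

/-- Every function of level `M` has a conjugate. -/
theorem exists_conj (h : IsLevel n M) (σ : ℂ →+* ℂ) {f : ℍ → ℂ} (hf : MemR M ⊤ f) :
    ∃ f', Conj M σ f f' := by
  let U : Subring (ℍ → ℂ) :=
    { carrier := {f | ∃ f', Conj M σ f f'}
      zero_mem' := ⟨_, Conj.const σ 0⟩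
      one_mem' := ⟨_, Conj.const σ 1⟩
      add_mem' := fun ⟨_, a⟩ ⟨_, b⟩ => ⟨_, a.add b⟩
      mul_mem' := fun ⟨_, a⟩ ⟨_, b⟩ => ⟨_, a.mul b⟩
      neg_mem' := fun ⟨_, a⟩ => ⟨_, a.neg⟩ }
  exact mem_of_ratios h le_top (fun _ _ => trivial) (U := U) (fun c _ => ⟨_, Conj.const σ c⟩)
    (fun v w v' w' h1 h2 => ⟨_, Conj.ratio h σ h1 h2⟩) hf

theorem Conj.memR {S' : Subring ℂ} {σ : ℂ →+* ℂ} {f f' : ℍ → ℂ} (h1 : Conj M σ f f')
    (hf : MemR M S f) (hσ : ∀ x ∈ S, σ x ∈ S') : MemR M S' f' := by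
  refine ⟨h1.mem'.hol, h1.mem'.inv, fun γ => ?_⟩
  refine ⟨qser M (comp f' γ), (h1.mem'.expansion γ).hasQExp, fun k => ?_⟩
  rw [← h1.mem'.comp_eq_of_redM_eq (redM_twSL_inv (cycExp M σ) γ), ← h1.eq, coeffMap_coeff]
  exact hσ _ ((hf.expansion _).coeff_mem k)

theorem conj_self_of_fixed {σ : ℂ →+* ℂ} {f : ℍ → ℂ} (hf : MemR M S f)
    (hσ : ∀ x ∈ S, σ x = x) (hz : σ (zeta M) = zeta M) : Conj M σ f f := by
  refine ⟨memR_top hf, memR_top hf, fun γ => ?_⟩
  rw [hf.comp_eq_of_redM_eq (show redM M (twSL (cycExp M σ) γ) = redM M γ by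
    rw [cycExp_eq_one hz, redM_twSL_one])]
  refine HahnSeries.ext (funext fun k => ?_)
  rw [coeffMap_coeff, hσ _ ((hf.expansion γ).coeff_mem k)]

theorem zeta_mem_zr : zeta M ∈ zr M := Subring.subset_closure (Set.mem_insert _ _)

/-- Algebraic coefficients at `∞` are algebraic coefficients everywhere. -/
theorem memR_algC_of_infty (h : IsLevel n M) {f : ℍ → ℂ} (hf : MemR M ⊤ f)
    (hk : ∀ k, (qser M f).coeff k ∈ algC) : MemR M algC f := by
  refine ⟨hf.hol, hf.inv, fun γ => ⟨_, (hf.expansion γ).hasQExp, fun k => ?_⟩⟩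
  refine mem_algC_of_fixed fun σ hσ => ?_
  obtain ⟨f', hf'⟩ := exists_conj h σ hf
  have he : f' = f := eq_of_qser_eq (γ := 1) hf'.mem' hf (by
    rw [comp_one, comp_one, ← hf'.at_one]
    exact HahnSeries.ext (funext fun k => by rw [coeffMap_coeff, hσ _ (hk k)]))
  subst he
  have hz : σ (zeta M) = zeta M := hσ _ (zr_le_algC M zeta_mem_zr)
  have := congrArg (fun w => w.coeff k) (hf'.eq γ)
  rw [coeffMap_coeff, hf.comp_eq_of_redM_eq (show redM M (twSL (cycExp M σ) γ) = redM M γ by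
    rw [cycExp_eq_one hz, redM_twSL_one])] at this
  exact this

/-- A function with algebraic coefficients is fixed once finitely many numbers are. -/
theorem exists_finset_fix (h : IsLevel n M) {f : ℍ → ℂ} (hf : MemR M algC f) :
    ∃ F : Finset ℂ, (∀ x ∈ F, x ∈ algC) ∧ ∀ σ : ℂ →+* ℂ, σ (zeta M) = zeta M →
      (∀ x ∈ F, σ x = x) → Conj M σ f f := by
  classical
  let U : Subring (ℍ → ℂ) :=
    { carrier := {f | ∃ F : Finset ℂ, (∀ x ∈ F, x ∈ algC) ∧ ∀ σ : ℂ →+* ℂ, σ (zeta M) = zeta M →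
        (∀ x ∈ F, σ x = x) → Conj M σ f f}
      zero_mem' := ⟨∅, by simp, fun σ _ _ => by
        have := Conj.const (M := M) σ 0; rwa [map_zero] at this⟩
      one_mem' := ⟨∅, by simp, fun σ _ _ => by
        have := Conj.const (M := M) σ 1; rwa [map_one] at this⟩
      add_mem' := fun ⟨F, hF, a⟩ ⟨G, hG, b⟩ => ⟨F ∪ G,
        fun x hx => (Finset.mem_union.mp hx).elim (hF x) (hG x), fun σ hz hσ =>
        (a σ hz fun x hx => hσ x (Finset.mem_union_left _ hx)).add
          (b σ hz fun x hx => hσ x (Finset.mem_union_right _ hx))⟩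
      mul_mem' := fun ⟨F, hF, a⟩ ⟨G, hG, b⟩ => ⟨F ∪ G,
        fun x hx => (Finset.mem_union.mp hx).elim (hF x) (hG x), fun σ hz hσ =>
        (a σ hz fun x hx => hσ x (Finset.mem_union_left _ hx)).mul
          (b σ hz fun x hx => hσ x (Finset.mem_union_right _ hx))⟩
      neg_mem' := fun ⟨F, hF, a⟩ => ⟨F, hF, fun σ hz hσ => (a σ hz hσ).neg⟩ }
  refine mem_of_ratios h (zr_le_algC M) (fun _ => inv_mem_algC) (U := U)
    (fun c hc => ⟨{c}, by simpa using hc, fun σ _ hσ => by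
      have := Conj.const (M := M) σ c
      rwa [hσ c (Finset.mem_singleton_self c)] at this⟩)
    (fun v w v' w' h1 h2 => ⟨∅, by simp, fun σ hz _ => ?_⟩) hf
  have := Conj.ratio h σ h1 h2
  simpa [twVec, cycExp_eq_one hz] using this

end FLTAgent.Gamma1.Lv
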