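import Fermat.Agent.Gamma1.Lv.GalConj

/-!
# Points of the curve of level `M` and orders of zeros under conjugation

`exists_point`: the `ℂ`-algebra homomorphisms from the ring of level `M` to `ℂ` are evaluations
at points of `ℍ`. `exists_factor_order` writes a function near a point as a power of `t - t₀`
times a unit there. Hence `dvd_order_conj`: conjugation keeps the divisibility of all orders of
zeros by `ℓ`.
-/

set_option autoImplicit false
set_option linter.style.haveILetI false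
set_option linter.unusedSectionVars false

noncomputable section

open UpperHalfPlane CongruenceSubgroup ModularCurve
open scoped MatrixGroups

namespace FLTAgent.Gamma1.Lv

open FLTAgent.Modular

variable {n M : ℕ} [NeZero M]

theorem analyticAt_of_isHol {f : ℍ → ℂ} (hf : IsHol f) (z : ℍ) :
    AnalyticAt ℂ (f ∘ ofComplex) (z : ℂ) :=
  DifferentiableOn.analyticAt hf (isOpen_upperHalfPlaneSet.mem_nhds z.im_pos)

/-- Evaluation at a point. -/
def evalAt (z : ℍ) : ringR M (⊤ : Subring ℂ) →+* ℂ :=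
  (Pi.evalRingHom (fun _ => ℂ) z).comp (ringR M ⊤).subtype

theorem evalAt_apply (z : ℍ) (f : ringR M (⊤ : Subring ℂ)) : evalAt z f = (f : ℍ → ℂ) z := rfl

/-- The order of the zero at a point. -/
def zOrd (f : ℍ → ℂ) (z : ℍ) : ℕ∞ := analyticOrderAt (f ∘ ofComplex) (z : ℂ)

theorem zOrd_eq_zero {f : ℍ → ℂ} (hf : IsHol f) (z : ℍ) : zOrd f z = 0 ↔ f z ≠ 0 := by
  rw [zOrd, (analyticAt_of_isHol hf z).analyticOrderAt_eq_zero]
  simp [ofComplex_apply]

theorem zOrd_mul {f g : ℍ → ℂ} (hf : IsHol f) (hg : IsHol g) (z : ℍ) :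
    zOrd (f * g) z = zOrd f z + zOrd g z :=
  analyticOrderAt_mul (analyticAt_of_isHol hf z) (analyticAt_of_isHol hg z)

theorem zOrd_pow {f : ℍ → ℂ} (hf : IsHol f) (z : ℍ) (k : ℕ) :
    zOrd (f ^ k) z = k • zOrd f z :=
  analyticOrderAt_pow (analyticAt_of_isHol hf z) k

variable (h : IsLevel n M)

/-- `t` as a function of level `M`. -/
def tR : ringR M (⊤ : Subring ℂ) := inclB (tB h (le_top : zr M ≤ ⊤))

/-- Constants as functions of level `M`. -/
def cR (c : ℂ) : ringR M (⊤ : Subring ℂ) := ⟨fun _ => c, memR_const trivial⟩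

/-- `t - c`. -/
def tSub (c : ℂ) : ringR M (⊤ : Subring ℂ) := tR h - cR c

theorem tSub_apply (c : ℂ) (z : ℍ) :
    ((tSub h c : ringR M (⊤ : Subring ℂ)) : ℍ → ℂ) z = tFun n M z - c := rfl

theorem evalT_applyT (P : Polynomial (⊤ : Subring ℂ)) (z : ℍ) :
    ((evalT h (le_top : zr M ≤ ⊤) P : ringB n M ⊤) : ℍ → ℂ) z =
      (P.map (⊤ : Subring ℂ).subtype).eval (tFun n M z) := by
  induction P using Polynomial.induction_on with
  | C a => rw [evalT_C, Polynomial.map_C, Polynomial.eval_C]; rfl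
  | add p q hp hq =>
    rw [map_add, Polynomial.map_add, Polynomial.eval_add, ← hp, ← hq]; rfl
  | monomial d a hp =>
    rw [pow_succ, ← mul_assoc, map_mul, evalT_X, Polynomial.map_mul, Polynomial.eval_mul,
      Polynomial.map_X, Polynomial.eval_X, ← hp]
    rfl

theorem evalT_injectiveT : Function.Injective (evalT h (le_top : zr M ≤ ⊤)) := by
  refine (injective_iff_map_eq_zero _).mpr fun P hP => ?_
  by_contra hne
  obtain ⟨-, htop⟩ := lowBd_evalT h le_top P P.natDegree le_rfl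
  rw [hP, map_zero, HahnSeries.coeff_zero] at htop
  obtain ⟨u, -, hu⟩ := tB_unit h (le_top : zr M ≤ ⊤)
  rcases mul_eq_zero.mp htop.symm with h0 | h0
  · exact Polynomial.leadingCoeff_ne_zero.mpr hne (Subtype.ext h0)
  · exact pow_ne_zero _ (left_ne_zero_of_mul_eq_one hu) h0

/-- The inverse of `∏ (t - c)`. -/
def cuspHInvT : ringB n M (⊤ : Subring ℂ) :=
  ∏ c ∈ (cuspSet h).attach, invSub h le_top (mem_cuspSet.mp c.2)

theorem cuspH_mul_invT : cuspH h (le_top : zr M ≤ ⊤) * cuspHInvT h = 1 := by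
  rw [cuspH, cuspHInvT, ← Finset.prod_mul_distrib]
  exact Finset.prod_eq_one fun c _ => sub_mul_invSub h _ _

/-- A function invariant under `Γ(n)` vanishing at a point is divisible by `t - t₀`. -/
theorem exists_sub_mul_eq (x : ringB n M (⊤ : Subring ℂ)) (z₀ : ℍ) (hx : (x : ℍ → ℂ) z₀ = 0) :
    ∃ y : ringB n M (⊤ : Subring ℂ), inclB x = tSub h (tFun n M z₀) * inclB y := by
  obtain ⟨e, P, hP⟩ := exists_cuspH_pow_mul_eq h le_top x
  set t₀ : (⊤ : Subring ℂ) := ⟨tFun n M z₀, trivial⟩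
  have h0 : P.eval t₀ = 0 := by
    refine Subtype.ext ?_
    have h1 := congrFun (congrArg Subtype.val hP) z₀
    rw [evalT_applyT, Subring.coe_mul, Pi.mul_apply, hx, mul_zero] at h1
    rw [ZeroMemClass.coe_zero, h1]
    exact ((Polynomial.eval_map (⊤ : Subring ℂ).subtype (tFun n M z₀)).trans
      (Polynomial.eval₂_at_apply (p := P) (⊤ : Subring ℂ).subtype t₀)).symm
  obtain ⟨Q, hQ⟩ := Polynomial.dvd_iff_isRoot.mpr h0
  refine ⟨evalT h le_top Q * cuspHInvT h ^ e, ?_⟩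
  have hxe : x = evalT h le_top P * cuspHInvT h ^ e := by
    rw [← hP, mul_comm (_ ^ e) x, mul_assoc, ← mul_pow, cuspH_mul_invT, one_pow, mul_one]
  conv_lhs => rw [hxe, hQ]
  rw [map_mul, map_mul, map_mul, map_sub, evalT_X, evalT_C, map_sub, mul_assoc]
  rfl

/-- A function vanishing on a whole fibre of `t` is divisible by `t - t₀`. -/
theorem exists_factor_of_fibre (f : ringR M (⊤ : Subring ℂ)) (z₀ : ℍ)
    (hf : ∀ γ ∈ Gamma n, (f : ℍ → ℂ) (γ • z₀) = 0) :
    ∃ f₁, f = tSub h (tFun n M z₀) * f₁ := by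
  have hc : ∀ i, (coord h (le_top : zr M ≤ ⊤) i f : ℍ → ℂ) z₀ = 0 := fun i => by
    show traceFun n ((f : ℍ → ℂ) * (fE h i : ℍ → ℂ)) z₀ = 0
    rw [traceFun, Finset.sum_apply]
    exact Finset.sum_eq_zero fun g _ => by
      show (f : ℍ → ℂ) (sheetLift g • z₀) * _ = 0
      rw [hf _ (sheetLift_mem g), zero_mul]
  choose y hy using fun i => exists_sub_mul_eq h (coord h le_top i f) z₀ (hc i)
  refine ⟨∑ i, inclB (y i) * fMR h le_top i, ?_⟩
  rw [Finset.mul_sum]
  conv_lhs => rw [← sum_coord_mul' h (le_top : zr M ≤ ⊤) f]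
  exact Finset.sum_congr rfl fun i _ => by rw [hy i, mul_assoc]

include h in
/-- A function separating `z₀` from the other points over `t(z₀)`. -/
theorem exists_separator (z₀ : ℍ) :
    ∃ s : ringR M (⊤ : Subring ℂ), (s : ℍ → ℂ) z₀ ≠ 0 ∧ ∀ f : ringR M (⊤ : Subring ℂ),
      (f : ℍ → ℂ) z₀ = 0 → ∀ γ ∈ Gamma n, ((f * s : ringR M ⊤) : ℍ → ℂ) (γ • z₀) = 0 := by
  classical
  -- the diagonal of the kernel
  set K : sheetGrp n M → ℂ := fun g =>
    ∑ i, act g (fE h i : ℍ → ℂ) z₀ * (fM h i : ℍ → ℂ) z₀ with hK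
  have hK1 : ∀ g, IsSign g → K g = K 1 := fun g hg => by
    refine Finset.sum_congr rfl fun i _ => ?_
    rw [hg ⊤ _ (fE_mem h le_top i), act_one (fE_mem h (le_top : zr M ≤ ⊤) i)]
  have hK0 : ∀ g, ¬ IsSign g → K g = 0 := fun g hg => by
    have := congrFun (frame_kernel h hg) z₀
    simpa [K, Finset.sum_apply] using this
  have hsum : ∑ g, K g = 1 := by
    have := congrFun (frame_spec h (f := fun _ : ℍ => (1 : ℂ)) (T := ⊤) (memR_const trivial)) z₀
    simp only [Finset.sum_apply, Pi.mul_apply] at this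
    rw [← this, hK, Finset.sum_comm]
    refine Finset.sum_congr rfl fun i _ => ?_
    rw [Finset.sum_mul]
    refine Finset.sum_congr rfl fun g _ => ?_
    show _ = act g _ z₀ * _
    simp [act, comp]
  have hne : K 1 ≠ 0 := fun h0 => by
    rw [Finset.sum_eq_zero fun g _ => ?_] at hsum
    · exact zero_ne_one hsum
    · by_cases hg : IsSign g
      · rw [hK1 g hg, h0]
      · exact hK0 g hg
  have hsep : ∀ g : {g : sheetGrp n M // ¬ IsSign g}, ∃ i,
      (fE h i : ℍ → ℂ) (sheetLift g.1 • z₀) ≠ (fE h i : ℍ → ℂ) z₀ := by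
    rintro ⟨g, hg⟩
    by_contra hall
    push Not at hall
    refine hne ?_
    rw [← hK0 g hg]
    refine Finset.sum_congr rfl fun i _ => ?_
    rw [act_one (fE_mem h (le_top : zr M ≤ ⊤) i)]
    exact congrArg (· * _) (hall i).symm
  choose i hi using hsep
  let e : FIdx h → ringR M (⊤ : Subring ℂ) := fun j => ⟨(fE h j : ℍ → ℂ), fE_mem h le_top j⟩
  let s : ringR M (⊤ : Subring ℂ) :=
    ∏ g : {g : sheetGrp n M // ¬ IsSign g},
      (e (i g) - cR ((fE h (i g) : ℍ → ℂ) (sheetLift g.1 • z₀)))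
  have hs : ∀ z, (s : ℍ → ℂ) z = ∏ g : {g : sheetGrp n M // ¬ IsSign g},
      ((fE h (i g) : ℍ → ℂ) z - (fE h (i g) : ℍ → ℂ) (sheetLift g.1 • z₀)) := fun z => by
    rw [← evalAt_apply, map_prod]
    rfl
  refine ⟨s, ?_, fun f hf γ hγ => ?_⟩
  · rw [hs]
    exact Finset.prod_ne_zero_iff.mpr fun g _ => sub_ne_zero.mpr (hi g).symm
  · have hg : redM M γ ∈ sheetGrp n M := ⟨γ, hγ, rfl⟩
    set g : sheetGrp n M := ⟨redM M γ, hg⟩
    have heq : ∀ F : ringR M (⊤ : Subring ℂ),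
        (F : ℍ → ℂ) (γ • z₀) = (F : ℍ → ℂ) (sheetLift g • z₀) := fun F =>
      (congrFun (act_eq_comp (g := g) F.2 rfl) z₀).symm
    rw [Subring.coe_mul, Pi.mul_apply]
    by_cases hgs : IsSign g
    · have := congrFun (hgs ⊤ _ f.2) z₀
      rw [heq f, show (f : ℍ → ℂ) (sheetLift g • z₀) = 0 from this.trans hf, zero_mul]
    · rw [heq s, hs, Finset.prod_eq_zero (Finset.mem_univ ⟨g, hgs⟩) (sub_self _), mul_zero]

include h in
theorem zOrd_tSub (z₀ : ℍ) :
    zOrd ((tSub h (tFun n M z₀) : ringR M (⊤ : Subring ℂ)) : ℍ → ℂ) z₀ = 1 := by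
  have ht : AnalyticAt ℂ (tFun n M ∘ ofComplex) (z₀ : ℂ) :=
    analyticAt_of_isHol (tFun_memB h).1.hol z₀
  have h1 := ht.analyticOrderAt_sub_eq_one_of_deriv_ne_zero (tFun_deriv_ne_zero h z₀)
  rw [← h1, zOrd]
  refine congrArg (fun F => analyticOrderAt F (z₀ : ℂ)) (funext fun w => ?_)
  simp [Function.comp, ofComplex_apply, tSub_apply]

include h in
/-- The zero of `f` at `z₀` as a power of `t - t₀`, away from the other points. -/
theorem exists_factor_order (f : ringR M (⊤ : Subring ℂ)) (z₀ : ℍ) {k : ℕ}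
    (hk : zOrd (f : ℍ → ℂ) z₀ = k) :
    ∃ s f₁ : ringR M (⊤ : Subring ℂ), (s : ℍ → ℂ) z₀ ≠ 0 ∧ (f₁ : ℍ → ℂ) z₀ ≠ 0 ∧
      f * s = tSub h (tFun n M z₀) ^ k * f₁ := by
  induction k generalizing f with
  | zero =>
    exact ⟨1, f, one_ne_zero, (zOrd_eq_zero f.2.hol z₀).mp (by exact_mod_cast hk), by simp⟩
  | succ k ih =>
    have hf0 : (f : ℍ → ℂ) z₀ = 0 := by
      by_contra hne
      rw [(zOrd_eq_zero f.2.hol z₀).mpr hne] at hk
      exact Nat.succ_ne_zero k (by exact_mod_cast hk.symm)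
    obtain ⟨s, hs, hvan⟩ := exists_separator h z₀
    obtain ⟨f₁, hf₁⟩ := exists_factor_of_fibre h (f * s) z₀ (hvan f hf0)
    have hord : zOrd (f₁ : ℍ → ℂ) z₀ = k := by
      have h1 := congrArg (fun x : ringR M (⊤ : Subring ℂ) => zOrd (x : ℍ → ℂ) z₀) hf₁
      simp only [Subring.coe_mul, zOrd_mul f.2.hol s.2.hol,
        zOrd_mul (tSub h (tFun n M z₀)).2.hol f₁.2.hol, zOrd_tSub, hk,
        (zOrd_eq_zero s.2.hol z₀).mpr hs, add_zero] at h1
      rw [Nat.cast_succ, add_comm] at h1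
      exact (WithTop.add_left_cancel ENat.one_ne_top h1).symm
    obtain ⟨s', f₂, hs', hf₂, he⟩ := ih f₁ hord
    refine ⟨s * s', f₂, by simpa using mul_ne_zero hs hs', hf₂, ?_⟩
    rw [← mul_assoc, hf₁, mul_assoc, he, pow_succ', mul_assoc]

include h in
/-- The Hauptmodul takes every value other than those at the cusps. -/
theorem exists_tFun_eq {c : ℂ} (hc : c ∉ cuspVals n M) : ∃ z, tFun n M z = c := by
  by_contra hno
  push Not at hno
  set d : ringB n M (⊤ : Subring ℂ) := tB h le_top - constB n M ⊤ ⟨c, trivial⟩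
  have hd0 : ∀ z, (d : ℍ → ℂ) z ≠ 0 := fun z => sub_ne_zero.mpr (hno z)
  have hd : IsHol (d : ℍ → ℂ) := d.2.1.hol
  let di : ringB n M (⊤ : Subring ℂ) :=
    ⟨(d : ℍ → ℂ)⁻¹, ⟨DifferentiableOn.inv hd fun w hw => hd0 _,
      fun γ hγ => funext fun z => congrArg (·⁻¹) (congrFun (d.2.1.inv γ hγ) z),
      fun γ => ⟨_, (d.2.1.expansion γ).hasQExp.inv natM_pos, fun _ => trivial⟩⟩,
      fun γ hγ => funext fun z => congrArg (·⁻¹) (congrFun (d.2.2 γ hγ) z)⟩
  have hmul : di * d = 1 := Subtype.ext (funext fun z => inv_mul_cancel₀ (hd0 z))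
  obtain ⟨e, P, hP⟩ := exists_cuspH_pow_mul_eq h le_top di
  set H : Polynomial (⊤ : Subring ℂ) :=
    ∏ v ∈ (cuspSet h).attach, (Polynomial.X - Polynomial.C ⟨v, trivial⟩)
  have hH : evalT h le_top H = cuspH h le_top := by
    simp only [H, cuspH, map_prod, map_sub, evalT_X, evalT_C]
  have hkey : H ^ e = P * (Polynomial.X - Polynomial.C ⟨c, trivial⟩) := by
    refine evalT_injectiveT h ?_
    rw [map_pow, hH, map_mul, map_sub, evalT_X, evalT_C, ← hP, mul_assoc, hmul, mul_one]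
  have := congrArg (Polynomial.eval (⟨c, trivial⟩ : (⊤ : Subring ℂ))) hkey
  simp only [H, Polynomial.eval_pow, Polynomial.eval_prod, Polynomial.eval_mul, Polynomial.eval_sub,
    Polynomial.eval_X, Polynomial.eval_C, sub_self, mul_zero] at this
  obtain ⟨v, -, hv⟩ := Finset.prod_eq_zero_iff.mp (eq_zero_of_pow_eq_zero this)
  exact hc (by
    rw [show c = (v : ℂ) from congrArg Subtype.val (sub_eq_zero.mp hv)]
    exact mem_cuspSet.mp v.2)

include h in
/-- The homomorphisms to `ℂ` over `ℂ` are the evaluations. -/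
theorem exists_point (χ : ringR M (⊤ : Subring ℂ) →+* ℂ) (hχ : ∀ c, χ (cR c) = c) :
    ∃ z : ℍ, ∀ f : ringR M (⊤ : Subring ℂ), χ f = (f : ℍ → ℂ) z := by
  classical
  have hτ : χ (tR h) ∉ cuspVals n M := by
    intro hc
    let i : ringR M (⊤ : Subring ℂ) := inclB (invSub h le_top hc)
    have h1 : tSub h (χ (tR h)) * i = 1 := by
      refine Subtype.ext (funext fun z => ?_)
      exact mul_inv_cancel₀ (sub_ne_zero.mpr ((tFun_sub_unit h hc).1 z))
    have h2 := congrArg χ h1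
    rw [map_mul, map_one, tSub, map_sub, hχ, sub_self, zero_mul] at h2
    exact zero_ne_one h2
  obtain ⟨z₀, hz₀⟩ := exists_tFun_eq h hτ
  by_contra hno
  push Not at hno
  have hg : ∀ g : sheetGrp n M, ∃ f : ringR M (⊤ : Subring ℂ),
      (f : ℍ → ℂ) (sheetLift g • z₀) = 0 ∧ χ f ≠ 0 := fun g => by
    obtain ⟨f, hf⟩ := hno (sheetLift g • z₀)
    refine ⟨f - cR ((f : ℍ → ℂ) (sheetLift g • z₀)), sub_self _, ?_⟩
    rw [map_sub, hχ]
    exact sub_ne_zero.mpr hf
  choose F hF hFne using hg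
  obtain ⟨f₁, hf₁⟩ := exists_factor_of_fibre h (∏ g, F g) z₀ fun γ hγ => by
    set g : sheetGrp n M := ⟨redM M γ, γ, hγ, rfl⟩
    rw [← evalAt_apply, map_prod]
    refine Finset.prod_eq_zero (Finset.mem_univ g) ?_
    rw [evalAt_apply]
    exact ((congrFun (act_eq_comp (g := g) (F g).2 rfl) z₀).symm).trans (hF g)
  have h2 := congrArg χ hf₁
  rw [map_prod, map_mul, tSub, map_sub, hχ, hz₀, sub_self, zero_mul] at h2
  exact Finset.prod_ne_zero_iff.mpr (fun g _ => hFne g) h2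

include h in
/-- Divisibility of the orders of zeros is kept by conjugation. -/
theorem dvd_order_conj {σ : ℂ ≃+* ℂ} {f f' : ℍ → ℂ} (hc : Conj M σ.toRingHom f f') {ℓ : ℕ}
    (hf : ∀ z, zOrd f z ≠ ⊤ ∧ ℓ ∣ (zOrd f z).toNat) (w : ℍ) :
    ℓ ∣ analyticOrderNatAt (f' ∘ ofComplex) (w : ℂ) := by
  choose Φ hΦ using fun x : ringR M (⊤ : Subring ℂ) => exists_conj h σ.toRingHom x.2
  have huniq : ∀ {x : ringR M (⊤ : Subring ℂ)} {g : ℍ → ℂ},
      Conj M σ.toRingHom x g → Φ x = g := fun hx => (hΦ _).unique hx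
  let χ : ringR M (⊤ : Subring ℂ) →+* ℂ :=
    { toFun := fun x => σ.symm (Φ x w)
      map_one' := by
        have h1 := huniq (x := 1) (Conj.const σ.toRingHom (1 : ℂ))
        simp [h1]
      map_zero' := by
        have h1 := huniq (x := 0) (Conj.const σ.toRingHom (0 : ℂ))
        simp [h1]
      map_add' := fun x y => by
        rw [huniq (x := x + y) ((hΦ x).add (hΦ y)), Pi.add_apply, map_add]
      map_mul' := fun x y => by
        rw [huniq (x := x * y) ((hΦ x).mul (hΦ y)), Pi.mul_apply, map_mul] }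
  obtain ⟨z, hz⟩ := exists_point h χ fun c => by
    show σ.symm (Φ (cR c) w) = c
    rw [huniq (x := cR c) (Conj.const σ.toRingHom c)]
    exact σ.symm_apply_apply c
  have hne : ∀ x : ringR M (⊤ : Subring ℂ), (x : ℍ → ℂ) z ≠ 0 → Φ x w ≠ 0 := fun x hx h0 => by
    apply hx
    rw [← hz x]
    show σ.symm (Φ x w) = 0
    rw [h0, map_zero]
  obtain ⟨hfin, j, hj⟩ := hf z
  obtain ⟨k, hk⟩ := WithTop.ne_top_iff_exists.mp hfin
  obtain ⟨s, f₁, hs, hf₁, he⟩ := exists_factor_order h ⟨f, hc.mem⟩ z (k := k) hk.symm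
  set π := tSub h (tFun n M z)
  have hkey : f' * Φ s = Φ π ^ k * Φ f₁ := by
    have h1 : Conj M σ.toRingHom ((⟨f, hc.mem⟩ * s : ringR M (⊤ : Subring ℂ)) : ℍ → ℂ) (f' * Φ s) :=
      hc.mul (hΦ s)
    rw [he] at h1
    exact h1.unique (((hΦ π).pow k).mul (hΦ f₁))
  have hol : ∀ x, IsHol (Φ x) := fun x => (hΦ x).mem'.hol
  have hord : zOrd f' w = k • zOrd (Φ π) w := by
    have h2 := congrArg (fun F => zOrd F w) hkey
    rw [zOrd_mul hc.mem'.hol (hol s), zOrd_mul (((hΦ π).pow k).mem'.hol) (hol f₁),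
      zOrd_pow (hol π), (zOrd_eq_zero (hol s) w).mpr (hne s hs),
      (zOrd_eq_zero (hol f₁) w).mpr (hne f₁ hf₁), add_zero, add_zero] at h2
    exact h2
  show ℓ ∣ (zOrd f' w).toNat
  have hkj : k = ℓ * j := by rw [← hj, ← hk]; rfl
  rw [hord, nsmul_eq_mul, ENat.toNat_mul, ENat.toNat_natCast, hkj, mul_assoc]
  exact dvd_mul_right _ _

end FLTAgent.Gamma1.Lv
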