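import Fermat.Agent.Gamma1.MultAPI
import Fermat.Agent.Gamma1.HeckeAPI
import Fermat.Agent.Gamma1.Lv.GalPoint
import Fermat.Agent.IntStr.GoodFun

/-!
# The action of `Γℚ` on characters of order `ℓ` of `Γ(M)`

`RootOf ℓ φ f` says that `f` is the `ℓ`-th power of a multiplier function of `φ` (a Kummer
function). Conjugates of Kummer functions are Kummer functions (`exists_conjRoot`) of a single
character (`eq_of_conjRoot`). Every character has a Kummer function with algebraic coefficients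
(`exists_root_algC`: the normalised one of largest order at `∞` with bounded poles has finite
orbit). This gives the homomorphism `galAct` with `galAct_spec`, `galAct_eq`, and
`galAct_finite`: it factors through a number field.
-/

set_option autoImplicit false
set_option linter.style.haveILetI false
set_option linter.unusedSectionVars false

noncomputable section

open UpperHalfPlane CongruenceSubgroup ModularCurve
open scoped MatrixGroups Manifold

namespace FLTAgent.Gamma1.Lv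

open FLTAgent.Modular

local notation "ℚ̄" => AlgebraicClosure ℚ
local notation "Γℚ" => (AlgebraicClosure ℚ ≃ₐ[ℚ] AlgebraicClosure ℚ)

variable {n M ℓ : ℕ} [NeZero M]

/-- `f` is the `ℓ`-th power of a multiplier function of `φ`. -/
def RootOf (ℓ : ℕ) (φ : Additive (Gamma M) →+ Additive ℂˣ) (f : ℍ → ℂ) : Prop :=
  ∃ y, IsCFun M φ y ∧ y ≠ 0 ∧ y ^ ℓ = f

theorem mdiff_of_isHol {f : ℍ → ℂ} (hf : IsHol f) : MDiff f :=
  UpperHalfPlane.mdifferentiable_iff.mpr hf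

theorem isHol_const (c : ℂ) : IsHol fun _ : ℍ => c := differentiableOn_const (c := c)

theorem mul_ne_zero_of_isHol {f g : ℍ → ℂ} (hf : IsHol f) (hg : IsHol g) (hf0 : f ≠ 0)
    (hg0 : g ≠ 0) : f * g ≠ 0 := fun h =>
  ((UpperHalfPlane.mul_eq_zero_iff (mdiff_of_isHol hf) (mdiff_of_isHol hg)).mp h).elim hf0 hg0

theorem isCFun_mul {φ ψ : Additive (Gamma M) →+ Additive ℂˣ} {y z : ℍ → ℂ} (hy : IsCFun M φ y)
    (hz : IsCFun M ψ z) : IsCFun M (φ + ψ) (y * z) := by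
  refine ⟨DifferentiableOn.mul hy.hol hz.hol, fun γ w => ?_,
    fun γ => (hy.expansion γ).mul (hz.expansion γ)⟩
  simp only [Pi.mul_apply, hy.smul, hz.smul, chrVal, AddMonoidHom.add_apply, toMul_add,
    Units.val_mul]
  ring

theorem isCFun_one : IsCFun M 0 (1 : ℍ → ℂ) :=
  ⟨isHol_const 1, fun γ w => by simp [chrVal], fun γ => hasExpIn_const trivial⟩

theorem nsmul_zero' (φ : Additive (Gamma M) →+ Additive ℂˣ) : (0 : ℕ) • φ = 0 :=
  AddMonoidHom.ext fun x => zero_nsmul (φ x)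

theorem nsmul_succ' (φ : Additive (Gamma M) →+ Additive ℂˣ) (k : ℕ) :
    (k + 1) • φ = k • φ + φ :=
  AddMonoidHom.ext fun x => succ_nsmul (φ x) k

theorem isCFun_pow {φ : Additive (Gamma M) →+ Additive ℂˣ} {y : ℍ → ℂ} (hy : IsCFun M φ y)
    (k : ℕ) : IsCFun M (k • φ) (y ^ k) := by
  induction k with
  | zero => rw [nsmul_zero', pow_zero]; exact isCFun_one
  | succ k ih => rw [nsmul_succ', pow_succ]; exact isCFun_mul ih hy

theorem memR_of_isCFun {y : ℍ → ℂ} (hy : IsCFun M 0 y) : MemR M ⊤ y :=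
  ⟨hy.hol, fun γ hγ => funext fun z => by simpa [comp, chrVal] using hy.smul ⟨γ, hγ⟩ z,
    hy.expansion⟩

theorem isCFun_of_memR {S : Subring ℂ} {f : ℍ → ℂ} (hf : MemR M S f) : IsCFun M 0 f :=
  ⟨hf.hol, fun γ z => by simpa [comp, chrVal] using congrFun (hf.inv γ γ.2) z,
    fun γ => (hf.expansion γ).mono le_top⟩

theorem isCFun_const_mul {φ : Additive (Gamma M) →+ Additive ℂˣ} {y : ℍ → ℂ}
    (hy : IsCFun M φ y) (c : ℂ) : IsCFun M φ ((fun _ => c) * y) := by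
  have := isCFun_mul (isCFun_of_memR (memR_const (M := M) (S := ⊤) (c := c) trivial)) hy
  rwa [show (0 : Additive (Gamma M) →+ Additive ℂˣ) + φ = φ from
    AddMonoidHom.ext fun x => zero_add (φ x)] at this

theorem pow_ne_zero_of_isHol {f : ℍ → ℂ} (hf0 : f ≠ 0) (k : ℕ) : f ^ k ≠ 0 := by
  obtain ⟨z, hz⟩ := Function.ne_iff.mp hf0
  exact Function.ne_iff.mpr ⟨z, pow_ne_zero k hz⟩

theorem RootOf.memR {φ : Additive (Gamma M) →+ Additive ℂˣ} (hφ : φ ∈ Chr M ℓ) {f : ℍ → ℂ}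
    (hf : RootOf ℓ φ f) : MemR M ⊤ f := by
  obtain ⟨y, hy, -, rfl⟩ := hf
  refine memR_of_isCFun ?_
  rw [← hφ.2]
  exact isCFun_pow hy ℓ

theorem RootOf.ne_zero {φ : Additive (Gamma M) →+ Additive ℂˣ} {f : ℍ → ℂ}
    (hf : RootOf ℓ φ f) : f ≠ 0 := by
  obtain ⟨y, -, hy, rfl⟩ := hf
  exact pow_ne_zero_of_isHol hy ℓ

theorem RootOf.one : RootOf (M := M) ℓ 0 1 :=
  ⟨1, isCFun_one, one_ne_zero, one_pow ℓ⟩

theorem RootOf.mul {φ ψ : Additive (Gamma M) →+ Additive ℂˣ} {f g : ℍ → ℂ}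
    (hf : RootOf ℓ φ f) (hg : RootOf ℓ ψ g) : RootOf ℓ (φ + ψ) (f * g) := by
  obtain ⟨y, hy, hy0, rfl⟩ := hf
  obtain ⟨z, hz, hz0, rfl⟩ := hg
  exact ⟨y * z, isCFun_mul hy hz, mul_ne_zero_of_isHol hy.hol hz.hol hy0 hz0, mul_pow y z ℓ⟩

theorem RootOf.pow {φ : Additive (Gamma M) →+ Additive ℂˣ} {f : ℍ → ℂ}
    (hf : RootOf ℓ φ f) (k : ℕ) : RootOf ℓ (k • φ) (f ^ k) := by
  induction k with
  | zero => rw [nsmul_zero', pow_zero]; exact RootOf.one
  | succ k ih => rw [nsmul_succ', pow_succ]; exact ih.mul hf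

theorem exists_root_unity [NeZero ℓ] {a b : ℍ → ℂ} (ha : IsHol a) (hb : IsHol b)
    (h : a ^ ℓ = b ^ ℓ) : ∃ ζ : ℂ, ζ ^ ℓ = 1 ∧ a = (fun _ => ζ) * b := by
  classical
  set μ := Polynomial.nthRootsFinset ℓ (1 : ℂ)
  have hprod : ∏ ζ ∈ μ, (a - (fun _ => ζ) * b) = 0 := by
    funext z
    rw [Finset.prod_apply]
    simp only [Pi.sub_apply, Pi.mul_apply]
    rw [← (Complex.isPrimitiveRoot_exp ℓ (NeZero.ne ℓ)).pow_sub_pow_eq_prod_sub_mul _ _
      (Nat.pos_of_ne_zero (NeZero.ne ℓ))]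
    have := congrFun h z
    simp only [Pi.pow_apply] at this
    simp [this]
  rw [UpperHalfPlane.prod_eq_zero_iff fun ζ _ =>
    mdiff_of_isHol (show IsHol (a - (fun _ => ζ) * b) from
      DifferentiableOn.sub ha (DifferentiableOn.mul (isHol_const ζ) hb))] at hprod
  obtain ⟨ζ, hζ, h0⟩ := hprod
  exact ⟨ζ, (Polynomial.mem_nthRootsFinset (Nat.pos_of_ne_zero (NeZero.ne ℓ)) 1).mp hζ,
    sub_eq_zero.mp h0⟩

/-- The character is determined by the Kummer function. -/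
theorem eq_of_rootOf [NeZero ℓ] {φ ψ : Additive (Gamma M) →+ Additive ℂˣ} {f : ℍ → ℂ}
    (h1 : RootOf ℓ φ f) (h2 : RootOf ℓ ψ f) : φ = ψ := by
  obtain ⟨y, hy, hy0, rfl⟩ := h1
  obtain ⟨z, hz, -, he⟩ := h2
  obtain ⟨ζ, hζ, rfl⟩ := exists_root_unity hy.hol hz.hol he.symm
  exact isCFun_unique hy (isCFun_const_mul hz ζ) hy0

theorem RootOf.comp_sl {φ : Additive (Gamma M) →+ Additive ℂˣ} {f : ℍ → ℂ}
    (hf : RootOf ℓ φ f) (g : SL(2, ℤ)) : RootOf ℓ (conjLin g φ) (comp f g) := by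
  obtain ⟨y, hy, hy0, rfl⟩ := hf
  refine ⟨comp y g, isCFun_comp hy g, fun h0 => hy0 ?_, rfl⟩
  funext z
  simpa [comp] using congrFun h0 (g⁻¹ • z)

theorem memR_heckeFun {f : ℍ → ℂ} (hf : MemR M ⊤ f) {p : ℕ} (hp : p.Prime) (hpM : ¬ p ∣ M) :
    MemR M ⊤ (heckeFun M p f) := by
  refine memR_of_isCFun ?_
  simpa using isCFun_hecke (isCFun_of_memR hf) hp hpM

theorem heckeFun_ne_zero {y : ℍ → ℂ} (hy : IsHol y) (hy0 : y ≠ 0) {p : ℕ} (hp : p.Prime) :
    heckeFun M p y ≠ 0 := by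
  have hmd : ∀ i : Option (Fin p), MDiff fun z => y (repPt hp M i z) := fun i =>
    (mdiff_of_isHol hy).comp (UpperHalfPlane.mdifferentiable_smul
      (HeckeH.det_glM_pos _ (by rw [det_heckeRep]; exact_mod_cast hp.pos)))
  have e : heckeFun M p y = ∏ i : Option (Fin p), fun z => y (repPt hp M i z) :=
    funext fun z => by rw [Finset.prod_apply, heckeFun_eq_prod hp]
  rw [e, Ne, UpperHalfPlane.prod_eq_zero_iff fun i _ => hmd i]
  rintro ⟨i, -, h0⟩
  refine hy0 (funext fun w => ?_)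
  have hd : (heckeRep M p i).det ≠ 0 := by rw [det_heckeRep]; exact_mod_cast hp.ne_zero
  have := congrFun h0 ((HeckeH.glM (heckeRep M p i) hd)⁻¹ • w)
  rwa [repPt, smul_inv_smul] at this

theorem RootOf.hecke {φ : Additive (Gamma M) →+ Additive ℂˣ} {f : ℍ → ℂ}
    (hf : RootOf ℓ φ f) {p : ℕ} (hp : p.Prime) (hpM : ¬ p ∣ M) :
    RootOf ℓ (heckeHom M p φ) (heckeFun M p f) := by
  obtain ⟨y, hy, hy0, rfl⟩ := hf
  refine ⟨heckeFun M p y, isCFun_hecke hy hp hpM, heckeFun_ne_zero hy.hol hy0 hp, ?_⟩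
  · funext z
    simp [heckeFun, mul_pow, Finset.prod_pow]

/-- The order of a series is not changed by a conjugation of the coefficients. -/
theorem order_coeffMap (σ : ℂ →+* ℂ) (x : LaurentSeries ℂ) :
    (coeffMap σ x).order = x.order := by
  rcases eq_or_ne x 0 with rfl | hx
  · rw [map_zero]
  have hx' : coeffMap σ x ≠ 0 := fun h => hx (coeffMap_injective' (h.trans (map_zero _).symm))
  have hc : ∀ k, (coeffMap σ x).coeff k = 0 ↔ x.coeff k = 0 := fun k => by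
    rw [coeffMap_coeff, map_eq_zero]
  refine le_antisymm ?_ ?_
  · exact HahnSeries.order_le_of_coeff_ne_zero fun h =>
      hx (HahnSeries.coeff_order_eq_zero.mp ((hc _).mp h))
  · exact HahnSeries.order_le_of_coeff_ne_zero fun h =>
      hx' (HahnSeries.coeff_order_eq_zero.mp ((hc _).mpr h))

theorem qser_pow_of_isCFun {φ : Additive (Gamma M) →+ Additive ℂˣ} {y : ℍ → ℂ}
    (hy : IsCFun M φ y) (k : ℕ) (γ : SL(2, ℤ)) :
    qser M (comp (y ^ k) γ) = qser M (comp y γ) ^ k :=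
  qser_eq ((hy.expansion γ).hasQExp.pow k)

theorem qser_ne_zero_of_isCFun [NeZero ℓ] {φ : Additive (Gamma M) →+ Additive ℂˣ}
    (hφ : φ ∈ Chr M ℓ) {y : ℍ → ℂ} (hy : IsCFun M φ y) (hy0 : y ≠ 0) (γ : SL(2, ℤ)) :
    qser M (comp y γ) ≠ 0 := fun h0 =>
  qser_comp_ne_zero (memR_pow_of_isCFun hφ hy) (pow_ne_zero_of_isHol hy0 ℓ) γ
    (by rw [qser_pow_of_isCFun hy, h0, zero_pow (NeZero.ne ℓ)])

theorem RootOf.dvd_order {φ : Additive (Gamma M) →+ Additive ℂˣ} {f : ℍ → ℂ}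
    (hf : RootOf ℓ φ f) (γ : SL(2, ℤ)) : (ℓ : ℤ) ∣ (qser M (comp f γ)).order := by
  obtain ⟨y, hy, -, rfl⟩ := hf
  rw [qser_pow_of_isCFun hy, HahnSeries.order_pow, nsmul_eq_mul]
  exact dvd_mul_right _ _

theorem coeff_pow_lowBd {x : LaurentSeries ℂ} {a : ℤ} (hx : LowBd x a) (k : ℕ) :
    (x ^ k).coeff (k * a) = x.coeff a ^ k := by
  induction k with
  | zero => simp
  | succ k ih =>
    rw [pow_succ, pow_succ, Nat.cast_succ, add_mul, one_mul, coeff_mul_lowBd (hx.pow k) hx, ih]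

theorem conj_id {f : ℍ → ℂ} (hf : MemR M ⊤ f) : Conj M (RingHom.id ℂ) f f :=
  conj_self_of_fixed hf (fun _ _ => rfl) rfl

theorem Conj.order_at_cusp {σ : ℂ →+* ℂ} {f f' : ℍ → ℂ} (hc : Conj M σ f f') (γ : SL(2, ℤ)) :
    (qser M (comp f' γ)).order =
      (qser M (comp f (twSL (cycExp M σ)⁻¹ γ))).order := by
  rw [← order_coeffMap σ (qser M (comp f _)), hc.eq,
    hc.mem'.comp_eq_of_redM_eq (redM_twSL_inv (cycExp M σ) γ)]

theorem Conj.ne_zero {σ : ℂ →+* ℂ} {f f' : ℍ → ℂ} (hc : Conj M σ f f') (hf : f ≠ 0) :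
    f' ≠ 0 := by
  rintro rfl
  refine hf (hc.injective ?_)
  have := Conj.const (M := M) σ (0 : ℂ)
  rwa [map_zero] at this

/-- A conjugate of a Kummer function is a Kummer function. -/
theorem exists_conjRoot (h : IsLevel n M) [NeZero ℓ] (σ : ℂ ≃+* ℂ)
    {φ : Additive (Gamma M) →+ Additive ℂˣ} (hφ : φ ∈ Chr M ℓ) {f : ℍ → ℂ} (hf : RootOf ℓ φ f) :
    ∃ ψ ∈ Chr M ℓ, ∃ f', Conj M σ.toRingHom f f' ∧ RootOf ℓ ψ f' := by
  obtain ⟨f', hc⟩ := exists_conj h σ.toRingHom (hf.memR hφ)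
  have hf0 := hc.ne_zero hf.ne_zero
  have hord : ∀ z, zOrd f z ≠ ⊤ ∧ ℓ ∣ (zOrd f z).toNat := fun z => by
    refine ⟨hc.mem.hol.analyticOrderAt_ne_top hf.ne_zero z, ?_⟩
    obtain ⟨y, hy, -, rfl⟩ := hf
    rw [zOrd_pow hy.hol, nsmul_eq_mul, ENat.toNat_mul, ENat.toNat_natCast]
    exact dvd_mul_right _ _
  obtain ⟨g, hg, hgf⟩ := exists_root_of_dvd_order hc.mem'.hol hf0 (dvd_order_conj h hc hord)
  have hcusp : ∀ γ : SL(2, ℤ), (ℓ : ℤ) ∣ (qser M (comp f' γ)).order := fun γ =>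
    hc.order_at_cusp γ ▸ hf.dvd_order _
  obtain ⟨ψ, hψ, hψg⟩ := exists_chr_of_root h.three_le hc.mem' hf0 hcusp hg hgf
  exact ⟨ψ, hψ, f', hc, g, hψg, fun h0 => hf0 (by rw [← hgf, h0, zero_pow (NeZero.ne ℓ)]), hgf⟩

/-- Conjugates of Kummer functions of one character belong to one character. -/
theorem eq_of_conjRoot (h : IsLevel n M) [NeZero ℓ] {σ : ℂ →+* ℂ}
    {φ ψ₁ ψ₂ : Additive (Gamma M) →+ Additive ℂˣ} (hφ : φ ∈ Chr M ℓ) (h₁ : ψ₁ ∈ Chr M ℓ)
    (h₂ : ψ₂ ∈ Chr M ℓ) {f₁ f₂ g₁ g₂ : ℍ → ℂ} (hf₁ : RootOf ℓ φ f₁) (hf₂ : RootOf ℓ φ f₂)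
    (hc₁ : Conj M σ f₁ g₁) (hc₂ : Conj M σ f₂ g₂) (hg₁ : RootOf ℓ ψ₁ g₁)
    (hg₂ : RootOf ℓ ψ₂ g₂) : ψ₁ = ψ₂ := by
  have hℓ : ℓ - 1 + 1 = ℓ := Nat.sub_add_cancel (NeZero.pos ℓ)
  have key : ∀ χ ∈ Chr M ℓ, χ + (ℓ - 1) • χ = 0 := fun χ hχ => by
    refine Eq.trans ?_ hχ.2
    refine AddMonoidHom.ext fun x => ?_
    show χ x + (ℓ - 1) • χ x = ℓ • χ x
    rw [add_comm, ← succ_nsmul, hℓ]
  obtain ⟨y₁, hy₁, hy₁0, rfl⟩ := hf₁
  obtain ⟨y₂, hy₂, hy₂0, rfl⟩ := hf₂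
  have hF : IsCFun M 0 (y₁ * y₂ ^ (ℓ - 1)) := key φ hφ ▸ isCFun_mul hy₁ (isCFun_pow hy₂ _)
  have hF0 : y₁ * y₂ ^ (ℓ - 1) ≠ 0 :=
    mul_ne_zero_of_isHol hy₁.hol (isCFun_pow hy₂ _).hol hy₁0 (pow_ne_zero_of_isHol hy₂0 _)
  obtain ⟨F', hF'⟩ := exists_conj h σ (memR_of_isCFun hF)
  have he : F' ^ ℓ = g₁ * g₂ ^ (ℓ - 1) := by
    refine (hF'.pow ℓ).unique ?_
    rw [mul_pow, ← pow_mul, mul_comm (ℓ - 1) ℓ, pow_mul]
    exact hc₁.mul (hc₂.pow _)
  have h0 : ψ₁ + (ℓ - 1) • ψ₂ = 0 := eq_of_rootOf (hg₁.mul (hg₂.pow _))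
    ⟨F', isCFun_of_memR hF'.mem', hF'.ne_zero hF0, he⟩
  exact add_right_cancel (h0.trans (key ψ₂ h₂).symm)

theorem exists_equiv_eq_add {z : ℂ} (hz : z ∉ algC) (k : ℕ) :
    ∃ σ : ℂ ≃+* ℂ, (∀ x ∈ algC, σ x = x) ∧ σ z = z + k := by
  haveI : Algebra.IsAlgebraic ℚ (algebraicClosure ℚ ℂ) := algebraicClosure.isAlgebraic ℚ ℂ
  haveI := WeightOne.countable_of_isAlgebraic (algebraicClosure ℚ ℂ)
  haveI := WeightOne.countable_polynomial (K := algebraicClosure ℚ ℂ)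
  have htr : Transcendental (algebraicClosure ℚ ℂ) z := fun hint =>
    hz (mem_algebraicClosure_iff.2
      (isAlgebraic_iff_isIntegral.2 (isIntegral_trans z hint.isIntegral)))
  have hinj := transcendental_iff_injective.mp htr
  have hinj' : Function.Injective
      (Polynomial.aeval (z + k) : Polynomial (algebraicClosure ℚ ℂ) →ₐ[_] ℂ) := by
    refine (injective_iff_map_eq_zero _).mpr fun p hp => ?_
    have h1 : p.comp (Polynomial.X + Polynomial.C (k : algebraicClosure ℚ ℂ)) = 0 := by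
      refine hinj (Eq.trans ?_ (map_zero _).symm)
      rw [Polynomial.aeval_comp]; simpa using hp
    rcases Polynomial.comp_eq_zero_iff.mp h1 with h2 | ⟨-, h2⟩
    · exact h2
    · have := congrArg (Polynomial.coeff · 1) h2
      simp at this
  obtain ⟨σ, hσ⟩ := IntStr.exists_ringEquiv_complex_of_two_homs
    (Polynomial.aeval z : Polynomial (algebraicClosure ℚ ℂ) →ₐ[_] ℂ).toRingHom
    (Polynomial.aeval (z + k) : Polynomial (algebraicClosure ℚ ℂ) →ₐ[_] ℂ).toRingHom hinj hinj'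
  refine ⟨σ, fun x hx => ?_, by simpa using hσ Polynomial.X⟩
  simpa using hσ (Polynomial.C ⟨x, hx⟩)

/-- A number with finite orbit under the automorphisms over the algebraic numbers is
algebraic. -/
theorem mem_algC_of_finite_orbit_equiv {z : ℂ}
    (h : {w : ℂ | ∃ σ : ℂ ≃+* ℂ, (∀ x ∈ algC, σ x = x) ∧ σ z = w}.Finite) : z ∈ algC := by
  by_contra hz
  refine Set.infinite_range_of_injective
    (f := fun k : ℕ => z + k) (fun a b hab => by simpa using hab) (h.subset ?_)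
  rintro _ ⟨k, rfl⟩
  exact exists_equiv_eq_add hz k

/-- Kummer functions of `φ` with poles bounded by `m`. -/
def GoodRoot (ℓ m : ℕ) (φ : Additive (Gamma M) →+ Additive ℂˣ) (f : ℍ → ℂ) : Prop :=
  RootOf ℓ φ f ∧ ∀ γ : SL(2, ℤ), -(m : ℤ) ≤ (qser M (comp f γ)).order

theorem exists_goodRoot (h : IsLevel n M) [NeZero ℓ] {φ : Additive (Gamma M) →+ Additive ℂˣ}
    (hφ : φ ∈ Chr M ℓ) : ∃ m f, GoodRoot ℓ m φ f := by
  classical
  obtain ⟨y, hy, hy0⟩ := exists_cFun h hφ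
  have hf : RootOf ℓ φ (y ^ ℓ) := ⟨y, hy, hy0, rfl⟩
  let B : Finset ℕ := Finset.univ.image fun g : SL(2, ZMod M) =>
    ((qser M (comp (y ^ ℓ) (exists_lift_SL M g).choose)).order).natAbs
  refine ⟨B.sup id, y ^ ℓ, hf, fun γ => ?_⟩
  have hle : ((qser M (comp (y ^ ℓ) (exists_lift_SL M (redM M γ)).choose)).order).natAbs ≤
      B.sup id :=
    Finset.le_sup (f := id) (Finset.mem_image.mpr ⟨_, Finset.mem_univ _, rfl⟩)
  rw [(hf.memR hφ).comp_eq_of_redM_eq (γ := γ) (δ := (exists_lift_SL M (redM M γ)).choose)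
    (Matrix.SpecialLinearGroup.ext _ _ (exists_lift_SL M (redM M γ)).choose_spec).symm]
  omega

theorem GoodRoot.mem_cFunSpace [NeZero ℓ] {φ : Additive (Gamma M) →+ Additive ℂˣ} {m : ℕ}
    {y : ℍ → ℂ} (hy : IsCFun M φ y)
    (hpole : ∀ γ : SL(2, ℤ), -(m : ℤ) ≤ (qser M (comp (y ^ ℓ) γ)).order) :
    y ∈ cFunSpace φ m := by
  refine ⟨hy, fun γ k hk => HahnSeries.coeff_eq_zero_of_lt_order (lt_of_lt_of_le hk ?_)⟩
  have h1 := hpole γ
  rw [qser_pow_of_isCFun hy, HahnSeries.order_pow, nsmul_eq_mul] at h1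
  have h2 : (1 : ℤ) ≤ ℓ := by exact_mod_cast NeZero.pos ℓ
  nlinarith

theorem qser_smul_of_isCFun {φ : Additive (Gamma M) →+ Additive ℂˣ} {y : ℍ → ℂ}
    (hy : IsCFun M φ y) (c : ℂ) (γ : SL(2, ℤ)) :
    qser M (comp (c • y) γ) = c • qser M (comp y γ) :=
  qser_eq ((hy.expansion γ).hasQExp.const_mul c)

/-- The orders at `∞` of Kummer functions with bounded poles are bounded above. -/
theorem exists_maxRoot [NeZero ℓ] {φ : Additive (Gamma M) →+ Additive ℂˣ} (hφ : φ ∈ Chr M ℓ)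
    {m : ℕ} {f : ℍ → ℂ} (hf : GoodRoot ℓ m φ f) :
    ∃ g, GoodRoot ℓ m φ g ∧
      ∀ g', GoodRoot ℓ m φ g' → (qser M g').order ≤ (qser M g).order := by
  classical
  haveI := finiteDimensional_cFunSpace hφ m
  set P : ℕ → Prop := fun d => ∃ g, GoodRoot ℓ m φ g ∧ ∃ W : Submodule ℂ (cFunSpace φ m),
    Module.finrank ℂ W = d ∧ ∀ v : cFunSpace φ m, v ∈ W ↔
      LowBd (qser M ((v : ℍ → ℂ) ^ ℓ)) (qser M g).order
  have hP : ∀ g, GoodRoot ℓ m φ g → ∃ W : Submodule ℂ (cFunSpace φ m),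
      ∀ v : cFunSpace φ m, v ∈ W ↔ LowBd (qser M ((v : ℍ → ℂ) ^ ℓ)) (qser M g).order := by
    intro g hg
    obtain ⟨y, hy, hy0, rfl⟩ := hg.1
    have key : ∀ v : cFunSpace φ m, LowBd (qser M ((v : ℍ → ℂ) ^ ℓ)) (qser M (y ^ ℓ)).order ↔
        LowBd (qser M (v : ℍ → ℂ)) (qser M y).order := by
      intro v
      have hv := qser_pow_of_isCFun v.2.1 ℓ 1
      have hy' := qser_pow_of_isCFun hy ℓ 1
      rw [comp_one, comp_one] at hv hy'
      rw [hv, hy', HahnSeries.order_pow, nsmul_eq_mul]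
      refine ⟨fun hb k hk => ?_, fun hb => hb.pow ℓ⟩
      by_contra hne
      have h1 : (qser M (v : ℍ → ℂ)).order ≤ k := HahnSeries.order_le_of_coeff_ne_zero hne
      have h2 := hb ((ℓ : ℤ) * (qser M (v : ℍ → ℂ)).order) (by
        have : (1 : ℤ) ≤ ℓ := by exact_mod_cast NeZero.pos ℓ
        nlinarith)
      rw [coeff_pow_lowBd (fun j hj => HahnSeries.coeff_eq_zero_of_lt_order hj)] at h2
      have h3 := HahnSeries.coeff_order_eq_zero.mp (eq_zero_of_pow_eq_zero h2)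
      rw [h3, HahnSeries.coeff_zero] at hne
      exact hne rfl
    refine ⟨{ carrier := {v | LowBd (qser M (v : ℍ → ℂ)) (qser M y).order}
              zero_mem' := ?_
              add_mem' := ?_
              smul_mem' := ?_ }, fun v => (key v).symm⟩
    · intro v w hv hw
      show LowBd (qser M ((v : ℍ → ℂ) + (w : ℍ → ℂ))) _
      have := qser_eq (((v.2.1.expansion 1).hasQExp).add ((w.2.1.expansion 1).hasQExp))
      rw [comp_one, comp_one] at this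
      rw [this]
      exact hv.add hw
    · show LowBd (qser M (0 : ℍ → ℂ)) _
      rw [qser_eq (hasQExp_zero _)]
      exact LowBd.zero _
    · intro c v hv
      show LowBd (qser M (c • (v : ℍ → ℂ))) _
      have := qser_smul_of_isCFun v.2.1 c 1
      rw [comp_one, comp_one] at this
      rw [this]
      exact fun k hk => by rw [HahnSeries.coeff_smul, hv k hk, smul_zero]
  have hex : ∃ d, P d := by
    obtain ⟨W, hW⟩ := hP f hf
    exact ⟨_, f, hf, W, rfl, hW⟩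
  obtain ⟨g, hg, W, hd, hW⟩ := Nat.find_spec hex
  refine ⟨g, hg, fun g' hg' => le_of_not_gt fun hlt => ?_⟩
  obtain ⟨W', hW'⟩ := hP g' hg'
  have hsub : W' < W := by
    refine lt_of_le_of_ne (fun v hv => (hW v).mpr (((hW' v).mp hv).mono hlt.le)) fun he => ?_
    obtain ⟨y, hy, hy0, rfl⟩ := hg.1
    have hyW : (⟨y, GoodRoot.mem_cFunSpace hy hg.2⟩ : cFunSpace φ m) ∈ W :=
      (hW _).mpr fun k hk => HahnSeries.coeff_eq_zero_of_lt_order hk
    rw [← he, hW'] at hyW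
    have h0 := qser_comp_ne_zero (memR_pow_of_isCFun hφ hy) (pow_ne_zero_of_isHol hy0 ℓ) 1
    rw [comp_one] at h0
    exact h0 (HahnSeries.coeff_order_eq_zero.mp (hyW _ hlt))
  exact Nat.find_min hex (hd ▸ Submodule.finrank_lt_finrank_of_lt hsub) ⟨g', hg', W', rfl, hW'⟩

/-- The normalised Kummer function of largest order at `∞` is unique. -/
theorem eq_of_maxRoot [NeZero ℓ] {φ : Additive (Gamma M) →+ Additive ℂˣ} (hφ : φ ∈ Chr M ℓ)
    {m : ℕ} {A : ℤ} {f g : ℍ → ℂ}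
    (hmax : ∀ g', GoodRoot ℓ m φ g' → (qser M g').order ≤ A)
    (hf : GoodRoot ℓ m φ f) (hfA : (qser M f).order = A) (hf1 : (qser M f).coeff A = 1)
    (hg : GoodRoot ℓ m φ g) (hgA : (qser M g).order = A) (hg1 : (qser M g).coeff A = 1) :
    g = f := by
  obtain ⟨y, hy, hy0, rfl⟩ := hf.1
  obtain ⟨z, hz, hz0, rfl⟩ := hg.1
  have hyp := qser_pow_of_isCFun hy ℓ 1
  have hzp := qser_pow_of_isCFun hz ℓ 1
  rw [comp_one, comp_one] at hyp hzp
  set a := (qser M y).order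
  have hAa : A = ℓ * a := by rw [← hfA, hyp, HahnSeries.order_pow, nsmul_eq_mul]
  have hza : (qser M z).order = a := by
    have h1 : (ℓ : ℤ) * (qser M z).order = ℓ * a := by
      rw [← hAa, ← hgA, hzp, HahnSeries.order_pow, nsmul_eq_mul]
    exact mul_left_cancel₀ (Nat.cast_ne_zero.mpr (NeZero.ne ℓ)) h1
  have ly : LowBd (qser M y) a := fun k hk => HahnSeries.coeff_eq_zero_of_lt_order hk
  have lz : LowBd (qser M z) a := fun k hk =>
    HahnSeries.coeff_eq_zero_of_lt_order (hza.symm ▸ hk)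
  have cy : (qser M y).coeff a ^ ℓ = 1 := by
    rw [← coeff_pow_lowBd ly ℓ, ← hyp, ← hAa, hf1]
  have cz : (qser M z).coeff a ^ ℓ = 1 := by
    rw [← coeff_pow_lowBd lz ℓ, ← hzp, ← hAa, hg1]
  have cy0 : (qser M y).coeff a ≠ 0 := fun h0 => by
    rw [h0, zero_pow (NeZero.ne ℓ)] at cy
    exact zero_ne_one cy
  set c := (qser M z).coeff a / (qser M y).coeff a
  suffices hd : z = c • y by
    rw [hd, smul_pow, div_pow, cy, cz, div_one, one_smul]
  by_contra hne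
  have hd0 : z - c • y ≠ 0 := sub_ne_zero.mpr hne
  have hV : z - c • y ∈ cFunSpace φ m := Submodule.sub_mem _ (GoodRoot.mem_cFunSpace hz hg.2)
    (Submodule.smul_mem _ c (GoodRoot.mem_cFunSpace hy hf.2))
  have hq : ∀ γ, qser M (comp (z - c • y) γ) = qser M (comp z γ) - c • qser M (comp y γ) := fun γ =>
    eq_sub_of_add_eq (Eq.symm (by
      rw [← qser_smul_of_isCFun hy]
      refine (congrArg (fun F => qser M (comp F γ)) (sub_add_cancel z (c • y)).symm).trans ?_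
      exact qser_eq ((hV.1.expansion γ).hasQExp.add
        ((hy.expansion γ).hasQExp.const_mul c) |>.congr (Filter.Eventually.of_forall fun _ => rfl))
        |>.trans (congrArg _ (qser_smul_of_isCFun hy c γ).symm)))
  have hgood : GoodRoot ℓ m φ ((z - c • y) ^ ℓ) := by
    refine ⟨⟨_, hV.1, hd0, rfl⟩, fun γ => ?_⟩
    have h1 := qser_ne_zero_of_isCFun hφ hV.1 hd0 γ
    have h2 : min ((qser M (comp z γ)).order) ((qser M (comp y γ)).order) ≤
        (qser M (comp (z - c • y) γ)).order := by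
      refine (HahnSeries.le_order_iff_forall h1).mpr fun k hk => ?_
      rw [hq, HahnSeries.coeff_sub, HahnSeries.coeff_smul,
        HahnSeries.coeff_eq_zero_of_lt_order (lt_of_lt_of_le hk (min_le_left _ _)),
        HahnSeries.coeff_eq_zero_of_lt_order (lt_of_lt_of_le hk (min_le_right _ _)),
        smul_zero, sub_zero]
    have h3 := hg.2 γ
    have h4 := hf.2 γ
    rw [qser_pow_of_isCFun hz, HahnSeries.order_pow, nsmul_eq_mul] at h3
    rw [qser_pow_of_isCFun hy, HahnSeries.order_pow, nsmul_eq_mul] at h4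
    rw [qser_pow_of_isCFun hV.1, HahnSeries.order_pow, nsmul_eq_mul]
    rcases min_choice ((qser M (comp z γ)).order) ((qser M (comp y γ)).order) with e | e <;>
      rw [e] at h2 <;> nlinarith
  have h5 := hmax _ hgood
  have hp := qser_pow_of_isCFun hV.1 ℓ 1
  simp only [comp_one] at hp
  rw [hp, HahnSeries.order_pow, nsmul_eq_mul, hAa] at h5
  have h1 := qser_ne_zero_of_isCFun hφ hV.1 hd0 1
  have h6 : a + 1 ≤ (qser M (comp (z - c • y) 1)).order := by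
    refine (HahnSeries.le_order_iff_forall h1).mpr fun k hk => ?_
    rw [hq, comp_one, comp_one, HahnSeries.coeff_sub, HahnSeries.coeff_smul]
    rcases lt_or_ge k a with hka | hka
    · rw [ly k hka, lz k hka, smul_zero, sub_zero]
    · obtain rfl : k = a := by omega
      rw [smul_eq_mul, div_mul_cancel₀ _ cy0, sub_self]
  rw [comp_one] at h6
  have : (1 : ℤ) ≤ ℓ := by exact_mod_cast NeZero.pos ℓ
  nlinarith

/-- Every character has a Kummer function with algebraic coefficients. -/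
theorem exists_root_algC (h : IsLevel n M) [NeZero ℓ] {φ : Additive (Gamma M) →+ Additive ℂˣ}
    (hφ : φ ∈ Chr M ℓ) : ∃ f, RootOf ℓ φ f ∧ MemR M algC f := by
  obtain ⟨m, f₀, hf₀⟩ := exists_goodRoot h hφ
  obtain ⟨g, hg, hmax⟩ := exists_maxRoot hφ hf₀
  obtain ⟨y, hy, hy0, rfl⟩ := hg.1
  set A := (qser M (y ^ ℓ)).order with hA
  have hyp := qser_pow_of_isCFun hy ℓ 1
  rw [comp_one, comp_one] at hyp
  have hy1 : (qser M y).coeff (qser M y).order ≠ 0 := by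
    refine mt HahnSeries.coeff_order_eq_zero.mp ?_
    simpa using qser_ne_zero_of_isCFun hφ hy hy0 1
  set d := ((qser M y).coeff (qser M y).order)⁻¹
  have hd : d ≠ 0 := inv_ne_zero hy1
  have hy' : IsCFun M φ (d • y) := by
    have := isCFun_const_mul hy d
    exact this
  have hsm : ∀ γ, qser M (comp ((d • y) ^ ℓ) γ) = d ^ ℓ • qser M (comp (y ^ ℓ) γ) := fun γ => by
    rw [smul_pow, qser_smul_of_isCFun (isCFun_pow hy ℓ)]
  have hord : ∀ γ, (qser M (comp ((d • y) ^ ℓ) γ)).order = (qser M (comp (y ^ ℓ) γ)).order :=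
    fun γ => by
      have h0 := qser_comp_ne_zero (memR_pow_of_isCFun hφ hy) (pow_ne_zero_of_isHol hy0 ℓ) γ
      rw [hsm]
      refine le_antisymm (HahnSeries.order_le_of_coeff_ne_zero ?_)
        (HahnSeries.le_order_smul _ _ (smul_ne_zero (pow_ne_zero _ hd) h0))
      rw [HahnSeries.coeff_smul]
      exact smul_ne_zero (pow_ne_zero _ hd) (mt HahnSeries.coeff_order_eq_zero.mp h0)
  set f := (d • y) ^ ℓ
  have hfG : GoodRoot ℓ m φ f := ⟨⟨_, hy', smul_ne_zero hd hy0, rfl⟩,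
    fun γ => (hord γ).symm ▸ hg.2 γ⟩
  have hfA : (qser M f).order = A := by simpa using hord 1
  have hf1 : (qser M f).coeff A = 1 := by
    have h1 := hsm 1
    rw [comp_one, comp_one] at h1
    rw [h1, HahnSeries.coeff_smul, smul_eq_mul, hA, hyp, HahnSeries.order_pow, nsmul_eq_mul,
      coeff_pow_lowBd (fun j hj => HahnSeries.coeff_eq_zero_of_lt_order hj), ← mul_pow,
      inv_mul_cancel₀ hy1, one_pow]
  refine ⟨f, hfG.1, memR_algC_of_infty h (hfG.1.memR hφ) fun k => ?_⟩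
  haveI : Finite (Chr M ℓ) := chr_finite
  let T : Set (ℍ → ℂ) := ⋃ ψ : Chr M ℓ, {g | GoodRoot ℓ m ψ.1 g ∧ (qser M g).order = A ∧
    (qser M g).coeff A = 1 ∧ ∀ g', GoodRoot ℓ m ψ.1 g' → (qser M g').order ≤ A}
  have hT : T.Finite := Set.finite_iUnion fun ψ => Set.Subsingleton.finite
    fun g₁ ⟨ha, hb, hc, hmx⟩ g₂ ⟨ha', hb', hc', _⟩ => eq_of_maxRoot ψ.2 hmx ha' hb' hc' ha hb hc
  refine mem_algC_of_finite_orbit_equiv ((hT.image fun g => (qser M g).coeff k).subset ?_)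
  rintro _ ⟨σ, -, rfl⟩
  obtain ⟨ψ, hψ, f', hc, hf'⟩ := exists_conjRoot h σ hφ hfG.1
  refine ⟨f', Set.mem_iUnion.mpr ⟨⟨ψ, hψ⟩, ⟨hf', fun γ => ?_⟩, ?_, ?_, fun g' hg' => ?_⟩, ?_⟩
  · rw [hc.order_at_cusp]; exact hfG.2 _
  · rw [← hc.at_one, order_coeffMap, hfA]
  · rw [← hc.at_one, coeffMap_coeff, hf1, map_one]
  · obtain ⟨φ', hφ', g₀, hc₀, hg₀⟩ := exists_conjRoot h σ.symm hψ hg'.1
    have hback : Conj M σ.symm.toRingHom f' f := by
      obtain ⟨e, he⟩ := exists_conj h σ.symm.toRingHom hc.mem'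
      have h1 := hc.trans he
      rw [show σ.symm.toRingHom.comp σ.toRingHom = RingHom.id ℂ from
        RingHom.ext σ.symm_apply_apply] at h1
      rwa [← (conj_id hc.mem).unique h1] at he
    obtain rfl : φ' = φ := eq_of_conjRoot h hψ hφ' hφ hg'.1 hf' hc₀ hback hg₀ hfG.1
    rw [← order_coeffMap σ.symm.toRingHom (qser M g'), hc₀.at_one]
    exact hmax g₀ ⟨hg₀, fun γ => by rw [hc₀.order_at_cusp]; exact hg'.2 _⟩
  · exact (congrArg (fun w => w.coeff k) hc.at_one).symm.trans (coeffMap_coeff _ _ _)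

variable (h : IsLevel n M) [NeZero ℓ] (ι : ℚ̄ →+* ℂ)

/-- The action of one element. -/
def galChr (σ : Γℚ) (φ : Chr M ℓ) : Chr M ℓ :=
  ⟨(exists_conjRoot h (exists_extC ι σ).choose φ.2 (exists_root_algC h φ.2).choose_spec.1).choose,
    (exists_conjRoot h (exists_extC ι σ).choose φ.2
      (exists_root_algC h φ.2).choose_spec.1).choose_spec.1⟩

/-- Conjugates of Kummer functions are Kummer functions of the image. -/
theorem galChr_spec (σ : Γℚ) (φ : Chr M ℓ) {f f' : ℍ → ℂ} (hf : RootOf ℓ φ.1 f)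
    (hc : Conj M (extC ι σ) f f') : RootOf ℓ (galChr h ι σ φ).1 f' := by
  obtain ⟨g', hg', hroot⟩ := (exists_conjRoot h (exists_extC ι σ).choose φ.2
    (exists_root_algC h φ.2).choose_spec.1).choose_spec.2
  obtain ⟨ψ, hψ, f'', hf'', hroot'⟩ := exists_conjRoot h (exists_extC ι σ).choose φ.2 hf
  obtain rfl := hc.unique hf''
  rwa [show (galChr h ι σ φ).1 = ψ from eq_of_conjRoot h φ.2 (galChr h ι σ φ).2 hψ
    (exists_root_algC h φ.2).choose_spec.1 hf hg' hc hroot hroot']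

theorem galChr_eq {σ : Γℚ} {φ ψ : Chr M ℓ} {f f' : ℍ → ℂ} (hf : RootOf ℓ φ.1 f)
    (hc : Conj M (extC ι σ) f f') (hf' : RootOf ℓ ψ.1 f') : galChr h ι σ φ = ψ :=
  Subtype.ext (eq_of_rootOf (galChr_spec h ι σ φ hf hc) hf')

attribute [irreducible] galChr

theorem galChr_add (σ : Γℚ) (φ ψ : Chr M ℓ) :
    galChr h ι σ (φ + ψ) = galChr h ι σ φ + galChr h ι σ ψ := by
  obtain ⟨f, hf, -⟩ := exists_root_algC h φ.2
  obtain ⟨g, hg, -⟩ := exists_root_algC h ψ.2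
  obtain ⟨f', hf'⟩ := exists_conj h (extC ι σ) (hf.memR φ.2)
  obtain ⟨g', hg'⟩ := exists_conj h (extC ι σ) (hg.memR ψ.2)
  refine galChr_eq h ι ?_ (hf'.mul hg') ?_
  · rw [AddSubgroup.coe_add]; exact hf.mul hg
  · rw [AddSubgroup.coe_add]
    exact (galChr_spec h ι σ φ hf hf').mul (galChr_spec h ι σ ψ hg hg')

theorem galChr_one (φ : Chr M ℓ) : galChr h ι 1 φ = φ := by
  obtain ⟨f, hf, hfa⟩ := exists_root_algC h φ.2
  exact galChr_eq h ι hf (conj_self_of_fixed hfa (fun x hx => extC_one hx)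
    (extC_one (zr_le_algC M zeta_mem_zr))) hf

theorem galChr_mul (σ τ : Γℚ) (φ : Chr M ℓ) :
    galChr h ι (σ * τ) φ = galChr h ι σ (galChr h ι τ φ) := by
  obtain ⟨f, hf, hfa⟩ := exists_root_algC h φ.2
  obtain ⟨f', hf'⟩ := exists_conj h (extC ι τ) (hf.memR φ.2)
  obtain ⟨f'', hf''⟩ := exists_conj h (extC ι σ) hf'.mem'
  refine galChr_eq h ι hf ?_
    (galChr_spec h ι σ _ (galChr_spec h ι τ φ hf hf') hf'')
  have hz := zr_le_algC M (zeta_mem_zr (M := M))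
  refine ⟨hf'.mem, hf''.mem', fun γ => ?_⟩
  rw [show cycExp M (extC ι (σ * τ)) = cycExp M ((extC ι σ).comp (extC ι τ)) from
    Units.ext (zeta_pow_inj (by
      rw [← cycExp_spec, ← cycExp_spec, RingHom.comp_apply, extC_mul σ τ hz])),
    ← (hf'.trans hf'').eq γ]
  exact HahnSeries.ext (funext fun k => by
    rw [coeffMap_coeff, coeffMap_coeff, RingHom.comp_apply,
      extC_mul σ τ ((hfa.expansion γ).coeff_mem k)])

/-- The action of `Γℚ` on characters. -/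
def galAct : Γℚ →* AddMonoid.End (Chr M ℓ) where
  toFun σ := AddMonoidHom.mk' (galChr h ι σ) (galChr_add h ι σ)
  map_one' := AddMonoidHom.ext (galChr_one h ι)
  map_mul' σ τ := AddMonoidHom.ext (galChr_mul h ι σ τ)

theorem galAct_spec (σ : Γℚ) (φ : Chr M ℓ) {f f' : ℍ → ℂ} (hf : RootOf ℓ φ.1 f)
    (hc : Conj M (extC ι σ) f f') : RootOf ℓ (galAct h ι σ φ).1 f' := galChr_spec h ι σ φ hf hc

theorem galAct_eq {σ : Γℚ} {φ ψ : Chr M ℓ} {f f' : ℍ → ℂ} (hf : RootOf ℓ φ.1 f)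
    (hc : Conj M (extC ι σ) f f') (hf' : RootOf ℓ ψ.1 f') : galAct h ι σ φ = ψ :=
  galChr_eq h ι hf hc hf'

/-- The action factors through a finite level. -/
theorem galAct_finite : ∃ L : IntermediateField ℚ ℚ̄, FiniteDimensional ℚ L ∧
    ∀ σ : Γℚ, (∀ x ∈ L, σ x = x) → galAct (ℓ := ℓ) h ι σ = 1 := by
  classical
  haveI : Finite (Chr M ℓ) := chr_finite
  choose f hf hfa using fun φ : Chr M ℓ => exists_root_algC h φ.2
  choose F hF hfix using fun φ : Chr M ℓ => exists_finset_fix h (hfa φ)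
  let Z : Set ℚ̄ := ι ⁻¹' (insert (zeta M) (⋃ φ : Chr M ℓ, (F φ : Set ℂ)))
  have hZ : Z.Finite := Set.Finite.preimage ι.injective.injOn
    ((Set.finite_iUnion fun φ => (F φ).finite_toSet).insert _)
  haveI := hZ.to_subtype
  haveI : Algebra.IsAlgebraic ℚ ℚ̄ := AlgebraicClosure.isAlgebraic ℚ
  refine ⟨IntermediateField.adjoin ℚ Z, IntermediateField.finiteDimensional_adjoin
    fun x _ => Algebra.IsIntegral.isIntegral x, fun σ hσ => ?_⟩
  have hfixC : ∀ x ∈ algC, x ∈ insert (zeta M) (⋃ φ : Chr M ℓ, (F φ : Set ℂ)) →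
      extC ι σ x = x := fun x hx hxZ => by
    obtain ⟨a, rfl⟩ := exists_eq_of_mem_algC ι hx
    rw [extC_apply, hσ a (IntermediateField.subset_adjoin ℚ Z hxZ)]
  refine AddMonoidHom.ext fun φ => galAct_eq h ι (hf φ) (hfix φ _ ?_ fun x hx => ?_) (hf φ)
  · exact hfixC _ (zr_le_algC M zeta_mem_zr) (Set.mem_insert _ _)
  · exact hfixC x (hF φ x hx) (Set.mem_insert_of_mem _ (Set.mem_iUnion.mpr ⟨φ, hx⟩))

end FLTAgent.Gamma1.Lv
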