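import Fermat.Agent.Gamma1.Lv.Red

/-!
# Normality of the ring of reductions

`normal`: a family of series `X`, whose product with the reduction of a base function `β` is a
reduction and which satisfies `X^(d+2) = r X + r'` with reduced coefficients, is itself the
reduction of a function of level `M`. The polynomial in `t` representing `β` splits modulo the
place and `normal_step` removes one linear factor at a time.
-/

set_option autoImplicit false
set_option linter.unusedSectionVars false

noncomputable section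

open UpperHalfPlane CongruenceSubgroup ModularCurve Polynomial
open scoped MatrixGroups

namespace FLTAgent.Gamma1.Lv

variable {n M : ℕ} [NeZero M] (P : Plc M) (h : IsLevel n M)

/-- The polynomial relation modulo the place deduced from an equality of reductions. -/
theorem map_eq_of_redSer_one {Q Q' : P.S[X]}
    (e : P.redSer 1 (inclB (evalT h P.zr_le Q)) = P.redSer 1 (inclB (evalT h P.zr_le Q'))) :
    Q.map (Ideal.Quotient.mk P.mI) = Q'.map (Ideal.Quotient.mk P.mI) := by
  have h0 : P.redSer 1 (inclB (evalT h P.zr_le (Q - Q'))) = 0 := by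
    rw [map_sub, map_sub, map_sub, e, sub_self]
  ext i
  rw [coeff_map, coeff_map, Ideal.Quotient.eq, ← coeff_sub]
  exact coeff_mem_of_redSer_one P h h0 i

/-- A polynomial vanishing at `a` modulo the place is divisible by `t - a`. -/
theorem redAll_eq_of_eval {a : P.S} {x : ringB n M P.S} {e : ℕ} {Q : P.S[X]}
    (hQ : cuspH h P.zr_le ^ e * x = evalT h P.zr_le Q) (ha : Q.eval a ∈ P.mI) :
    ∃ s : ringB n M P.S, P.redAll M (inclB x) =
      P.redAll M (inclB (subT h P.zr_le a)) * P.redAll M (inclB s) := by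
  obtain ⟨Q', hQ'⟩ := X_sub_C_dvd_sub_C_eval (p := Q) (a := a)
  refine ⟨cuspHInv h P.zr_le ^ e * evalT h P.zr_le Q', ?_⟩
  have hc : P.redAll M (inclB (evalT h P.zr_le (C (Q.eval a)))) = 0 :=
    (redAll_eq_zero_iff P).2 fun γ => redSer_evalT_eq_zero P h γ fun i => by
      rw [coeff_C]
      split_ifs
      exacts [ha, P.mI.zero_mem]
  rw [sub_eq_iff_eq_add] at hQ'
  rw [eq_inv_mul_of_cuspH h P.zr_le hQ, hQ', map_add, map_mul (evalT h P.zr_le)]
  simp only [map_mul, map_add, map_pow, hc, add_zero]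
  rw [subT]
  ring

/-- One linear factor. -/
theorem normal_step (a : P.S) {X : SL(2, ℤ) → LaurentSeries (P.S ⧸ P.mI)}
    (hX : X * P.redAll M (inclB (subT h P.zr_le a)) ∈ (P.redAll M).range)
    {d : ℕ} {r r' : ringR M P.S} (heq : X ^ (d + 2) = P.redAll M r * X + P.redAll M r') :
    X ∈ (P.redAll M).range := by
  classical
  set ρ := P.redAll M with hρ
  set τ := inclB (subT h P.zr_le a) with hτ
  by_cases hU : ∃ u, ρ τ * ρ u = 1
  · obtain ⟨u, hu⟩ := hU
    rw [← mul_one X, ← hu, ← mul_assoc]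
    exact mul_mem hX ⟨u, rfl⟩
  -- `t - a` is not a unit
  have hH : (cuspPoly h P.zr_le).eval a ∉ P.mI := by
    intro hm
    rw [cuspPoly, eval_prod] at hm
    obtain ⟨c, -, hc⟩ := ((plc_mI_isMaximal P).isPrime).prod_mem_iff.1 hm
    rw [eval_sub, eval_X, eval_C] at hc
    set v : P.S := ⟨c.1, cusp_mem h P.zr_le (mem_cuspSet.mp c.2)⟩
    refine hU ⟨inclB (invSub h P.zr_le (mem_cuspSet.mp c.2)), ?_⟩
    have e : ρ τ = ρ (inclB (subT h P.zr_le v)) := funext fun γ => by
      refine redSer_evalT_congr P h γ ?_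
      rw [Polynomial.map_sub, Polynomial.map_sub, map_X, map_C, map_C, (Ideal.Quotient.eq).2 hc]
    rw [e, ← map_mul, ← map_mul, subT_eq]
    show ρ (inclB ((tB h P.zr_le - constB n M P.S v) * invSub h P.zr_le _)) = 1
    rw [sub_mul_invSub, map_one, map_one]
  choose e1 P1 hP1 using fun i => exists_cuspH_pow_mul_eq h P.zr_le (coord h P.zr_le i 1)
  obtain ⟨j, hj⟩ : ∃ j, (P1 j).eval a ∉ P.mI := by
    by_contra hall
    push Not at hall
    choose s hs using fun i => redAll_eq_of_eval P h (hP1 i) (hall i)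
    refine hU ⟨∑ i, inclB (s i) * fMR h P.zr_le i, ?_⟩
    conv_rhs => rw [← map_one ρ, ← sum_coord_mul' h P.zr_le (1 : ringR M P.S)]
    rw [map_sum, map_sum, Finset.mul_sum]
    refine Finset.sum_congr rfl fun i _ => ?_
    rw [map_mul, map_mul, hs i, mul_assoc]
  obtain ⟨x, hx⟩ := hX
  let J : Ideal (ringR M P.S) := Ideal.span {τ} ⊔ RingHom.ker ρ
  have hJ : ∀ z, z ∈ J ↔ ∃ s, ρ z = ρ τ * ρ s := by
    intro z
    constructor
    · intro hz
      obtain ⟨y, hy, k, hk, rfl⟩ := Submodule.mem_sup.1 hz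
      obtain ⟨s, rfl⟩ := Ideal.mem_span_singleton.1 hy
      exact ⟨s, by rw [map_add, RingHom.mem_ker.1 hk, add_zero, map_mul]⟩
    · rintro ⟨s, hs⟩
      refine Submodule.mem_sup.2 ⟨τ * s, Ideal.mem_span_singleton.2 (dvd_mul_right _ _), z - τ * s,
        RingHom.mem_ker.2 ?_, add_sub_cancel _ _⟩
      rw [map_sub, map_mul, hs, sub_self]
  have hkey : ∀ i, inclB (coord h P.zr_le i x) ∈ J.radical := by
    intro i
    rw [inclB_coord]
    refine Ideal.sum_mem _ fun g _ => ⟨d + 2, ?_⟩
    set e : ringR M P.S := ⟨_, fE_mem h P.zr_le i⟩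
    set c := sheetLift g
    rw [← map_pow]
    obtain ⟨s, hs⟩ : ∃ s, ρ ((x * e) ^ (d + 2)) = ρ τ * ρ s := by
      refine ⟨(r * x * τ ^ d + r' * τ ^ (d + 1)) * e ^ (d + 2), ?_⟩
      simp only [map_pow, map_mul, map_add]
      rw [mul_pow, hx, mul_pow, heq]
      ring
    refine (hJ _).2 ⟨compR M P.S c s, funext fun γ => ?_⟩
    have h1 := congrFun hs (c * γ)
    simp only [Pi.mul_apply, hρ, redAll_apply] at h1 ⊢
    have hfix : compR M P.S c τ = τ := act_memB g (subT h P.zr_le a)
    have h2 : P.redSer γ τ = P.redSer (c * γ) τ := by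
      conv_lhs => rw [← hfix]
      rw [redSer_compR]
    rw [redSer_compR, redSer_compR, h1, h2]
  have hdiv : ∀ i, ∃ s : ringB n M P.S,
      ρ (inclB (coord h P.zr_le i x)) = ρ τ * ρ (inclB s) := by
    intro i
    obtain ⟨N, hN⟩ := hkey i
    set b := coord h P.zr_le i x
    obtain ⟨e, Q, hQ⟩ := exists_cuspH_pow_mul_eq h P.zr_le b
    refine redAll_eq_of_eval P h hQ ?_
    obtain ⟨s, hs⟩ := (hJ _).1 hN
    have hco : P.redSer 1 (inclB (b ^ N * coord h P.zr_le j 1)) =
        P.redSer 1 τ * P.redSer 1 (inclB (coord h P.zr_le j s)) := by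
      have hz : ρ (inclB b ^ N - τ * s) = 0 := by rw [map_sub, map_mul, hs, sub_self]
      have hz' := (redAll_eq_zero_iff P).1 (redAll_coord P h j hz) 1
      have hsplit : inclB b ^ N * 1 = τ * s + (inclB b ^ N - τ * s) := by ring
      have := congrArg (fun z => P.redSer 1 (inclB (coord h P.zr_le j z))) hsplit
      rw [← map_pow inclB b N] at this hz'
      simp only [coord_add, coord_mul, map_add, hz', add_zero] at this
      rw [this, hτ, coord_mul, map_mul, map_mul]
    obtain ⟨es, Ps, hPs⟩ := exists_cuspH_pow_mul_eq h P.zr_le (coord h P.zr_le j s)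
    have hmap : (Q ^ N * P1 j * cuspPoly h P.zr_le ^ es).map (Ideal.Quotient.mk P.mI) =
        ((Polynomial.X - C a) * Ps * cuspPoly h P.zr_le ^ (e * N + e1 j)).map
          (Ideal.Quotient.mk P.mI) := by
      refine map_eq_of_redSer_one P h ?_
      simp only [map_mul, map_pow, evalT_cuspPoly, ← hQ, ← hP1 j, ← hPs]
      rw [show evalT h P.zr_le (Polynomial.X - C a) = subT h P.zr_le a from rfl, ← hτ]
      have h1 := hco
      simp only [map_mul, map_pow] at h1
      linear_combination
        (P.redSer 1 (inclB (cuspH h P.zr_le))) ^ (e * N + e1 j + es) * h1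
    have hev := congrArg (fun q => q.eval (Ideal.Quotient.mk P.mI a)) hmap
    simp only [Polynomial.map_mul, Polynomial.map_pow, Polynomial.map_sub, map_X, map_C, eval_mul,
      eval_pow, eval_sub, eval_X, eval_C, sub_self, zero_mul] at hev
    rw [← Ideal.Quotient.eq_zero_iff_mem]
    have hev' : ∀ q : P.S[X], (q.map (Ideal.Quotient.mk P.mI)).eval (Ideal.Quotient.mk P.mI a) =
        Ideal.Quotient.mk P.mI (q.eval a) := fun q => by rw [eval_map, eval₂_at_apply]
    rw [hev', hev', hev'] at hev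
    rcases mul_eq_zero.1 hev with h1 | h1
    · rcases mul_eq_zero.1 h1 with h2 | h2
      · exact eq_zero_of_pow_eq_zero h2
      · exact absurd (Ideal.Quotient.eq_zero_iff_mem.1 h2) hj
    · exact absurd (Ideal.Quotient.eq_zero_iff_mem.1 (eq_zero_of_pow_eq_zero h1)) hH
  choose s hs using hdiv
  refine ⟨∑ i, inclB (s i) * fMR h P.zr_le i, ?_⟩
  have h1 : ρ x = ρ τ * ρ (∑ i, inclB (s i) * fMR h P.zr_le i) := by
    conv_lhs => rw [← sum_coord_mul' h P.zr_le x]
    rw [map_sum, map_sum, Finset.mul_sum]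
    exact Finset.sum_congr rfl fun i _ => by rw [map_mul, map_mul, hs i, mul_assoc]
  rw [hx, mul_comm] at h1
  refine funext fun γ => ?_
  exact (mul_left_cancel₀ (redSer_subT_ne_zero P h γ a) (congrFun h1 γ)).symm

include h in
/-- Normality. -/
theorem normal {X : SL(2, ℤ) → LaurentSeries (P.S ⧸ P.mI)} {β : ringB n M P.S}
    (hβ : P.redSer 1 (inclB β) ≠ 0) (hX : X * P.redAll M (inclB β) ∈ (P.redAll M).range)
    {d : ℕ} {r r' : ringR M P.S} (heq : X ^ (d + 2) = P.redAll M r * X + P.redAll M r') :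
    X ∈ (P.redAll M).range := by
  obtain ⟨e, Q, hQ⟩ := exists_cuspH_pow_mul_eq h P.zr_le β
  have hQne : ∃ i, Q.coeff i ∉ P.mI := by
    by_contra hall
    push Not at hall
    have h0 := redSer_evalT_eq_zero P h 1 hall
    rw [← hQ, map_mul, map_mul] at h0
    rcases mul_eq_zero.1 h0 with h1 | h1
    · rw [map_pow, map_pow] at h1
      exact redSer_cuspH_ne_zero P h 1 (eq_zero_of_pow_eq_zero h1)
    · exact hβ h1
  obtain ⟨c, as, hc, hfac⟩ := exists_factor P hQne
  obtain ⟨u, hu⟩ := P.isUnit_iff.2 hc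
  set pr : Multiset P.S → ringR M P.S := fun m =>
    inclB (evalT h P.zr_le (m.map fun a => Polynomial.X - C a).prod) with hpr
  have h2 : P.redAll M (inclB (evalT h P.zr_le Q)) = P.redAll M (constR M P.S c * pr as) := by
    refine funext fun γ => ?_
    rw [redAll_apply, redAll_apply, redSer_evalT_congr P h γ hfac, map_mul (evalT h P.zr_le),
      evalT_C, map_mul inclB, inclB_constB]
  have h3 : X * P.redAll M (pr as) ∈ (P.redAll M).range := by
    have : X * P.redAll M (pr as) = P.redAll M (constR M P.S (↑u⁻¹ : P.S)) *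
        P.redAll M (inclB (cuspH h P.zr_le ^ e)) * (X * P.redAll M (inclB β)) := by
      rw [mul_left_comm, mul_assoc, ← map_mul, ← map_mul inclB, hQ, h2, ← map_mul, ← mul_assoc,
        ← map_mul, ← hu, Units.inv_mul, map_one, one_mul]
    rw [this]
    exact mul_mem (mul_mem ⟨_, rfl⟩ ⟨_, rfl⟩) hX
  clear h2 hfac
  induction as using Multiset.induction_on with
  | empty => simpa [pr] using h3
  | cons a as ih =>
    refine ih (normal_step P h a (X := X * P.redAll M (pr as)) (d := d)
      (r := r * pr as ^ (d + 1)) (r' := r' * pr as ^ (d + 2)) ?_ ?_)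
    · convert h3 using 1
      rw [mul_assoc, ← map_mul]
      congr 2
      simp only [pr, Multiset.map_cons, Multiset.prod_cons, map_mul]
      rw [mul_comm]
      rfl
    · rw [mul_pow, heq, map_mul, map_mul, map_pow, map_pow]
      ring

end FLTAgent.Gamma1.Lv
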