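import Fermat.Agent.Gamma1.Lv.Approx

/-!
# The expansion principle modulo the place

`redSer_eq_zero'`: a function whose reduced expansion at `∞` vanishes has vanishing reduced
expansion at every cusp, i.e. the reduced curve is connected. Otherwise normality yields an
idempotent among the reductions; lifted modulo all powers of a small constant it contradicts,
by `approx_false`, the fact that functions without poles are constant.
-/

set_option autoImplicit false
set_option linter.unusedSectionVars false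

noncomputable section

open UpperHalfPlane CongruenceSubgroup ModularCurve Polynomial
open scoped MatrixGroups

namespace FLTAgent.Gamma1.Lv

open FLTAgent.Modular

variable {n M : ℕ} [NeZero M] (P : Plc M)

/-- A root which is constant modulo the place is constant modulo `c`. -/
theorem series_const_mod {c : P.S} (hc : c ≠ 0) (f : P.S[X]) {e : P.S} (he : f.eval e = 0)
    (hd : IsUnit (f.derivative.eval e)) (y : LaurentSeries P.S)
    (hy : P.red y = HahnSeries.C (Ideal.Quotient.mk P.mI e))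
    (hroot : coeffMap (Ideal.Quotient.mk (Ideal.span {c}))
      ((f.map HahnSeries.C).eval y) = 0) (k : ℤ) :
    P.Dv c ((((y - HahnSeries.C e : LaurentSeries P.S).coeff k : P.S) : ℂ)) := by
  set q := Ideal.Quotient.mk (Ideal.span {c})
  have hsmall : ∀ k, (y - HahnSeries.C e : LaurentSeries P.S).coeff k ∈ P.mI := fun k => by
    rw [← Ideal.Quotient.eq_zero_iff_mem, ← coeffMap_coeff (Ideal.Quotient.mk P.mI)]
    rw [map_sub, coeffMap_C, show coeffMap (Ideal.Quotient.mk P.mI) y = P.red y from rfl, hy,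
      sub_self, HahnSeries.coeff_zero]
  have hv : coeffMap q y = HahnSeries.C (q e) := by
    refine eq_C_of_root (f.map q) ?_ ?_ ?_ fun k => ?_
    · rw [eval_map, eval₂_at_apply, he, map_zero]
    · rw [derivative_map, eval_map, eval₂_at_apply]
      exact hd.map q
    · rw [← hroot, eval_map, eval₂_map, eval_map, hom_eval₂]
      congr 1
      exact RingHom.ext fun r => (coeffMap_C q r).symm
    · rw [← coeffMap_C, ← map_sub, coeffMap_coeff]
      obtain ⟨N, hN⟩ := P.exists_dvd_pow (hsmall k) hc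
      exact ⟨N, by
        rw [← map_pow, Ideal.Quotient.eq_zero_iff_mem, Ideal.mem_span_singleton]; exact hN⟩
  have h1 : (coeffMap q (y - HahnSeries.C e)).coeff k = 0 := by
    rw [map_sub, coeffMap_C, hv, sub_self, HahnSeries.coeff_zero]
  rw [coeffMap_coeff, Ideal.Quotient.eq_zero_iff_mem, Ideal.mem_span_singleton] at h1
  obtain ⟨s, hs⟩ := h1
  exact ⟨s, congrArg Subtype.val hs⟩

theorem dv_of_redI_eq_zero {c : P.S} {γ : SL(2, ℤ)} {x : ringR M P.S} (k : ℤ)
    (h : P.redI c γ x = 0) : P.Dv c ((qser M (comp (x : ℍ → ℂ) γ)).coeff k) :=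
  (redI_coeff_eq_zero_iff P c γ x k).1 (by rw [h]; rfl)

theorem redI_eq_zero_of_dvd {c : P.S} (γ : SL(2, ℤ)) {x : ringR M P.S}
    (h : constR M P.S c ∣ x) : P.redI c γ x = 0 := by
  obtain ⟨y, rfl⟩ := h
  rw [map_mul, Plc.redI, RingHom.comp_apply, serS_constR, coeffMap_C,
    Ideal.Quotient.eq_zero_iff_mem.2 (Ideal.mem_span_singleton_self c), map_zero, zero_mul]

/-- Idempotents modulo powers of a constant. -/
theorem exists_idem_approx {π : P.S} {x : ringR M P.S}
    (hx : constR M P.S π ∣ x ^ 2 - x) (N : ℕ) :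
    ∃ y, constR M P.S π ^ (N + 1) ∣ y ^ 2 - y ∧ constR M P.S π ∣ y - x := by
  induction N with
  | zero => exact ⟨x, by rwa [pow_one], by rw [sub_self]; exact dvd_zero _⟩
  | succ N ih =>
    obtain ⟨y, h1, h2⟩ := ih
    refine ⟨3 * y ^ 2 - 2 * y ^ 3, ?_, ?_⟩
    · rw [show (3 * y ^ 2 - 2 * y ^ 3) ^ 2 - (3 * y ^ 2 - 2 * y ^ 3) =
        (y ^ 2 - y) ^ 2 * (4 * (y ^ 2 - y) - 3) by ring]
      refine Dvd.dvd.mul_right ?_ _
      refine (pow_dvd_pow _ (show N + 1 + 1 ≤ (N + 1) * 2 by omega)).trans ?_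
      rw [pow_mul]
      exact pow_dvd_pow_of_dvd h1 2
    · rw [show 3 * y ^ 2 - 2 * y ^ 3 - x = (y ^ 2 - y) * (1 - 2 * y) + (y - x) by ring]
      exact dvd_add (((dvd_pow_self _ N.succ_ne_zero).trans h1).mul_right _) h2

theorem redSer_eq_redSer_cuspRep (γ : SL(2, ℤ)) :
    ∃ g, P.redSer γ = P.redSer (cuspReps M g) := by
  obtain ⟨g, hg⟩ := exists_cuspRep (M := M) γ
  exact ⟨g, RingHom.ext fun x => redSer_congr P x (hg _ _ x.2).symm⟩

/-- Inclusions between the kernels of the reductions are equalities. -/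
theorem ker_redSer_eq_of_le {γ δ : SL(2, ℤ)}
    (h : RingHom.ker (P.redSer γ) ≤ RingHom.ker (P.redSer δ)) :
    RingHom.ker (P.redSer γ) = RingHom.ker (P.redSer δ) := by
  set K : SL(2, ℤ) → Ideal (ringR M P.S) := fun γ => RingHom.ker (P.redSer γ)
  set c := δ * γ⁻¹ with hc
  have hδ : c * γ = δ := by rw [hc, inv_mul_cancel_right]
  have hK : ∀ c ε, K (c * ε) = (K ε).comap (compR M P.S c) := fun c ε => by
    ext x
    show P.redSer (c * ε) x = 0 ↔ P.redSer ε (compR M P.S c x) = 0
    rw [redSer_compR]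
  have hchain : ∀ k, K (c * γ) ≤ K (c ^ (k + 1) * γ) := by
    intro k
    induction k with
    | zero => rw [pow_one]
    | succ k ih =>
      refine ih.trans ?_
      rw [pow_succ c (k + 1), mul_assoc, hK _ (c * γ), hK _ γ]
      refine Ideal.comap_mono ?_
      rw [hδ]
      exact h
  obtain ⟨m, hm, hcm⟩ : ∃ m, 0 < m ∧ redM M (c ^ m) = 1 :=
    ⟨orderOf (redM M c), orderOf_pos _, by rw [map_pow, pow_orderOf_eq_one]⟩
  refine le_antisymm h ?_
  intro x hx
  have h1 : x ∈ K (c ^ (m - 1 + 1) * γ) := hchain (m - 1) (hδ.symm ▸ hx)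
  rw [Nat.sub_add_cancel hm] at h1
  have h2 : P.redSer (c ^ m * γ) x = 0 := h1
  rwa [redSer_congr P x (δ := γ) (MemR.comp_eq_of_redM_eq x.2
    (by rw [map_mul, hcm, one_mul]))] at h2

theorem isCFun_zero_memR {f : ℍ → ℂ} (hf : IsCFun M 0 f) : MemR M ⊤ f :=
  ⟨hf.hol, fun γ hγ => funext fun z => (hf.smul ⟨γ, hγ⟩ z).trans (one_mul _), hf.expansion⟩

theorem memR_isCFun_zero {S : Subring ℂ} {f : ℍ → ℂ} (hf : MemR M S f) : IsCFun M 0 f :=
  ⟨hf.hol, fun γ z => (congrFun (hf.inv γ γ.2) z).trans (one_mul _).symm,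
    fun γ => (hf.expansion γ).mono le_top⟩

/-- The expansion principle modulo the place. -/
theorem redSer_eq_zero' (h : IsLevel n M) {x : ringR M P.S} (h0 : P.redSer 1 x = 0)
    (γ₀ : SL(2, ℤ)) : P.redSer γ₀ x = 0 := by
  classical
  by_contra hx
  set K : SL(2, ℤ) → Ideal (ringR M P.S) := fun γ => RingHom.ker (P.redSer γ) with hK
  have hne : K γ₀ ≠ K 1 := fun e => hx (by
    have h1 : x ∈ K γ₀ := e ▸ h0
    exact h1)
  have hprime : ∀ γ, (K γ).IsPrime := fun γ => RingHom.ker_isPrime _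
  set s : Finset (SL(2, ZMod M)) := Finset.univ.filter fun g => K (cuspReps M g) ≠ K 1 with hs
  have hoff : ∀ γ, K γ ≠ K 1 → ∃ g ∈ s, K γ = K (cuspReps M g) := fun γ hγ => by
    obtain ⟨g, hg⟩ := redSer_eq_redSer_cuspRep P γ
    have e : K γ = K (cuspReps M g) := congrArg RingHom.ker hg
    exact ⟨g, by simp [hs, ← e, hγ], e⟩
  have hsep : ∀ g ∈ s, ∃ y, y ∈ K (cuspReps M g) ∧ y ∉ K 1 := by
    intro g hg
    by_contra hall
    push Not at hall
    exact (Finset.mem_filter.1 hg).2 (ker_redSer_eq_of_le P hall)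
  choose! sep hsep1 hsep2 using hsep
  set b := ∏ g ∈ s, sep g with hb
  have hb1 : b ∉ K 1 := fun hm => by
    obtain ⟨g, hg, hg'⟩ := ((hprime 1).prod_mem_iff).1 hm
    exact hsep2 g hg hg'
  have hb0 : ∀ γ, K γ ≠ K 1 → b ∈ K γ := fun γ hγ => by
    obtain ⟨g, hg, e⟩ := hoff γ hγ
    rw [e]
    exact Ideal.mem_of_dvd _ (Finset.dvd_prod_of_mem _ hg) (hsep1 g hg)
  obtain ⟨r, hr1, hr⟩ : ∃ r ∈ K 1, ∀ g ∈ s, r ∉ K (cuspReps M g) := by
    by_contra hall
    push Not at hall
    have hsub : ((K 1 : Ideal _) : Set (ringR M P.S)) ⊆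
        ⋃ g ∈ (↑s : Set (SL(2, ZMod M))), (K (cuspReps M g) : Set (ringR M P.S)) := fun r hr => by
      obtain ⟨g, hg, hrg⟩ := hall r hr
      exact Set.mem_iUnion₂.2 ⟨g, hg, hrg⟩
    obtain ⟨g, hg, hle⟩ := (Ideal.subset_union_prime 1 1 fun g _ _ _ => hprime _).1 hsub
    exact (Finset.mem_filter.1 hg).2 (ker_redSer_eq_of_le P hle).symm
  have hnz : ∀ γ, P.redSer γ (b + r) ≠ 0 := fun γ hz => by
    by_cases hγ : K γ = K 1
    · have hr' : r ∈ K γ := hγ ▸ hr1
      have : b + r ∈ K γ := hz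
      exact hb1 (hγ ▸ (Ideal.add_mem_iff_left _ hr').1 this)
    · obtain ⟨g, hg, e⟩ := hoff γ hγ
      have : b + r ∈ K γ := hz
      exact hr g hg (e ▸ (Ideal.add_mem_iff_right _ (hb0 γ hγ)).1 this)
  set X : SL(2, ℤ) → LaurentSeries (P.S ⧸ P.mI) := fun γ => if K γ = K 1 then 1 else 0 with hX
  have hXs : X * P.redAll M (b + r) = P.redAll M b := funext fun γ => by
    simp only [hX, Pi.mul_apply, map_add, Pi.add_apply, redAll_apply]
    split_ifs with hγ
    · rw [one_mul, show P.redSer γ r = 0 from (hγ ▸ hr1 : r ∈ K γ), add_zero]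
    · rw [zero_mul, show P.redSer γ b = 0 from hb0 γ hγ]
  -- the norm of `b + r`
  set Nf : ringR M P.S := ∏ g : sheetGrp n M, compR M P.S (sheetLift g) (b + r) with hNf
  have hNmem : MemB n M P.S (Nf : ℍ → ℂ) := by
    refine ⟨Nf.2, fun γ hγ => ?_⟩
    let g₀ : sheetGrp n M := ⟨redM M γ, γ, hγ, rfl⟩
    rw [hNf, SubmonoidClass.coe_finsetProd, ← compHom_apply, map_prod]
    refine Fintype.prod_equiv (Equiv.mulRight g₀) _ _ fun g => ?_
    rw [compHom_apply, coe_compR, comp_comp, Equiv.coe_mulRight, coe_compR]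
    refine (act_eq_comp (b + r).2 (γ := sheetLift g * γ) ?_).symm
    rw [map_mul, redM_sheetLift, Subgroup.coe_mul]
  set β : ringB n M P.S := ⟨(Nf : ℍ → ℂ), hNmem⟩ with hβ
  have hβ1 : P.redSer 1 (inclB β) ≠ 0 := by
    show P.redSer 1 Nf ≠ 0
    rw [hNf, map_prod, Finset.prod_ne_zero_iff]
    exact fun g _ => by rw [redSer_compR]; exact hnz _
  have hfix : compR M P.S (sheetLift (1 : sheetGrp n M)) (b + r) = b + r :=
    Subtype.ext (act_one (b + r).2)
  obtain ⟨x₀, hx₀⟩ := normal P h (X := X) (β := β) hβ1 ⟨b * ∏ g ∈ Finset.univ.erase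
      (1 : sheetGrp n M), compR M P.S (sheetLift g) (b + r), by
    rw [map_mul, ← hXs, show inclB β = Nf from rfl, hNf,
      ← Finset.mul_prod_erase _ _ (Finset.mem_univ (1 : sheetGrp n M)), hfix, map_mul, mul_assoc]⟩
    (d := 0) (r := 1) (r' := 0) (funext fun γ => by
      simp only [hX, map_one, map_zero, one_mul, add_zero, Pi.pow_apply]
      split_ifs <;> simp)
  obtain ⟨π, hπ0, hπ, hdvd⟩ := exists_small_dvd P h (x := x₀ ^ 2 - x₀) (by
    rw [map_sub, map_pow, hx₀, sub_eq_zero]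
    funext γ
    simp only [hX, Pi.pow_apply]
    split_ifs <;> simp)
  choose y hy1 hy2 using exists_idem_approx P hdvd
  have hconst : ∀ (N : ℕ) γ (k : ℤ), P.Dv (π ^ N) ((qser M (comp (y N : ℍ → ℂ) γ)).coeff k -
      (HahnSeries.C (if K γ = K 1 then (1 : ℂ) else 0) : LaurentSeries ℂ).coeff k) := by
    intro N γ k
    have hred : P.red (serS M P.S γ (y N)) = HahnSeries.C (Ideal.Quotient.mk P.mI
        (if K γ = K 1 then (1 : P.S) else 0)) := by
      have h1 : P.redSer γ (y N) = P.redSer γ x₀ := by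
        obtain ⟨z, hz⟩ := hy2 N
        rw [← sub_eq_zero, ← map_sub, hz, map_mul, redSer_constR_of_mem P γ hπ, zero_mul]
      show P.redSer γ (y N) = _
      rw [h1, ← redAll_apply, hx₀]
      simp only [hX]
      split_ifs <;> simp
    have hroot : coeffMap (Ideal.Quotient.mk (Ideal.span {π ^ N}))
        (((Polynomial.X ^ 2 - Polynomial.X : P.S[X]).map HahnSeries.C).eval (serS M P.S γ (y N))) =
          0 := by
      rw [Polynomial.map_sub, Polynomial.map_pow, map_X, eval_sub, eval_pow, eval_X, ← map_pow,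
        ← map_sub]
      refine redI_eq_zero_of_dvd P γ ?_
      rw [map_pow]
      exact (pow_dvd_pow _ N.le_succ).trans (hy1 N)
    have h2 := series_const_mod P (pow_ne_zero N hπ0) (Polynomial.X ^ 2 - Polynomial.X)
      (e := if K γ = K 1 then (1 : P.S) else 0) (by split_ifs <;> simp)
      (by split_ifs <;> norm_num [derivative_X_pow]) _ hred hroot k
    convert h2 using 1
    rw [HahnSeries.coeff_sub, AddSubgroupClass.coe_sub, coe_serS_coeff, serHom_apply]
    congr 1
    rw [HahnSeries.C_apply, HahnSeries.C_apply, HahnSeries.coeff_single, HahnSeries.coeff_single]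
    split_ifs <;> simp
  have : NeZero (1 : ℕ) := ⟨one_ne_zero⟩
  refine approx_false P h (ℓ := 1) (φ := 0) (ι := Unit) (fun _ => 1)
    (fun _ => memR_isCFun_zero (S := P.S) (f := 1) (ringR M P.S).one_mem)
    (fun _ γ => (show MemR M P.S 1 from (ringR M P.S).one_mem).expansion γ)
    π hπ0 hπ (fun N _ => y N) 0 ?_ ?_ 1 γ₀ 1 (-1) ?_ ?_
  · intro N _ γ k hk
    have := hconst N γ k
    rwa [HahnSeries.C_apply, HahnSeries.coeff_single_of_ne hk.ne, sub_zero] at this
  · intro N γ k hk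
    have := hconst N γ k
    rw [HahnSeries.C_apply, HahnSeries.coeff_single_of_ne hk.ne, sub_zero] at this
    simpa using this
  · intro f hf hp
    obtain ⟨c, rfl⟩ := eq_const_of_noPole h.three_le (isCFun_zero_memR hf) hp
    rw [show comp (fun _ : ℍ => c) 1 = fun _ => c from rfl,
      show comp (fun _ : ℍ => c) γ₀ = fun _ => c from rfl]
    push_cast
    ring
  · intro N
    have h1 := hconst N 1 0
    have h2 := hconst N γ₀ 0
    rw [HahnSeries.C_apply, HahnSeries.coeff_single_same, if_pos rfl] at h1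
    rw [HahnSeries.C_apply, HahnSeries.coeff_single_same, if_neg hne] at h2
    have h3 := Dv.sub h1 h2
    simp only [Finset.univ_unique, Finset.sum_singleton, one_mul, Subring.coe_one,
      Subring.coe_neg, neg_mul]
    convert h3 using 1
    ring

end FLTAgent.Gamma1.Lv
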