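import Fermat.Agent.Gamma1.Lv.Cols
import Fermat.Agent.Gamma1.Lv.GalPoint

/-!
# Local generators of the line bundle of a character over the reduced affine curve

`exists_pure`: if the Kummer function of `φ` has nonzero reduction then there are integral
multiplier functions `Y` of `φ` and `Z` of `-φ` with `∑ Y a * Z a = 1`. Start from a tuple with
determinant nonzero modulo the place (`exists_start`), remove the zeros of the determinant
away from the cusps one at a time (`exists_step`), and invert it (Cramer).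
-/

set_option autoImplicit false
set_option linter.unusedSectionVars false
set_option linter.style.haveILetI false

noncomputable section

open UpperHalfPlane CongruenceSubgroup ModularCurve
open scoped MatrixGroups Topology

namespace FLTAgent.Gamma1.Lv

open FLTAgent.Modular

variable {n M ℓ : ℕ} [NeZero M]

/-- Division by a function with simple zeros. -/
theorem exists_hol_div {f g : ℍ → ℂ} (hf : IsHol f) (hg : IsHol g)
    (hz : ∀ z : ℍ, g z = 0 → f z = 0 ∧ deriv (g ∘ ofComplex) (z : ℂ) ≠ 0) :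
    ∃ y : ℍ → ℂ, IsHol y ∧ g * y = f := by
  classical
  let y : ℍ → ℂ := fun z => if g z = 0 then
    deriv (f ∘ ofComplex) (z : ℂ) / deriv (g ∘ ofComplex) (z : ℂ) else f z / g z
  refine ⟨y, ?_, funext fun z => ?_⟩
  swap
  · show g z * y z = f z
    simp only [y]
    split_ifs with h0
    · rw [h0, zero_mul, (hz z h0).1]
    · exact mul_div_cancel₀ _ h0
  suffices h : ∀ z : ℍ, AnalyticAt ℂ (y ∘ ofComplex) (z : ℂ) from
    fun w hw => (h ⟨w, hw⟩).differentiableAt.differentiableWithinAt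
  intro z
  set F := f ∘ ofComplex with hF
  set G := g ∘ ofComplex with hG
  have hFa : AnalyticAt ℂ F (z : ℂ) := hf.analyticAt z
  have hGa : AnalyticAt ℂ G (z : ℂ) := hg.analyticAt z
  have hval : ∀ w : ℂ, (y ∘ ofComplex) w = if G w = 0 then
      deriv F (ofComplex w : ℂ) / deriv G (ofComplex w : ℂ) else F w / G w := fun w => rfl
  by_cases h0 : g z = 0
  · obtain ⟨hf0, hd⟩ := hz z h0
    have hF0 : F z = 0 := by simpa [hF] using hf0
    have hG0 : G z = 0 := by simpa [hG] using h0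
    obtain ⟨p, hp⟩ := hFa
    obtain ⟨q, hq⟩ := hGa
    have hdF : AnalyticAt ℂ (dslope F z) (z : ℂ) := ⟨_, hp.has_fpower_series_dslope_fslope⟩
    have hdG : AnalyticAt ℂ (dslope G z) (z : ℂ) := ⟨_, hq.has_fpower_series_dslope_fslope⟩
    have hdG0 : dslope G z (z : ℂ) ≠ 0 := by rwa [dslope_same]
    refine (hdF.div hdG hdG0).congr ?_
    filter_upwards [hdG.continuousAt.eventually_ne hdG0] with w hw
    rw [Pi.div_apply, hval]
    rcases eq_or_ne w (z : ℂ) with rfl | hne
    · rw [if_pos hG0, dslope_same, dslope_same, ofComplex_apply]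
    · have eF : F w = (w - z) * dslope F z w := by
        rw [← smul_eq_mul, sub_smul_dslope, hF0, sub_zero]
      have eG : G w = (w - z) * dslope G z w := by
        rw [← smul_eq_mul, sub_smul_dslope, hG0, sub_zero]
      have hGw : G w ≠ 0 := eG ▸ mul_ne_zero (sub_ne_zero.2 hne) hw
      rw [if_neg hGw, eF, eG, mul_div_mul_left _ _ (sub_ne_zero.2 hne)]
  · have hG0 : G z ≠ 0 := by simpa [hG] using h0
    refine (hFa.div hGa hG0).congr ?_
    filter_upwards [hGa.continuousAt.eventually_ne hG0] with w hw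
    rw [Pi.div_apply, hval, if_neg hw]

theorem hol_cancel {f g t : ℍ → ℂ} (hf : IsHol f) (hg : IsHol g) (ht : IsHol t) (ht0 : t ≠ 0)
    (h : f * t = g * t) : f = g := by
  have h1 : (f - g) * t = 0 := by rw [sub_mul, h, sub_self]
  exact sub_eq_zero.1 (((UpperHalfPlane.mul_eq_zero_iff
    (UpperHalfPlane.mdifferentiable_iff.mpr (show IsHol (f - g) from DifferentiableOn.sub hf hg))
    (UpperHalfPlane.mdifferentiable_iff.mpr ht)).mp h1).resolve_right ht0)

/-- Expansion of the determinant of a product. -/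
theorem det_mul_expand {ι κ R : Type*} [Fintype ι] [DecidableEq ι] [Fintype κ] [CommRing R]
    (A : Matrix ι κ R) (B : Matrix κ ι R) :
    (A * B).det = ∑ s : ι → κ, (∏ g, B (s g) g) * (A.submatrix id s).det := by
  classical
  rw [← Matrix.det_transpose (A * B)]
  have h1 : (A * B).transpose = fun g => ∑ i, B i g • fun a => A a i := by
    funext g a
    simp [Matrix.mul_apply, Finset.sum_apply, mul_comm]
  rw [h1]
  refine ((Matrix.detRowAlternating (R := R) (n := ι)).toMultilinearMap.map_sum _).trans ?_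
  refine Finset.sum_congr rfl fun s _ => ?_
  refine ((Matrix.detRowAlternating (R := R) (n := ι)).toMultilinearMap.map_smul_univ
    (fun g => B (s g) g) (fun g a => A a (s g))).trans ?_
  rw [smul_eq_mul]
  congr 1
  show Matrix.det (Matrix.of fun g a => A a (s g)) = _
  rw [← Matrix.det_transpose]
  rfl

variable (P : Plc M) (h : IsLevel n M)

include h in
theorem pm_one_of_isSign {g : sheetGrp n M} (hg : IsSign g) : g ∈ signSub n M := by
  by_contra hne
  obtain ⟨f, -, hf0, hf1⟩ := exists_kernel_sep h g hne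
  have := congrFun (hf0.symm.trans (hf1 g hg)) UpperHalfPlane.I
  exact zero_ne_one this

/-- The frame at two classes. -/
theorem frame_pair (g g' : Cl n M) :
    ∃ u : ringR M P.S, (g ≠ g' → u = 0) ∧ (g = g' → P.redSer 1 u ≠ 0) ∧
      ∑ i, compR M P.S (colLift g) ⟨_, fE_mem h P.zr_le i⟩ *
        compR M P.S (colLift g') (fMR h P.zr_le i) = u := by
  classical
  have hmem : colLift g * (colLift g')⁻¹ ∈ Gamma n :=
    (Gamma n).mul_mem (colLift_mem g) ((Gamma n).inv_mem (colLift_mem g'))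
  let e : FIdx h → ringR M P.S := fun i => ⟨_, fE_mem h P.zr_le i⟩
  let s : sheetGrp n M := sheetOf hmem
  refine ⟨compR M P.S (colLift g') (∑ i, compR M P.S (sheetLift s) (e i) * fMR h P.zr_le i),
    fun hne => ?_, fun heq => ?_, ?_⟩
  · have hs : ¬ IsSign s := fun hs => hne (by
      have h1 := pm_one_of_isSign h hs
      have h2 : (QuotientGroup.mk s : Cl n M) = 1 := (QuotientGroup.eq_one_iff s).2 h1
      have h3 : s = sheetOf (M := M) (colLift_mem g) * (sheetOf (M := M) (colLift_mem g'))⁻¹ :=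
        Subtype.ext (by simp [s, sheetOf])
      rw [h3, QuotientGroup.mk_mul, QuotientGroup.mk_inv, mk_sheetOf_colLift, mk_sheetOf_colLift,
        mul_inv_eq_one] at h2
      exact h2)
    refine (congrArg _ (Subtype.ext ?_ : (∑ i, compR M P.S (sheetLift s) (e i) * fMR h P.zr_le i)
      = 0)).trans (map_zero _)
    simpa [AddSubmonoidClass.coe_finsetSum, e, fMR, coe_compR, act] using frame_kernel h hs
  · subst heq
    have hs1 : s = 1 := Subtype.ext (by simp [s, sheetOf])
    rw [hs1]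
    set K : sheetGrp n M → ringR M P.S := fun x =>
      ∑ i, compR M P.S (sheetLift x) (e i) * fMR h P.zr_le i with hK
    have hsum : ∑ x, K x = 1 := by
      refine Subtype.ext ?_
      have h1 := frame_spec h (f := fun _ : ℍ => (1 : ℂ)) (T := P.S) (memR_const P.S.one_mem)
      rw [Subring.coe_one]
      refine Eq.trans ?_ h1
      simp only [hK, AddSubmonoidClass.coe_finsetSum]
      rw [Finset.sum_comm]
      refine Finset.sum_congr rfl fun i _ => ?_
      rw [Finset.sum_mul]
      refine Finset.sum_congr rfl fun x _ => ?_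
      rw [show (fun _ : ℍ => (1 : ℂ)) * (fE h i : ℍ → ℂ) = (fE h i : ℍ → ℂ) from one_mul _]
      rfl
    have hsplit : ∑ x ∈ Finset.univ.filter (fun x => x ∈ signSub n M), K x = 1 := by
      rw [Finset.sum_filter_of_ne, hsum]
      intro x _ hx
      by_contra hnx
      refine hx (Subtype.ext ?_)
      simpa [hK, AddSubmonoidClass.coe_finsetSum, e, fMR, coe_compR, act] using
        frame_kernel h (g := x) fun hs => hnx (pm_one_of_isSign h hs)
    have hconst : ∀ x ∈ Finset.univ.filter (fun x => x ∈ signSub n M), K x = K 1 := by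
      intro x hx
      refine Finset.sum_congr rfl fun i _ => ?_
      congr 1
      refine Subtype.ext ?_
      exact (isSign_of_pm (Finset.mem_filter.1 hx).2 P.S _ (e i).2).trans (act_one (e i).2).symm
    rw [Finset.sum_congr rfl hconst, Finset.sum_const, nsmul_eq_mul] at hsplit
    rw [redSer_compR, mul_one]
    intro h0
    have h1 := congrArg (P.redSer (colLift g)) hsplit
    rw [map_mul, map_one, h0, mul_zero] at h1
    exact zero_ne_one h1
  · rw [map_sum]
    refine Finset.sum_congr rfl fun i _ => ?_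
    rw [map_mul]
    congr 1
    refine Subtype.ext ?_
    show comp _ _ = comp (comp _ _) _
    rw [comp_comp]
    refine MemR.comp_eq_of_redM_eq (fE_mem h P.zr_le i) ?_
    rw [map_mul, redM_sheetLift]
    simp [s, sheetOf]

include h in
theorem redSer_ne_zero_all {x : ringR M P.S} (hx : P.redSer 1 x ≠ 0) (γ : SL(2, ℤ)) :
    P.redSer γ x ≠ 0 := fun h0 => hx (by
  have h1 : P.redSer 1 (compR M P.S γ x) = 0 := by rw [redSer_compR, mul_one]; exact h0
  have h2 := redSer_eq_zero' P h h1 γ⁻¹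
  rwa [redSer_compR, mul_inv_cancel] at h2)

variable {φ : Additive (Gamma M) →+ Additive ℂˣ}

/-- A tuple whose determinant is not zero modulo the place. -/
theorem exists_start (hℓ : 0 < ℓ) (hφ : φ ∈ Chr M ℓ) {y : ℍ → ℂ} (hy : IsMS ℓ P φ y)
    (hne : P.redSer 1 (⟨y ^ ℓ, hy.pow⟩ : ringR M P.S) ≠ 0) :
    ∃ (Y : Cl n M → ℍ → ℂ) (hY : ∀ a, IsMS ℓ P φ (Y a)),
      P.redSer 1 (inclB (colDB hℓ h hφ hY)) ≠ 0 := by
  classical
  choose u hu0 hu1 hu using frame_pair P h
  set A : Matrix (Cl n M) (FIdx h) (LaurentSeries (P.S ⧸ P.mI)) :=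
    fun g i => P.redSer 1 (compR M P.S (colLift g) ⟨_, fE_mem h P.zr_le i⟩) with hA
  set B : Matrix (FIdx h) (Cl n M) (LaurentSeries (P.S ⧸ P.mI)) :=
    fun i g => P.redSer 1 (compR M P.S (colLift g) (fMR h P.zr_le i)) with hB
  have hAB : A * B = Matrix.diagonal fun g => P.redSer 1 (u g g) := by
    refine Matrix.ext fun g g' => ?_
    rw [Matrix.mul_apply]
    simp only [hA, hB, ← map_mul, ← map_sum, hu g g']
    by_cases hg : g = g'
    · subst hg; rw [Matrix.diagonal_apply_eq]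
    · rw [Matrix.diagonal_apply_ne _ hg, hu0 g g' hg, map_zero]
  have hdet : (A * B).det ≠ 0 := by
    rw [hAB, Matrix.det_diagonal]
    exact Finset.prod_ne_zero_iff.2 fun g _ => hu1 g g rfl
  rw [det_mul_expand] at hdet
  obtain ⟨s, -, hs⟩ := Finset.exists_ne_zero_of_sum_ne_zero hdet
  have hminor := (mul_ne_zero_iff.1 hs).2
  set Y : Cl n M → ℍ → ℂ := fun a => y * (fE h (s a) : ℍ → ℂ) with hYdef
  have hY : ∀ a, IsMS ℓ P φ (Y a) := fun a => by
    have h1 := hy.mul (IsMS.of_memR (ℓ := ℓ) (fE_mem h P.zr_le (s a)))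
    rwa [show φ + (0 : Additive (Gamma M) →+ Additive ℂˣ) = φ from
      AddMonoidHom.ext fun x => add_zero (φ x)] at h1
  refine ⟨Y, hY, ?_⟩
  set mn : ringR M P.S := (Matrix.of fun (a : Cl n M) (g : Cl n M) =>
    compR M P.S (colLift g) (⟨_, fE_mem h P.zr_le (s a)⟩ : ringR M P.S)).det with hmn
  have hmn0 : P.redSer 1 mn ≠ 0 := by
    rw [hmn, RingHom.map_det]
    refine fun h0 => hminor ?_
    rw [← Matrix.det_transpose]
    exact h0
  have hkey : inclB (colDB hℓ h hφ hY) =
      (∏ g : Cl n M, compR M P.S (colLift g) ⟨y ^ ℓ, hy.pow⟩) ^ 2 * mn ^ (2 * ℓ) := by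
    refine Subtype.ext (funext fun z => ?_)
    show colDet Y z ^ (2 * ℓ) = _
    have e1 : colDet Y z = (∏ g : Cl n M, y (colLift g • z)) * (mn : ℍ → ℂ) z := by
      rw [colDet, det_apply']
      have e2 : (mn : ℍ → ℂ) z = (Matrix.of fun (a g : Cl n M) =>
          (fE h (s a) : ℍ → ℂ) (colLift g • z)).det :=
        RingHom.map_det ((Pi.evalRingHom (fun _ : ℍ => ℂ) z).comp (ringR M P.S).subtype) _
      rw [e2, ← Matrix.det_mul_row]
      rfl
    rw [e1, Subring.coe_mul, Pi.mul_apply, SubmonoidClass.coe_pow, SubmonoidClass.coe_pow,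
      Pi.pow_apply, Pi.pow_apply, SubmonoidClass.coe_finsetProd, Finset.prod_apply, mul_pow]
    congr 1
    rw [← Finset.prod_pow, ← Finset.prod_pow]
    refine Finset.prod_congr rfl fun g _ => ?_
    show y (colLift g • z) ^ (2 * ℓ) = ((y ^ ℓ) (colLift g • z)) ^ 2
    rw [Pi.pow_apply, ← pow_mul, mul_comm]
  rw [hkey, map_mul, map_pow, map_pow, map_prod]
  refine mul_ne_zero (pow_ne_zero _ (Finset.prod_ne_zero_iff.2 fun g _ => ?_)) (pow_ne_zero _ hmn0)
  rw [redSer_compR, mul_one]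
  exact redSer_ne_zero_all P h hne _

/-- One of finitely many algebraic numbers divides all of them. -/
theorem exists_scaled {α : Type*} [Fintype α] (v : α → ℂ) (hv : ∀ i, v i ∈ algC) (hne : v ≠ 0) :
    ∃ i₀, v i₀ ≠ 0 ∧ ∀ i, v i * (v i₀)⁻¹ ∈ P.S := by
  classical
  suffices H : ∀ s : Finset α, (∃ i ∈ s, v i ≠ 0) →
      ∃ i₀, v i₀ ≠ 0 ∧ ∀ i ∈ s, v i * (v i₀)⁻¹ ∈ P.S by
    obtain ⟨i, hi⟩ := Function.ne_iff.1 hne
    obtain ⟨i₀, h0, hall⟩ := H Finset.univ ⟨i, Finset.mem_univ i, hi⟩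
    exact ⟨i₀, h0, fun i => hall i (Finset.mem_univ i)⟩
  intro s
  induction s using Finset.induction_on with
  | empty => simp
  | insert a s _ ih =>
    intro hex
    by_cases hs : ∃ i ∈ s, v i ≠ 0
    · obtain ⟨i₀, h0, hall⟩ := ih hs
      rcases P.mem_or_inv_mem (algC.mul_mem (hv a) ((algebraicClosure ℚ ℂ).inv_mem (hv i₀)))
        with hm | hm
      · exact ⟨i₀, h0, Finset.forall_mem_insert .. |>.2 ⟨hm, hall⟩⟩
      · by_cases ha : v a = 0
        · exact ⟨i₀, h0, Finset.forall_mem_insert .. |>.2 ⟨by simp [ha, P.S.zero_mem], hall⟩⟩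
        refine ⟨a, ha, Finset.forall_mem_insert .. |>.2
          ⟨by rw [mul_inv_cancel₀ ha]; exact P.S.one_mem, fun i hi => ?_⟩⟩
        have e : v i * (v a)⁻¹ = v i * (v i₀)⁻¹ * (v a * (v i₀)⁻¹)⁻¹ := by field_simp
        rw [e]
        exact P.S.mul_mem (hall i hi) hm
    · push Not at hs
      obtain ⟨i, hi, hi0⟩ := hex
      rcases Finset.mem_insert.1 hi with rfl | hi'
      · exact ⟨i, hi0, Finset.forall_mem_insert .. |>.2
          ⟨by rw [mul_inv_cancel₀ hi0]; exact P.S.one_mem, fun j hj => by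
            rw [hs j hj, zero_mul]; exact P.S.zero_mem⟩⟩
      · exact absurd (hs i hi') hi0

open scoped Classical in
/-- The number of roots away from the cusp values. -/
def offCount (n M : ℕ) (Q : Polynomial ℂ) : ℕ := Q.roots.countP fun a => a ∉ cuspVals n M

open scoped Classical in
theorem offCount_mul {Q R : Polynomial ℂ} (hQ : Q ≠ 0) (hR : R ≠ 0) :
    offCount n M (Q * R) = offCount n M Q + offCount n M R := by
  rw [offCount, Polynomial.roots_mul (mul_ne_zero hQ hR), Multiset.countP_add]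
  rfl

theorem offCount_cuspPoly {S : Subring ℂ} (hS : zr M ≤ S) (k : ℕ) :
    offCount n M ((cuspPoly h hS ^ k).map S.subtype) = 0 := by
  classical
  rw [offCount, Multiset.countP_eq_zero]
  intro a ha
  rw [not_not]
  by_contra hna
  have h1 := (Polynomial.mem_roots'.1 ha).2
  rw [Polynomial.IsRoot.def, Polynomial.map_pow, Polynomial.eval_pow,
    pow_eq_zero_iff'] at h1
  have h2 := h1.1
  rw [cuspPoly, Polynomial.map_prod, Polynomial.eval_prod, Finset.prod_eq_zero_iff] at h2
  obtain ⟨c, -, hc⟩ := h2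
  rw [Polynomial.map_sub, Polynomial.map_X, Polynomial.map_C, Polynomial.eval_sub,
    Polynomial.eval_X, Polynomial.eval_C, sub_eq_zero] at hc
  exact hna (hc ▸ mem_cuspSet.1 c.2)

open Polynomial in
/-- Removing a zero of the determinant. -/
theorem exists_step (hℓ : 0 < ℓ) (hφ : φ ∈ Chr M ℓ) {Y : Cl n M → ℍ → ℂ}
    (hY : ∀ a, IsMS ℓ P φ (Y a)) (hne : P.redSer 1 (inclB (colDB hℓ h hφ hY)) ≠ 0) {e : ℕ}
    {Q : P.S[X]} (hQ : cuspH h P.zr_le ^ e * colDB hℓ h hφ hY = evalT h P.zr_le Q)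
    {a : ℂ} (ha : (Q.map P.S.subtype).IsRoot a) (hac : a ∉ cuspVals n M) :
    ∃ (Y' : Cl n M → ℍ → ℂ) (hY' : ∀ a, IsMS ℓ P φ (Y' a)) (e' : ℕ) (Q' : P.S[X]),
      P.redSer 1 (inclB (colDB hℓ h hφ hY')) ≠ 0 ∧
      cuspH h P.zr_le ^ e' * colDB hℓ h hφ hY' = evalT h P.zr_le Q' ∧
      offCount n M (Q'.map P.S.subtype) < offCount n M (Q.map P.S.subtype) := by
  classical
  have hQ0 : Q ≠ 0 := fun h0 => hne (by
    rw [eq_inv_mul_of_cuspH h P.zr_le hQ, h0, map_zero, mul_zero, map_zero, map_zero])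
  have hQC : Q.map P.S.subtype ≠ 0 :=
    (Polynomial.map_ne_zero_iff Subtype.val_injective).2 hQ0
  have haA : a ∈ algC := mem_algC_of_root
    (fun i => by rw [coeff_map]; exact P.le_algC (Q.coeff i).2) hQC ha
  obtain ⟨z₀, hz₀⟩ := exists_tFun_eq h hac
  have hdet0 : colDet Y z₀ = 0 := by
    have h1 := congrFun (congrArg Subtype.val hQ) z₀
    rw [Subring.coe_mul, Pi.mul_apply, evalT_apply, hz₀, ← eval_map, ha,
      SubmonoidClass.coe_pow, Pi.pow_apply] at h1
    have hH0 : (cuspH h P.zr_le : ℍ → ℂ) z₀ ≠ 0 := by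
      intro h0
      have := congrFun (congrArg Subtype.val (cuspH_mul_inv h P.zr_le)) z₀
      rw [Subring.coe_mul, Pi.mul_apply, h0, zero_mul] at this
      exact zero_ne_one this
    have h2 := (mul_eq_zero.1 h1).resolve_left (pow_ne_zero _ hH0)
    exact eq_zero_of_pow_eq_zero h2
  -- a relation between the rows at `z₀`
  have hval : ∀ b g : Cl n M, Y b (colLift g • z₀) ∈ algC := fun b g => by
    have h1 : (Y b (colLift g • z₀)) ^ ℓ ∈ algC :=
      apply_mem_algC h (((hY b).pow.comp_sl (colLift g)).mono P.le_algC) (z := z₀)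
        (hz₀.symm ▸ haA)
    exact mem_algC_of_root (q := Polynomial.X ^ ℓ - C ((Y b (colLift g • z₀)) ^ ℓ))
      (fun i => by
        rw [coeff_sub, coeff_X_pow, coeff_C]
        refine algC.sub_mem ?_ ?_ <;> split_ifs
        exacts [algC.one_mem, algC.zero_mem, h1, algC.zero_mem])
      (X_pow_sub_C_ne_zero hℓ _) (by simp)
  let Aalg : Matrix (Cl n M) (Cl n M) (algebraicClosure ℚ ℂ) :=
    fun b g => ⟨Y b (colLift g • z₀), hval b g⟩
  have hAalg : Aalg.det = 0 := by
    refine Subtype.ext ?_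
    have h1 : (algebraMap (algebraicClosure ℚ ℂ) ℂ) Aalg.det = 0 := by
      rw [RingHom.map_det]
      rw [colDet, det_apply'] at hdet0
      exact hdet0
    exact h1
  obtain ⟨v, hv0, hv⟩ := Matrix.exists_vecMul_eq_zero_iff.2 hAalg
  obtain ⟨a₀, ha₀, hsc⟩ := exists_scaled P (fun b => (v b : ℂ)) (fun b => (v b).2)
    (fun e => hv0 (funext fun b => Subtype.ext (congrFun e b)))
  set lam : Cl n M → P.S := fun b => ⟨(v b : ℂ) * ((v a₀ : ℂ))⁻¹, hsc b⟩ with hlam
  have hlam0 : (lam a₀ : ℂ) = 1 := mul_inv_cancel₀ ha₀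
  set num : ℍ → ℂ := ∑ b, (fun _ => (lam b : ℂ)) * Y b with hnum
  have hnumMS : IsMS ℓ P φ num := IsMS.sum _ h hℓ hφ fun b _ => (hY b).smul_mem (lam b).2
  have hnum0 : ∀ z, tFun n M z = a → num z = 0 := fun z hz => by
    obtain ⟨δ, hδ, rfl⟩ := tFun_fibre h (hz₀.trans hz.symm)
    obtain ⟨ε, hε⟩ := apply_smul_eq (M := M) hδ hnumMS.cfun
    rw [hε]
    refine mul_eq_zero_of_right _ ?_
    have h1 := congrArg Subtype.val
      (congrFun hv (QuotientGroup.mk (sheetOf (M := M) hδ)))
    simp only [Matrix.vecMul, dotProduct, AddSubmonoidClass.coe_finsetSum, MulMemClass.coe_mul,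
      Pi.zero_apply, ZeroMemClass.coe_zero] at h1
    simp only [hnum, Finset.sum_apply, Pi.mul_apply, hlam]
    rw [← zero_mul ((v a₀ : ℂ))⁻¹, ← h1, Finset.sum_mul]
    exact Finset.sum_congr rfl fun b _ => mul_right_comm _ _ _
  -- the primitive multiple of `t - a`
  obtain ⟨κ, ν, hκ0, hν, hunit⟩ : ∃ κ ν : P.S, (κ : ℂ) ≠ 0 ∧ (ν : ℂ) = κ * a ∧ (κ = 1 ∨ ν = 1) := by
    rcases P.mem_or_inv_mem haA with haS | haS
    · exact ⟨1, ⟨a, haS⟩, one_ne_zero, by simp, Or.inl rfl⟩
    · by_cases h0 : a = 0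
      · exact ⟨1, 0, one_ne_zero, by simp [h0], Or.inl rfl⟩
      · exact ⟨⟨_, haS⟩, 1, inv_ne_zero h0, (inv_mul_cancel₀ h0).symm, Or.inr rfl⟩
  set T : P.S[X] := C κ * Polynomial.X - C ν with hT
  set τ := evalT h P.zr_le T with hτ
  have hτapp : ∀ z, (τ : ℍ → ℂ) z = (κ : ℂ) * (tFun n M z - a) := fun z => by
    rw [hτ, evalT_apply, hT]
    simp [hν]
    ring
  have hτred : P.redSer 1 (inclB τ) ≠ 0 := fun h0 => by
    rcases hunit with e | e
    · have h1 := coeff_mem_of_redSer_one P h h0 1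
      rw [hT, coeff_sub, coeff_C_mul, coeff_X_one, mul_one, coeff_C_succ, sub_zero, e] at h1
      exact P.isUnit_iff.1 isUnit_one h1
    · have h1 := coeff_mem_of_redSer_one P h h0 0
      rw [hT, coeff_sub, coeff_C_mul, coeff_X_zero, mul_zero, coeff_C_zero, zero_sub, e] at h1
      exact P.isUnit_iff.1 isUnit_one.neg h1
  have hτhol : IsHol (τ : ℍ → ℂ) := τ.2.1.hol
  have hτne : (τ : ℍ → ℂ) ≠ 0 := fun e => hτred (by
    rw [show τ = 0 from Subtype.ext e, map_zero, map_zero])
  obtain ⟨y', hy'hol, hy'⟩ := exists_hol_div hnumMS.cfun.hol hτhol fun z hz => by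
    rw [hτapp, mul_eq_zero] at hz
    have hz' : tFun n M z = a := sub_eq_zero.1 (hz.resolve_left hκ0)
    refine ⟨hnum0 z hz', ?_⟩
    have he : ((τ : ℍ → ℂ) ∘ ofComplex) = fun w => (κ : ℂ) * ((tFun n M ∘ ofComplex) w - a) :=
      funext fun w => hτapp _
    rw [he, deriv_const_mul_field, deriv_sub_const]
    exact mul_ne_zero hκ0 (tFun_deriv_ne_zero h z)
  have hy'mul : ∀ z, (τ : ℍ → ℂ) z * y' z = num z := fun z => congrFun hy' z
  have hy'cf : IsCFun M φ y' := by
    refine ⟨hy'hol, fun δ z => ?_, fun γ => ?_⟩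
    · have he : comp y' (δ : SL(2, ℤ)) = fun w => chrVal φ δ * y' w := by
        refine hol_cancel (isHol_comp hy'hol _) ((differentiableOn_const (c := chrVal φ δ)).mul
          hy'hol) hτhol hτne (funext fun w => ?_)
        have h1 := hy'mul ((δ : SL(2, ℤ)) • w)
        rw [show (τ : ℍ → ℂ) ((δ : SL(2, ℤ)) • w) = (τ : ℍ → ℂ) w from
          congrFun (τ.2.1.inv δ δ.2) w, hnumMS.cfun.smul, ← hy'mul w] at h1
        show y' ((δ : SL(2, ℤ)) • w) * _ = chrVal φ δ * y' w * _
        linear_combination h1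
      exact congrFun he z
    · have hT' : HasExpIn M P.S (comp (τ : ℍ → ℂ) γ) := τ.2.1.expansion γ
      refine ⟨_, ((hnumMS.cfun.expansion γ).hasQExp.div natM_pos hT'.hasQExp).congr ?_,
        fun k => Subring.mem_top _⟩
      filter_upwards [hT'.hasQExp.eventually_ne_zero natM_pos
        (qser_comp_ne_zero τ.2.1 hτne γ)] with z hz
      show num (γ • z) / (τ : ℍ → ℂ) (γ • z) = y' (γ • z)
      rw [← hy'mul]
      exact mul_div_cancel_left₀ _ hz
  have hy'MS : IsMS ℓ P φ y' := by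
    refine ⟨hy'cf, memR_S_of_mul P h (memR_pow_of_isCFun hφ hy'cf) (b := inclB τ ^ ℓ)
      (by rw [map_pow]; exact pow_ne_zero _ hτred) ?_⟩
    have e1 : y' ^ ℓ * ((inclB τ ^ ℓ : ringR M P.S) : ℍ → ℂ) = num ^ ℓ := by
      rw [SubmonoidClass.coe_pow, ← mul_pow, mul_comm y']
      exact congrArg (· ^ ℓ) hy'
    rw [e1]
    exact hnumMS.pow
  set Y' := Function.update Y a₀ y' with hY'def
  have hY' : ∀ b, IsMS ℓ P φ (Y' b) := fun b => by
    rcases eq_or_ne b a₀ with rfl | hb
    · rwa [hY'def, Function.update_self]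
    · rw [hY'def, Function.update_of_ne hb]; exact hY b
  have hτc : ∀ (g : Cl n M) z, (τ : ℍ → ℂ) (colLift g • z) = (τ : ℍ → ℂ) z := fun g z =>
    congrFun (τ.2.2 _ (colLift_mem g)) z
  have hDrel : colDB hℓ h hφ hY' * τ ^ (2 * ℓ) = colDB hℓ h hφ hY := by
    refine Subtype.ext (funext fun z => ?_)
    show colDet Y' z ^ (2 * ℓ) * ((τ ^ (2 * ℓ) : ringB n M P.S) : ℍ → ℂ) z = colDet Y z ^ (2 * ℓ)
    rw [SubmonoidClass.coe_pow, Pi.pow_apply, ← mul_pow]
    congr 1
    rw [colDet, colDet, det_apply', det_apply']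
    have hupd : (colMat Y').map (fun f => f z) = ((colMat Y).map fun f => f z).updateRow a₀
        (fun g => y' (colLift g • z)) := by
      ext b g
      simp only [Matrix.map_apply, colMat, Matrix.of_apply, Matrix.updateRow_apply, comp]
      rcases eq_or_ne b a₀ with rfl | hb
      · rw [if_pos rfl, hY'def, Function.update_self]
      · rw [if_neg hb, hY'def, Function.update_of_ne hb]
    rw [hupd, mul_comm, ← Matrix.det_updateRow_smul]
    have hrow : (τ : ℍ → ℂ) z • (fun g => y' (colLift g • z)) =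
        ∑ b, (lam b : ℂ) • ((colMat Y).map fun f => f z) b := by
      funext g
      rw [Pi.smul_apply, smul_eq_mul, ← hτc g z, hy'mul, Finset.sum_apply, hnum, Finset.sum_apply]
      exact Finset.sum_congr rfl fun b _ => rfl
    rw [hrow, Matrix.det_updateRow_sum, hlam0, one_smul]
  have hne' : P.redSer 1 (inclB (colDB hℓ h hφ hY')) ≠ 0 := fun h0 => hne (by
    rw [← hDrel, map_mul, map_mul, h0, zero_mul])
  obtain ⟨e', Q', hQ'⟩ := exists_cuspH_pow_mul_eq h P.zr_le (colDB hℓ h hφ hY')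
  refine ⟨Y', hY', e', Q', hne', hQ', ?_⟩
  have hpoly : T ^ (2 * ℓ) * Q' * cuspPoly h P.zr_le ^ e = Q * cuspPoly h P.zr_le ^ e' := by
    refine evalT_injective h P.zr_le ?_
    simp only [map_mul, map_pow, evalT_cuspPoly, ← hQ, ← hQ', ← hτ, ← hDrel]
    ring
  have hQ'0 : Q' ≠ 0 := fun h0 => hne' (by
    rw [eq_inv_mul_of_cuspH h P.zr_le hQ', h0, map_zero, mul_zero, map_zero, map_zero])
  have hQ'C : Q'.map P.S.subtype ≠ 0 :=
    (Polynomial.map_ne_zero_iff Subtype.val_injective).2 hQ'0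
  have hc0 : ∀ k, (cuspPoly h P.zr_le ^ k).map P.S.subtype ≠ 0 := fun k =>
    ((cuspPoly_monic h P.zr_le).pow k |>.map _).ne_zero
  have hTmap : T.map P.S.subtype = C (κ : ℂ) * (Polynomial.X - C a) := by
    rw [hT, Polynomial.map_sub, Polynomial.map_mul, map_C, map_X, map_C]
    show C (κ : ℂ) * _ - C (ν : ℂ) = _
    rw [hν, map_mul]
    ring
  have hT0 : T.map P.S.subtype ≠ 0 := by
    rw [hTmap]
    exact mul_ne_zero (C_ne_zero.2 hκ0) (X_sub_C_ne_zero a)
  have h1 := congrArg (fun R : P.S[X] => offCount n M (R.map P.S.subtype)) hpoly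
  simp only [Polynomial.map_mul] at h1
  rw [offCount_mul (mul_ne_zero (by rw [Polynomial.map_pow]; exact pow_ne_zero _ hT0) hQ'C) (hc0 e),
    offCount_mul (by rw [Polynomial.map_pow]; exact pow_ne_zero _ hT0) hQ'C,
    offCount_mul hQC (hc0 e'), offCount_cuspPoly, offCount_cuspPoly, add_zero, add_zero] at h1
  have h2 : 0 < offCount n M ((T ^ (2 * ℓ)).map P.S.subtype) := by
    rw [offCount, Multiset.countP_pos]
    refine ⟨a, ?_, hac⟩
    rw [Polynomial.mem_roots', Polynomial.map_pow, hTmap]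
    refine ⟨pow_ne_zero _ (mul_ne_zero (C_ne_zero.2 hκ0) (X_sub_C_ne_zero a)), ?_⟩
    simp [Polynomial.IsRoot.def, hℓ.ne']
  omega

open Polynomial in
/-- A tuple whose determinant is a unit. -/
theorem exists_unit_tuple (hℓ : 0 < ℓ) (hφ : φ ∈ Chr M ℓ) {y : ℍ → ℂ} (hy : IsMS ℓ P φ y)
    (hne : P.redSer 1 (⟨y ^ ℓ, hy.pow⟩ : ringR M P.S) ≠ 0) :
    ∃ (Y : Cl n M → ℍ → ℂ) (hY : ∀ a, IsMS ℓ P φ (Y a)), IsUnit (colDB hℓ h hφ hY) := by
  classical
  obtain ⟨Y, hY, hYne⟩ := exists_start P h hℓ hφ hy hne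
  obtain ⟨e, Q, hQ⟩ := exists_cuspH_pow_mul_eq h P.zr_le (colDB hℓ h hφ hY)
  obtain ⟨k, hk⟩ : ∃ k, offCount n M (Q.map P.S.subtype) ≤ k := ⟨_, le_rfl⟩
  induction k using Nat.strong_induction_on generalizing Y e Q with
  | _ k ih =>
  by_cases hroot : ∃ a, (Q.map P.S.subtype).IsRoot a ∧ a ∉ cuspVals n M
  · obtain ⟨a, ha, hac⟩ := hroot
    obtain ⟨Y', hY', e', Q', hne', hQ', hlt⟩ := exists_step P h hℓ hφ hY hYne hQ ha hac
    exact ih _ (lt_of_lt_of_le hlt hk) Y' hY' hne' e' Q' hQ' le_rfl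
  push Not at hroot
  refine ⟨Y, hY, ?_⟩
  have hQne : ∃ i, Q.coeff i ∉ P.mI := by
    by_contra hall
    push Not at hall
    have h0 := redSer_evalT_eq_zero P h 1 hall
    rw [← hQ, map_mul, map_mul] at h0
    rcases mul_eq_zero.1 h0 with h1 | h1
    · rw [map_pow, map_pow] at h1
      exact redSer_cuspH_ne_zero P h 1 (eq_zero_of_pow_eq_zero h1)
    · exact hYne h1
  have hsplit := (IsAlgClosed.splits (Q.map P.S.subtype)).eq_prod_roots
  let lift : ℂ → P.S := fun v => if hv : v ∈ cuspVals n M then ⟨v, cusp_mem h P.zr_le hv⟩ else 0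
  set m : Multiset P.S := (Q.map P.S.subtype).roots.map lift with hm
  have hQ0 : Q ≠ 0 := fun h0 => by
    obtain ⟨i, hi⟩ := hQne
    exact hi (by rw [h0, coeff_zero]; exact P.mI.zero_mem)
  have hQeq : Q = C Q.leadingCoeff * (m.map fun v => Polynomial.X - C v).prod := by
    refine Polynomial.map_injective P.S.subtype Subtype.val_injective ?_
    conv_lhs => rw [hsplit]
    rw [Polynomial.map_mul, map_C, leadingCoeff_map_of_injective Subtype.val_injective,
      Polynomial.map_multiset_prod, hm, Multiset.map_map, Multiset.map_map]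
    congr 2
    refine Multiset.map_congr rfl fun v hv => ?_
    have hvc : v ∈ cuspVals n M := by
      by_contra hnc
      exact hnc (hroot v (Polynomial.mem_roots'.1 hv).2)
    simp [lift, hvc]
  have hc : IsUnit Q.leadingCoeff := by
    refine P.isUnit_iff.2 fun hmem => ?_
    obtain ⟨i, hi⟩ := hQne
    refine hi ?_
    rw [hQeq, coeff_C_mul]
    exact P.mI.mul_mem_right _ hmem
  have hunitT : IsUnit (evalT h P.zr_le Q) := by
    rw [hQeq, map_mul, evalT_prod_X_sub_C, evalT_C]
    refine (hc.map _).mul (Multiset.prod_induction _ _ (fun _ _ => IsUnit.mul) isUnit_one ?_)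
    intro x hx
    rw [Multiset.mem_map] at hx
    obtain ⟨v, hv, rfl⟩ := hx
    rw [hm, Multiset.mem_map] at hv
    obtain ⟨r, hr, rfl⟩ := hv
    have hrc : r ∈ cuspVals n M := hroot r (Polynomial.mem_roots'.1 hr).2
    have e1 : lift r = ⟨r, cusp_mem h P.zr_le hrc⟩ := dif_pos hrc
    rw [e1, subT_eq]
    exact IsUnit.of_mul_eq_one _ (sub_mul_invSub h P.zr_le hrc)
  rw [← hQ] at hunitT
  exact isUnit_of_mul_isUnit_right hunitT

include h in
/-- Local generators of the line bundle of a character. -/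
theorem exists_pure (hℓ : 0 < ℓ) (hφ : φ ∈ Chr M ℓ) {y : ℍ → ℂ} (hy : IsMS ℓ P φ y)
    (hne : P.redSer 1 (⟨y ^ ℓ, hy.pow⟩ : ringR M P.S) ≠ 0) :
    ∃ (Y Z : Cl n M → ℍ → ℂ), (∀ a, IsMS ℓ P φ (Y a)) ∧ (∀ a, IsMS ℓ P (-φ) (Z a)) ∧
      ∑ a, Y a * Z a = 1 := by
  classical
  obtain ⟨Y, hY, hu⟩ := exists_unit_tuple P h hℓ hφ hy hne
  obtain ⟨⟨D, Di, hDi, -⟩, rfl : D = _⟩ := hu
  set χ : Cl n M → (Additive (Gamma M) →+ Additive ℂˣ) := fun g => conjLin (colLift g) φ with hχ
  set χ' := Function.update χ 1 0 with hχ'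
  have hχmem : ∀ g, χ g ∈ Chr M ℓ := fun g => conj_mem_chr hφ g
  have hχ'mem : ∀ g, χ' g ∈ Chr M ℓ := fun g => by
    rcases eq_or_ne g 1 with rfl | hg
    · rw [hχ', Function.update_self]; exact zero_mem _
    · rw [hχ', Function.update_of_ne hg]; exact hχmem g
  let W : Cl n M → Matrix (Cl n M) (Cl n M) (ℍ → ℂ) := fun a =>
    (colMat Y).updateCol 1 (Pi.single a 1)
  set Z : Cl n M → ℍ → ℂ := fun a =>
    (W a).det * colDet Y ^ (2 * ℓ - 1) * ((Di : ringB n M P.S) : ℍ → ℂ) with hZ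
  refine ⟨Y, Z, hY, fun a => ?_, ?_⟩
  · have hW : IsMS ℓ P (∑ g, χ' g) (W a).det := by
      refine IsMS.det h hℓ hχ'mem fun b g => ?_
      simp only [W, Matrix.updateCol_apply]
      rcases eq_or_ne g 1 with rfl | hg
      · rw [if_pos rfl, hχ', Function.update_self]
        rcases eq_or_ne b a with rfl | hb
        · rw [Pi.single_eq_same]; exact IsMS.of_memR (ringR M P.S).one_mem
        · rw [Pi.single_eq_of_ne hb]; exact IsMS.zero hℓ.ne' 0
      · rw [if_neg hg, hχ', Function.update_of_ne hg]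
        exact (hY b).comp_sl _
    have h1 := (hW.mul ((isMS_colDet hℓ h hφ hY).npow (2 * ℓ - 1))).mul
      (IsMS.of_memR (ℓ := ℓ) Di.2.1)
    convert h1 using 1
    have hsum : ∑ g, χ g = φ + ∑ g, χ' g := by
      rw [← Finset.add_sum_erase _ _ (Finset.mem_univ (1 : Cl n M)),
        ← Finset.add_sum_erase _ _ (Finset.mem_univ (1 : Cl n M)), hχ', Function.update_self,
        Finset.sum_congr rfl fun g hg => Function.update_of_ne (Finset.ne_of_mem_erase hg) _ _]
      have hone : χ 1 = φ := by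
        refine AddMonoidHom.ext fun δ => ?_
        simp only [hχ, colLift_one]
        refine congrArg φ (Additive.toMul.injective (Subtype.ext ?_))
        simp
      rw [hone]
      refine AddMonoidHom.ext fun δ => ?_
      simp only [AddMonoidHom.add_apply, AddMonoidHom.zero_apply, zero_add]
    have hzero : ℓ • (∑ g, χ g) = 0 := (sum_mem fun g _ => hχmem g : (∑ g, χ g) ∈ Chr M ℓ).2
    refine AddMonoidHom.ext fun δ => ?_
    have e2 := DFunLike.congr_fun hzero δ
    have e3 := DFunLike.congr_fun hsum δ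
    simp only [AddMonoidHom.coe_finsetSum, Finset.sum_apply, AddMonoidHom.add_apply,
      AddMonoidHom.neg_apply, AddMonoidHom.zero_apply, hχ] at e2 e3 ⊢
    have e4 : ∀ (c : Additive ℂˣ) (k : ℕ), 0 < k → (2 * k - 1) • c + c = k • c + k • c := fun c k hk => by
      rw [← succ_nsmul, Nat.sub_add_cancel (by omega), two_mul, add_nsmul]
    have e5 := e4 (∑ g : Cl n M, (conjLin (colLift g) φ) δ) ℓ hℓ
    have e2' : ℓ • (∑ g : Cl n M, (conjLin (colLift g) φ) δ) = 0 := by
      simpa [Finset.sum_apply] using e2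
    rw [e2', add_zero] at e5
    rw [add_zero]
    have e6 : (2 * ℓ - 1) • (∑ g : Cl n M, (conjLin (colLift g) φ) δ) =
        -(∑ g : Cl n M, (conjLin (colLift g) φ) δ) := eq_neg_of_add_eq_zero_left e5
    have hsm : ∀ (k : ℕ) (F : Additive (Gamma M) →+ Additive ℂˣ), (k • F) δ = k • F δ :=
      fun _ _ => rfl
    simp only [hsm, AddMonoidHom.coe_finsetSum, Finset.sum_apply]
    rw [e6, e3]
    abel
  · funext z
    rw [Finset.sum_apply, Pi.one_apply]
    simp only [hZ, Pi.mul_apply]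
    have hcr : ∑ a, Y a z * (W a).det z = colDet Y z := by
      set A := (colMat Y).map fun f => f z with hA
      have e1 : ∀ a, (W a).det z = Matrix.cramer A (Pi.single a 1) 1 := fun a => by
        rw [det_apply', Matrix.cramer_apply]
        congr 1
        ext b g
        simp only [W, Matrix.map_apply, Matrix.updateCol_apply, hA]
        split_ifs
        · rcases eq_or_ne b a with rfl | hb
          · simp
          · simp [Pi.single_eq_of_ne hb]
        · rfl
      have e2 : ∀ a, Y a z = A a 1 := fun a => by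
        simp [hA, colMat, colLift_one, comp]
      simp only [e1, e2]
      have e3 : ∀ a, A a 1 * Matrix.cramer A (Pi.single a 1) 1 =
          (A a 1 • Matrix.cramer A (Pi.single a 1)) 1 := fun a => rfl
      simp only [e3, ← map_smul, ← Finset.sum_apply, ← map_sum]
      have e4 : ∑ a, A a 1 • (Pi.single a 1 : Cl n M → ℂ) = fun a => A a 1 := by
        funext b
        rw [Finset.sum_apply, Finset.sum_eq_single b]
        · simp
        · intro a _ hab; simp [Pi.single_eq_of_ne (Ne.symm hab)]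
        · simp
      rw [e4, Matrix.cramer_apply, show A.updateCol 1 (fun a => A a 1) = A from ?_, colDet,
        det_apply', hA]
      ext b g
      rw [Matrix.updateCol_apply]
      split_ifs with hg
      · rw [hg]
      · rfl
    have hD := congrFun (congrArg Subtype.val hDi) z
    rw [Subring.coe_mul, Pi.mul_apply] at hD
    calc ∑ a, Y a z * ((W a).det z * colDet Y z ^ (2 * ℓ - 1) * ((Di : ringB n M P.S) : ℍ → ℂ) z)
        = (∑ a, Y a z * (W a).det z) * colDet Y z ^ (2 * ℓ - 1) *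
            ((Di : ringB n M P.S) : ℍ → ℂ) z := by
          rw [Finset.sum_mul, Finset.sum_mul]
          exact Finset.sum_congr rfl fun a _ => by ring
      _ = colDet Y z ^ (2 * ℓ) * ((Di : ringB n M P.S) : ℍ → ℂ) z := by
          rw [hcr, ← pow_succ', Nat.sub_add_cancel (by omega)]
      _ = 1 := hD

end FLTAgent.Gamma1.Lv
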