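import Fermat.Agent.Gamma1.Coords
import Fermat.Agent.Gamma1.Lv.Val
import Fermat.Agent.Gamma1.Lv.SerAlg

/-!
# Reduction of functions of level `M` at the place

`Plc.redAll` takes all reduced expansions together. A polynomial in the Hauptmodul `t` with a
coefficient outside the maximal ideal has nonzero reduction at every cusp
(`redSer_evalT_ne_zero`, by splitting it modulo the place), so the reductions of the base ring
vanish at all cusps or at none (`redB_eq_zero`). Scaling by constants: `exists_primitive` and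
`exists_small_dvd` (a function with all reductions zero is divisible by a small constant).
-/

set_option autoImplicit false
set_option linter.unusedSectionVars false

noncomputable section

open UpperHalfPlane CongruenceSubgroup ModularCurve Polynomial
open scoped MatrixGroups

namespace FLTAgent.Gamma1.Lv

open FLTAgent.Modular

variable {n M : ℕ} [NeZero M] {S : Subring ℂ}

variable (M S) in
/-- Translation of the cusps. -/
def compR (c : SL(2, ℤ)) : ringR M S →+* ringR M S :=
  ((compHom c).comp (ringR M S).subtype).codRestrict (ringR M S) fun x => MemR.comp_sl x.2 c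

theorem coe_compR (c : SL(2, ℤ)) (x : ringR M S) :
    (compR M S c x : ℍ → ℂ) = comp (x : ℍ → ℂ) c := rfl

theorem serS_compR (c γ : SL(2, ℤ)) (x : ringR M S) :
    serS M S γ (compR M S c x) = serS M S (c * γ) x := by
  refine coeffMap_subtype_injective ?_
  rw [coeffMap_serS, coeffMap_serS, serHom_apply, serHom_apply, coe_compR, comp_comp]

theorem serS_congr {γ δ : SL(2, ℤ)} (x : ringR M S)
    (h : comp (x : ℍ → ℂ) γ = comp (x : ℍ → ℂ) δ) : serS M S γ x = serS M S δ x := by
  refine coeffMap_subtype_injective ?_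
  rw [coeffMap_serS, coeffMap_serS, serHom_apply, serHom_apply, h]

variable (M S) in
/-- A constant. -/
def constR : S →+* ringR M S where
  toFun c := ⟨fun _ => (c : ℂ), memR_const c.2⟩
  map_one' := rfl
  map_mul' _ _ := rfl
  map_zero' := rfl
  map_add' _ _ := rfl

theorem inclB_constB (c : S) : inclB (constB n M S c) = constR M S c := rfl

theorem serS_constR (γ : SL(2, ℤ)) (c : S) :
    serS M S γ (constR M S c) = HahnSeries.C c := by
  refine coeffMap_subtype_injective ?_
  rw [coeffMap_serS, coeffMap_C, serHom_apply]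
  exact qser_const (M := M) (c : ℂ)

section poly

variable (h : IsLevel n M) (hS : zr M ≤ S)

/-- `∏ (X - c)` over the finite cusp values. -/
def cuspPoly : S[X] :=
  ∏ c ∈ (cuspSet h).attach, (X - C ⟨c, cusp_mem h hS (mem_cuspSet.mp c.2)⟩)

theorem evalT_cuspPoly : evalT h hS (cuspPoly h hS) = cuspH h hS := by
  rw [cuspPoly, cuspH, map_prod]
  exact Finset.prod_congr rfl fun c _ => by rw [map_sub, evalT_X, evalT_C]

theorem cuspPoly_monic : (cuspPoly h hS).Monic := monic_prod_of_monic _ _ fun _ _ => monic_X_sub_C _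

/-- `1 / h`. -/
def cuspHInv : ringB n M S := ∏ c ∈ (cuspSet h).attach, invSub h hS (mem_cuspSet.mp c.2)

theorem cuspH_mul_inv : cuspH h hS * cuspHInv h hS = 1 := by
  rw [cuspH, cuspHInv, ← Finset.prod_mul_distrib]
  exact Finset.prod_eq_one fun c _ => sub_mul_invSub h hS _

theorem eq_inv_mul_of_cuspH {e : ℕ} {x y : ringB n M S} (he : cuspH h hS ^ e * x = y) :
    x = cuspHInv h hS ^ e * y := by
  rw [← he, ← mul_assoc, ← mul_pow, mul_comm (cuspHInv h hS), cuspH_mul_inv, one_pow, one_mul]

/-- `t - a`. -/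
def subT (a : S) : ringB n M S := evalT h hS (X - C a)

theorem subT_eq (a : S) : subT h hS a = tB h hS - constB n M S a := by
  rw [subT, map_sub, evalT_X, evalT_C]

theorem subT_apply (a : S) (z : ℍ) : (subT h hS a : ℍ → ℂ) z = tFun n M z - a := by
  rw [subT_eq]; rfl

theorem evalT_injective : Function.Injective (evalT h hS) := by
  rw [injective_iff_map_eq_zero]
  intro Q hQ
  by_contra hne
  obtain ⟨u, -, hu⟩ := tB_unit h hS
  have h1 := (lowBd_evalT h hS Q Q.natDegree le_rfl).2
  rw [hQ, map_zero, HahnSeries.coeff_zero] at h1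
  rcases mul_eq_zero.mp h1.symm with h2 | h2
  · exact leadingCoeff_ne_zero.mpr hne (Subtype.ext h2)
  · rw [eq_zero_of_pow_eq_zero h2, zero_mul] at hu
    exact zero_ne_one hu

theorem evalT_apply (Q : S[X]) (z : ℍ) :
    (evalT h hS Q : ℍ → ℂ) z = Q.eval₂ S.subtype (tFun n M z) := by
  induction Q using Polynomial.induction_on' with
  | add p q hp hq => rw [map_add, eval₂_add, Subring.coe_add, Pi.add_apply, hp, hq]
  | monomial d r =>
    rw [← C_mul_X_pow_eq_monomial, map_mul, map_pow, evalT_C, evalT_X, eval₂_mul, eval₂_C,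
      eval₂_pow, eval₂_X, Subring.coe_mul, Pi.mul_apply, SubmonoidClass.coe_pow, Pi.pow_apply]
    rfl

theorem inclB_evalT (Q : S[X]) :
    inclB (evalT h hS Q) = Q.eval₂ (constR M S) (inclB (tB h hS)) := by
  rw [evalT, coe_eval₂RingHom, hom_eval₂]
  rfl

/-- Coordinates as sums of translates. -/
theorem inclB_coord (i : FIdx h) (x : ringR M S) :
    inclB (coord h hS i x) =
      ∑ g : sheetGrp n M, compR M S (sheetLift g) (x * ⟨_, fE_mem h hS i⟩) := by
  refine Subtype.ext ?_
  rw [AddSubmonoidClass.coe_finsetSum]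
  rfl

theorem act_memB (g : sheetGrp n M) (b : ringB n M S) :
    compR M S (sheetLift g) (inclB b) = inclB b :=
  Subtype.ext (b.2.2 _ (sheetLift_mem g))

theorem coord_mul (i : FIdx h) (b : ringB n M S) (x : ringR M S) :
    coord h hS i (inclB b * x) = b * coord h hS i x := by
  refine Subring.inclusion_injective ringB_le ?_
  show inclB (coord h hS i (inclB b * x)) = inclB (b * coord h hS i x)
  rw [map_mul, inclB_coord, inclB_coord, Finset.mul_sum]
  refine Finset.sum_congr rfl fun g _ => ?_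
  rw [mul_assoc, map_mul, act_memB]

theorem coord_add (i : FIdx h) (x y : ringR M S) :
    coord h hS i (x + y) = coord h hS i x + coord h hS i y := by
  refine Subring.inclusion_injective ringB_le ?_
  show inclB (coord h hS i (x + y)) = inclB (coord h hS i x + coord h hS i y)
  rw [map_add, inclB_coord, inclB_coord, inclB_coord, ← Finset.sum_add_distrib]
  exact Finset.sum_congr rfl fun g _ => by rw [add_mul, map_add]

end poly

/-! ### At the place -/

variable (P : Plc M)

theorem redSer_coeff (γ : SL(2, ℤ)) (x : ringR M P.S) (k : ℤ) :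
    (P.redSer γ x).coeff k = Ideal.Quotient.mk P.mI ((serS M P.S γ x).coeff k) := rfl

theorem redSer_compR (c γ : SL(2, ℤ)) (x : ringR M P.S) :
    P.redSer γ (compR M P.S c x) = P.redSer (c * γ) x :=
  congrArg P.red (serS_compR c γ x)

theorem redSer_congr {γ δ : SL(2, ℤ)} (x : ringR M P.S)
    (h : comp (x : ℍ → ℂ) γ = comp (x : ℍ → ℂ) δ) : P.redSer γ x = P.redSer δ x :=
  congrArg P.red (serS_congr x h)

theorem redSer_constR (γ : SL(2, ℤ)) (c : P.S) :
    P.redSer γ (constR M P.S c) = HahnSeries.C (Ideal.Quotient.mk P.mI c) := by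
  rw [Plc.redSer, RingHom.comp_apply, serS_constR, Plc.red, coeffMap_C]

theorem redSer_constR_of_mem (γ : SL(2, ℤ)) {c : P.S} (hc : c ∈ P.mI) :
    P.redSer γ (constR M P.S c) = 0 := by
  rw [redSer_constR, Ideal.Quotient.eq_zero_iff_mem.2 hc, map_zero]

variable (M) in
/-- All reductions together. -/
def Plc.redAll : ringR M P.S →+* (SL(2, ℤ) → LaurentSeries (P.S ⧸ P.mI)) :=
  RingHom.pi fun γ => P.redSer γ

theorem redAll_apply (x : ringR M P.S) (γ : SL(2, ℤ)) : P.redAll M x γ = P.redSer γ x := rfl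

theorem redAll_eq_zero_iff {x : ringR M P.S} :
    P.redAll M x = 0 ↔ ∀ γ, P.redSer γ x = 0 := funext_iff

section base

variable (h : IsLevel n M)

/-- The reduction of a polynomial in the Hauptmodul only depends on the reduced polynomial. -/
theorem redSer_evalT_congr (γ : SL(2, ℤ)) {Q Q' : P.S[X]}
    (e : Q.map (Ideal.Quotient.mk P.mI) = Q'.map (Ideal.Quotient.mk P.mI)) :
    P.redSer γ (inclB (evalT h P.zr_le Q)) = P.redSer γ (inclB (evalT h P.zr_le Q')) := by
  have key : ∀ R : P.S[X], P.redSer γ (inclB (evalT h P.zr_le R)) =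
      (R.map (Ideal.Quotient.mk P.mI)).eval₂ HahnSeries.C
        (P.redSer γ (inclB (tB h P.zr_le))) := by
    intro R
    rw [inclB_evalT, hom_eval₂, eval₂_map]
    congr 1
    exact RingHom.ext fun c => redSer_constR P γ c
  rw [key, key, e]

theorem redSer_evalT_eq_zero (γ : SL(2, ℤ)) {Q : P.S[X]} (hQ : ∀ i, Q.coeff i ∈ P.mI) :
    P.redSer γ (inclB (evalT h P.zr_le Q)) = 0 := by
  rw [redSer_evalT_congr P h γ (Q' := 0), map_zero, map_zero, map_zero]
  ext i
  rw [coeff_map, Polynomial.map_zero, coeff_zero, Ideal.Quotient.eq_zero_iff_mem]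
  exact hQ i

theorem coeff_mem_of_redSer_one {Q : P.S[X]}
    (hQ : P.redSer 1 (inclB (evalT h P.zr_le Q)) = 0) (i : ℕ) : Q.coeff i ∈ P.mI := by
  obtain ⟨d, hd⟩ : ∃ d, Q.natDegree ≤ d := ⟨_, le_rfl⟩
  induction d generalizing Q i with
  | zero =>
    rw [eq_C_of_natDegree_le_zero hd, evalT_C, inclB_constB, redSer_constR, map_eq_zero,
      Ideal.Quotient.eq_zero_iff_mem] at hQ
    rcases i with _ | i
    · exact hQ
    · rw [eq_C_of_natDegree_le_zero hd, coeff_C_succ]; exact P.mI.zero_mem
  | succ d ih =>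
    obtain ⟨u, hu, hlu⟩ := tB_unit h P.zr_le
    have htop := (lowBd_evalT h P.zr_le Q (d + 1) hd).2
    have hm : Q.coeff (d + 1) ∈ P.mI := by
      have h1 := congrArg (fun w => w.coeff (-(((d + 1 : ℕ) : ℤ) * width n M))) hQ
      rw [redSer_coeff, HahnSeries.coeff_zero, Ideal.Quotient.eq_zero_iff_mem] at h1
      have h2 := P.mI.mul_mem_right ((⟨u, hu⟩ : P.S) ^ (d + 1)) h1
      convert h2
      refine Subtype.ext ?_
      show (Q.coeff (d + 1) : ℂ) = (serB n M P.S 1 (evalT h P.zr_le Q)).coeff _ * u ^ (d + 1)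
      rw [htop, mul_assoc, ← mul_pow, hlu, one_pow, mul_one]
    set Q' := Q - monomial (d + 1) (Q.coeff (d + 1)) with hQ'
    have hd' : Q'.natDegree ≤ d := by
      rw [natDegree_le_iff_coeff_eq_zero]
      intro m hm
      rw [hQ', coeff_sub, coeff_monomial]
      by_cases hmd : d + 1 = m
      · rw [if_pos hmd, hmd, sub_self]
      · rw [if_neg hmd, sub_zero]
        exact coeff_eq_zero_of_natDegree_lt (by omega)
    have hz : P.redSer 1 (inclB (evalT h P.zr_le Q')) = 0 := by
      rw [hQ', map_sub, map_sub, map_sub, hQ, redSer_evalT_eq_zero P h 1 (fun i => ?_), sub_zero]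
      rw [coeff_monomial]
      split_ifs
      exacts [hm, P.mI.zero_mem]
    by_cases hi : i = d + 1
    · exact hi ▸ hm
    · have := ih hz i hd'
      rwa [hQ', coeff_sub, coeff_monomial, if_neg (Ne.symm hi), sub_zero] at this

/-- `t - a` does not reduce to zero at any cusp. -/
theorem redSer_subT_ne_zero (γ : SL(2, ℤ)) (a : P.S) :
    P.redSer γ (inclB (subT h P.zr_le a)) ≠ 0 := by
  intro hz
  have hcoef : ∀ k, ((serS M P.S γ (inclB (subT h P.zr_le a))).coeff k) ∈ P.mI := fun k => by
    rw [← Ideal.Quotient.eq_zero_iff_mem, ← redSer_coeff, hz, HahnSeries.coeff_zero]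
  have hval : ∀ k, (((serS M P.S γ (inclB (subT h P.zr_le a))).coeff k : P.S) : ℂ) =
      (qser M (comp (tFun n M) γ)).coeff k - (HahnSeries.C (a : ℂ) : LaurentSeries ℂ).coeff k :=
    fun k => by
      show (serB n M P.S γ (subT h P.zr_le a)).coeff k = _
      rw [subT_eq, map_sub, serB_const, HahnSeries.coeff_sub, serB_tB]
  by_cases hγ : IsFiniteCusp n M γ
  · set c := (qser M (comp (tFun n M) γ)).coeff 0 with hc
    have hcv : c ∈ cuspVals n M := cusp_val_mem hγ
    have h0 := hcoef 0
    have hac : (⟨c, cusp_mem h P.zr_le hcv⟩ : P.S) - a ∈ P.mI := by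
      convert h0 using 1
      refine Subtype.ext ?_
      rw [hval 0, HahnSeries.C_apply, HahnSeries.coeff_single_same]
      rfl
    have h1 : P.redSer γ (inclB (subT h P.zr_le ⟨c, cusp_mem h P.zr_le hcv⟩)) = 0 := by
      rw [subT, redSer_evalT_congr P h γ (Q' := X - C a) ?_]
      · exact hz
      · rw [Polynomial.map_sub, Polynomial.map_sub, map_X, map_C, map_C,
          Ideal.Quotient.eq.2 hac]
    have h2 := congrArg (fun x => P.redSer γ (inclB x)) (sub_mul_invSub h P.zr_le hcv)
    simp only [map_mul, map_one, ← subT_eq, h1, zero_mul] at h2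
    exact zero_ne_one h2
  · have hne : ¬ LowBd (qser M (comp (tFun n M) γ)) 0 := hγ
    rw [LowBd] at hne
    push Not at hne
    obtain ⟨i, hi⟩ := tFun_pole_class h γ hne
    have key : serB n M P.S γ (tB h P.zr_le) =
        serB n M P.S (ModularGroup.T ^ (-i)) (tB h P.zr_le) := by
      rcases hi with hi | hi
      · rw [← serB_left (tB h P.zr_le) hi (ModularGroup.T ^ (-i)), mul_assoc, ← zpow_add,
          add_neg_cancel, zpow_zero, mul_one]
      · rw [← serB_left (tB h P.zr_le) hi (ModularGroup.T ^ (-i)), neg_mul, mul_assoc, ← zpow_add,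
          add_neg_cancel, zpow_zero, mul_one, serB_apply, serB_apply, comp_neg]
    have hw := width_pos h
    obtain ⟨u, hu, hlu⟩ := tB_unit h P.zr_le
    rw [serB_tB, comp_one] at hlu
    have h1 := hval (-width n M)
    rw [← serB_tB h P.zr_le, key, serB_tB,
      qser_comp_T_zpow (hf := (comp_one (tFun n M)) ▸ (tFun_memB h).1.expansion 1),
      HahnSeries.C_apply, HahnSeries.coeff_single_of_ne (by omega), sub_zero] at h1
    have hz0 : zeta M ≠ 0 := Complex.exp_ne_zero _
    have hζ : (zeta M) ^ (-((-i) * -width n M)) ∈ P.S := by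
      refine P.mem_of_pow_eq_one (Nat.pos_of_ne_zero (NeZero.ne M)) ?_
      rw [← zpow_natCast, ← zpow_mul, mul_comm _ (M : ℤ), zpow_mul, zpow_natCast,
        show zeta M ^ M = 1 from (Complex.isPrimitiveRoot_exp M (NeZero.ne M)).pow_eq_one, one_zpow]
    refine P.isUnit_iff.1 ?_ (hcoef (-width n M))
    refine isUnit_of_dvd_one ⟨⟨_, P.S.mul_mem hu hζ⟩, Subtype.ext ?_⟩
    show (1 : ℂ) = _ * (u * zeta M ^ (-((-i) * -width n M)))
    rw [h1, zpow_neg]
    field_simp
    linear_combination -hlu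

/-- Splitting a polynomial modulo the place. -/
theorem exists_factor {Q : P.S[X]} (hQ : ∃ i, Q.coeff i ∉ P.mI) :
    ∃ (c : P.S) (as : Multiset P.S), c ∉ P.mI ∧ Q.map (Ideal.Quotient.mk P.mI) =
      (C c * (as.map fun a => X - C a).prod).map (Ideal.Quotient.mk P.mI) := by
  set Qb := Q.map (Ideal.Quotient.mk P.mI) with hQb
  have hne : Qb ≠ 0 := fun h0 => by
    obtain ⟨i, hi⟩ := hQ
    exact hi (Ideal.Quotient.eq_zero_iff_mem.1 (by rw [← coeff_map, ← hQb, h0, coeff_zero]))
  obtain ⟨c, hc⟩ := Ideal.Quotient.mk_surjective Qb.leadingCoeff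
  obtain ⟨as, has⟩ := Multiset.map_surjective_of_surjective (Ideal.Quotient.mk_surjective (I := P.mI))
    Qb.roots
  refine ⟨c, as, fun hm => ?_, ?_⟩
  · rw [Ideal.Quotient.eq_zero_iff_mem.2 hm, eq_comm, leadingCoeff_eq_zero] at hc
    exact hne hc
  · rw [Polynomial.map_mul, map_C, hc, Polynomial.map_multiset_prod, Multiset.map_map]
    conv_lhs => rw [(IsAlgClosed.splits Qb).eq_prod_roots]
    rw [← has, Multiset.map_map]
    simp

theorem evalT_prod_X_sub_C (as : Multiset P.S) :
    evalT h P.zr_le (as.map fun a => X - C a).prod =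
      (as.map fun a => subT h P.zr_le a).prod := by
  rw [map_multiset_prod, Multiset.map_map]
  rfl

theorem redSer_evalT_ne_zero (γ : SL(2, ℤ)) {Q : P.S[X]} (hQ : ∃ i, Q.coeff i ∉ P.mI) :
    P.redSer γ (inclB (evalT h P.zr_le Q)) ≠ 0 := by
  obtain ⟨c, as, hc, e⟩ := exists_factor P hQ
  rw [redSer_evalT_congr P h γ e, map_mul, evalT_C, evalT_prod_X_sub_C, map_mul, map_mul,
    inclB_constB, redSer_constR, map_multiset_prod, map_multiset_prod]
  refine mul_ne_zero ?_ (Multiset.prod_ne_zero fun h0 => ?_)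
  · rw [_root_.map_ne_zero, ne_eq, Ideal.Quotient.eq_zero_iff_mem]
    exact hc
  · rw [Multiset.map_map, Multiset.map_map, Multiset.mem_map] at h0
    obtain ⟨a, -, ha⟩ := h0
    exact redSer_subT_ne_zero P h γ a ha

theorem redSer_cuspH_ne_zero (γ : SL(2, ℤ)) :
    P.redSer γ (inclB (cuspH h P.zr_le)) ≠ 0 := by
  intro h0
  have h1 := congrArg (fun x => P.redSer γ (inclB x)) (cuspH_mul_inv h P.zr_le)
  simp only [map_mul, map_one, h0, zero_mul] at h1
  exact zero_ne_one h1

/-- An element of the base which reduces to zero at one cusp does so at all cusps. -/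
theorem redB_eq_zero (h : IsLevel n M) (γ δ : SL(2, ℤ)) {x : ringB n M P.S} (hx : P.redSer γ (inclB x) = 0) :
    P.redSer δ (inclB x) = 0 := by
  obtain ⟨e, Q, hQ⟩ := exists_cuspH_pow_mul_eq h P.zr_le x
  have h1 : P.redSer γ (inclB (evalT h P.zr_le Q)) = 0 := by
    rw [← hQ, map_mul, map_mul, hx, mul_zero]
  have hall : ∀ i, Q.coeff i ∈ P.mI := by
    by_contra hc
    push Not at hc
    exact redSer_evalT_ne_zero P h γ hc h1
  have h2 := redSer_evalT_eq_zero P h δ hall
  rw [← hQ, map_mul, map_mul, map_pow, map_pow] at h2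
  exact (mul_eq_zero.1 h2).resolve_left (pow_ne_zero _ (redSer_cuspH_ne_zero P h δ))

theorem redAll_coord (i : FIdx h) {x : ringR M P.S} (hx : P.redAll M x = 0) :
    P.redAll M (inclB (coord h P.zr_le i x)) = 0 := by
  rw [redAll_eq_zero_iff] at hx ⊢
  intro γ
  rw [inclB_coord, map_sum]
  refine Finset.sum_eq_zero fun g _ => ?_
  rw [redSer_compR, map_mul, hx, zero_mul]

include h in
/-- Scaling by a constant. -/
theorem exists_primitive {x : ringR M P.S} (hx : x ≠ 0) :
    ∃ (c : P.S) (y : ringR M P.S), c ≠ 0 ∧ x = constR M P.S c * y ∧ P.redAll M y ≠ 0 := by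
  classical
  choose e Q hQ using fun i => exists_cuspH_pow_mul_eq h P.zr_le (coord h P.zr_le i x)
  set idx := (Finset.univ : Finset (FIdx h)).sigma fun i => Finset.range ((Q i).natDegree + 1)
  have hne : ∃ j ∈ idx, (Q j.1).coeff j.2 ≠ 0 := by
    by_contra hh
    push Not at hh
    refine hx ?_
    rw [← sum_coord_mul' h P.zr_le x]
    refine Finset.sum_eq_zero fun i _ => ?_
    have : Q i = 0 := Polynomial.ext fun k => by
      rw [coeff_zero]
      by_cases hk : k ≤ (Q i).natDegree
      · exact hh ⟨i, k⟩ (by simp [idx]; omega)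
      · exact coeff_eq_zero_of_natDegree_lt (not_le.1 hk)
    rw [eq_inv_mul_of_cuspH h P.zr_le (hQ i), this, map_zero, mul_zero, map_zero, zero_mul]
  obtain ⟨j₀, hj₀, hc0, hdvd⟩ := P.exists_dvd_all idx (fun j => (Q j.1).coeff j.2) hne
  set c := (Q j₀.1).coeff j₀.2 with hc
  have hall : ∀ i k, c ∣ (Q i).coeff k := fun i k => by
    by_cases hk : k ≤ (Q i).natDegree
    · exact hdvd ⟨i, k⟩ (by simp [idx]; omega)
    · rw [coeff_eq_zero_of_natDegree_lt (not_le.1 hk)]
      exact dvd_zero c
  choose Q' hQ' using fun i => (C_dvd_iff_dvd_coeff c (Q i)).2 (hall i)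
  set y : ringR M P.S :=
    ∑ i, inclB (cuspHInv h P.zr_le ^ e i * evalT h P.zr_le (Q' i)) * fMR h P.zr_le i with hy
  have hxy : x = constR M P.S c * y := by
    rw [← sum_coord_mul' h P.zr_le x, hy, Finset.mul_sum]
    refine Finset.sum_congr rfl fun i _ => ?_
    rw [eq_inv_mul_of_cuspH h P.zr_le (hQ i), hQ' i, map_mul (evalT h P.zr_le), evalT_C]
    simp only [map_mul, inclB_constB]
    ring
  refine ⟨c, y, hc0, hxy, fun hy0 => ?_⟩
  have hco := redAll_coord P h j₀.1 hy0
  have hcx : coord h P.zr_le j₀.1 x = constB n M P.S c * coord h P.zr_le j₀.1 y := by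
    rw [hxy, ← inclB_constB (n := n), coord_mul]
  have heq : evalT h P.zr_le (Q' j₀.1) = cuspH h P.zr_le ^ e j₀.1 * coord h P.zr_le j₀.1 y := by
    have h1 := hQ j₀.1
    rw [hcx, hQ' j₀.1, map_mul (evalT h P.zr_le), evalT_C, mul_left_comm] at h1
    refine Subtype.ext (funext fun z => ?_)
    have h2 := congrFun (congrArg Subtype.val h1.symm) z
    simp only [Subring.coe_mul, Pi.mul_apply] at h2 ⊢
    exact mul_left_cancel₀ (fun e0 => hc0 (Subtype.ext e0)) h2
  have h0 : P.redSer 1 (inclB (evalT h P.zr_le (Q' j₀.1))) = 0 := by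
    rw [heq, map_mul, map_mul, (redAll_eq_zero_iff P).1 hco 1, mul_zero]
  have hm := coeff_mem_of_redSer_one P h h0 j₀.2
  have h1 : c * (Q' j₀.1).coeff j₀.2 = c := by
    rw [← coeff_C_mul, ← hQ', hc]
  exact P.isUnit_iff.1 (isUnit_one) (mul_left_cancel₀ hc0 (h1.trans (mul_one c).symm) ▸ hm)

include h in
/-- A function all whose reductions vanish is divisible by a small constant. -/
theorem exists_small_dvd {x : ringR M P.S} (hx : P.redAll M x = 0) :
    ∃ π : P.S, π ≠ 0 ∧ π ∈ P.mI ∧ constR M P.S π ∣ x := by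
  by_cases h0 : x = 0
  · exact ⟨_, P.natCast_p_ne_zero, P.natCast_mem_mI, h0 ▸ dvd_zero _⟩
  obtain ⟨c, y, hc, rfl, hy⟩ := exists_primitive P h h0
  refine ⟨c, hc, ?_, dvd_mul_right _ _⟩
  by_contra hm
  obtain ⟨u, hu⟩ := P.isUnit_iff.2 hm
  apply hy
  have : y = constR M P.S (↑u⁻¹ : P.S) * (constR M P.S c * y) := by
    rw [← mul_assoc, ← map_mul, ← hu, Units.inv_mul, map_one, one_mul]
  rw [this, map_mul, hx, mul_zero]

end base

end FLTAgent.Gamma1.Lv
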