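import Fermat.Agent.Gamma1.Lv.Principle

/-!
# Scaling, integrality of roots, algebraicity of values and coefficients

`exists_scale'`: a function with algebraic coefficients has a multiple with nonzero reduction.
Consequences: `memR_S_of_pow` (a function with integral power is integral), `memR_S_of_mul`
(Gauss's lemma). Also `apply_mem_algC` (values where `t` is algebraic are algebraic) and
`exists_field` (all coefficients lie in one number field).
-/

set_option autoImplicit false
set_option linter.unusedSectionVars false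
set_option linter.style.haveILetI false

noncomputable section

open UpperHalfPlane CongruenceSubgroup ModularCurve Polynomial
open scoped MatrixGroups

namespace FLTAgent.Gamma1.Lv

open FLTAgent.Modular

variable {n M : ℕ} [NeZero M] (P : Plc M)

theorem zr_le_algC₀ : zr M ≤ algC := by
  refine Subring.closure_le.2 ?_
  rintro x (rfl | rfl)
  · exact mem_algebraicClosure_iff.2 (isAlgebraic_iff_isIntegral.2
      ((Complex.isPrimitiveRoot_exp M (NeZero.ne M)).isIntegral (NeZero.pos M)).tower_top)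
  · exact (algebraicClosure ℚ ℂ).inv_mem (natCast_mem _ _)

/-- Bounded denominators. -/
theorem exists_denom (h : IsLevel n M) {f : ℍ → ℂ} (hf : MemR M algC f) :
    ∃ d : P.S, d ≠ 0 ∧ MemR M P.S fun z => (d : ℂ) * f z := by
  have hR : ∀ {d : P.S} {g : ℍ → ℂ}, MemR M P.S g → MemR M P.S fun z => (d : ℂ) * g z :=
    fun {d g} hg => (memR_const d.2).mul hg
  let U : Subring (ℍ → ℂ) :=
    { carrier := {f | ∃ d : P.S, d ≠ 0 ∧ MemR M P.S fun z => (d : ℂ) * f z}
      one_mem' := ⟨1, one_ne_zero, by simpa using (memR_const (M := M) P.S.one_mem)⟩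
      zero_mem' := ⟨1, one_ne_zero, by simpa using (memR_const (M := M) P.S.zero_mem)⟩
      add_mem' := by
        rintro a b ⟨d, hd, ha⟩ ⟨d', hd', hb⟩
        refine ⟨d * d', mul_ne_zero hd hd', ?_⟩
        have h1 := (hR (d := d') ha).add (hR (d := d) hb)
        convert h1 using 1
        funext z
        simp only [Pi.add_apply, Subring.coe_mul]
        ring
      mul_mem' := by
        rintro a b ⟨d, hd, ha⟩ ⟨d', hd', hb⟩
        refine ⟨d * d', mul_ne_zero hd hd', ?_⟩
        convert ha.mul hb using 1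
        funext z
        simp only [Pi.mul_apply, Subring.coe_mul]
        ring
      neg_mem' := by
        rintro a ⟨d, hd, ha⟩
        refine ⟨d, hd, ?_⟩
        convert ha.neg using 1
        funext z
        simp }
  refine mem_of_generators h zr_le_algC₀ (U := U) (fun c hc => ?_)
    (fun v w v' w' h1 h2 => ⟨1, one_ne_zero, ?_⟩) (fun c hc => ⟨1, one_ne_zero, ?_⟩) hf
  · rcases P.mem_or_inv_mem hc with hcS | hcS
    · exact ⟨1, one_ne_zero, by simpa using memR_const (M := M) hcS⟩
    · by_cases hc0 : c = 0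
      · exact ⟨1, one_ne_zero, by subst hc0; simpa using memR_const (M := M) P.S.zero_mem⟩
      · refine ⟨⟨_, hcS⟩, fun e => inv_ne_zero hc0 (congrArg Subtype.val e), ?_⟩
        simpa [hc0] using memR_const (M := M) P.S.one_mem
  · simpa using (ratio_mem h.three_le h1 h2).mono P.zr_le
  · convert (invSub h P.zr_le hc).2.1 using 1
    funext z
    simp [invSub]

/-- A function with algebraic coefficients can be scaled to have a nonzero reduction. -/
theorem exists_scale' (h : IsLevel n M) {f : ℍ → ℂ} (hf : MemR M algC f) (hne : f ≠ 0) :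
    ∃ c ∈ algC, c ≠ 0 ∧ ∃ g : ringR M P.S, (g : ℍ → ℂ) = (fun z => c * f z) ∧
      P.redSer 1 g ≠ 0 := by
  obtain ⟨d, hd, hdf⟩ := exists_denom P h hf
  have hd0 : (d : ℂ) ≠ 0 := fun e => hd (Subtype.ext e)
  have hx : (⟨_, hdf⟩ : ringR M P.S) ≠ 0 := fun e => hne (funext fun z => by
    simpa [hd0] using congrFun (congrArg Subtype.val e) z)
  obtain ⟨c, g, hc, hcg, hg⟩ := exists_primitive P h hx
  have hc0 : (c : ℂ) ≠ 0 := fun e => hc (Subtype.ext e)
  refine ⟨(c : ℂ)⁻¹ * d, algC.mul_mem ((algebraicClosure ℚ ℂ).inv_mem (P.le_algC c.2))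
    (P.le_algC d.2), mul_ne_zero (inv_ne_zero hc0) hd0, g, funext fun z => ?_, fun h0 => ?_⟩
  · have h1 : (d : ℂ) * f z = (c : ℂ) * (g : ℍ → ℂ) z := congrFun (congrArg Subtype.val hcg) z
    rw [mul_assoc, h1, ← mul_assoc, inv_mul_cancel₀ hc0, one_mul]
  · exact hg ((redAll_eq_zero_iff P).2 (redSer_eq_zero' P h h0))

/-- Integrality from a scaling. -/
theorem memR_of_scale {c : ℂ} (hc : c ∈ algC) (hc0 : c ≠ 0) {f : ℍ → ℂ} {g : ringR M P.S}
    (hg : (g : ℍ → ℂ) = fun z => c * f z) (hsm : ∀ hcS : c ∈ P.S, (⟨c, hcS⟩ : P.S) ∉ P.mI) :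
    MemR M P.S f := by
  have hinv : c⁻¹ ∈ P.S := by
    rcases P.mem_or_inv_mem hc with hcS | hcS
    · obtain ⟨u, hu⟩ := (P.isUnit_iff.2 (hsm hcS)).exists_right_inv
      rw [inv_eq_of_mul_eq_one_right (congrArg Subtype.val hu : c * (u : ℂ) = 1)]
      exact u.2
    · exact hcS
  have : f = (fun _ => c⁻¹) * (g : ℍ → ℂ) := by
    funext z
    rw [Pi.mul_apply, hg, ← mul_assoc, inv_mul_cancel₀ hc0, one_mul]
  rw [this]
  exact (memR_const hinv).mul g.2

/-- Algebraicity of the coefficients of a quotient of series. -/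
theorem coeff_mem_algC_of_mul {y b : LaurentSeries ℂ} (hb : b ≠ 0) (hbc : ∀ k, b.coeff k ∈ algC)
    (hyb : ∀ k, (y * b).coeff k ∈ algC) (k : ℤ) : y.coeff k ∈ algC := by
  let K := algebraicClosure ℚ ℂ
  obtain ⟨B, hB⟩ : ∃ B : LaurentSeries K, coeffMap (algebraMap K ℂ) B = b :=
    ⟨{ coeff := fun k => ⟨b.coeff k, hbc k⟩
       isPWO_support' := b.isPWO_support'.mono fun k hk hk0 => hk (Subtype.ext hk0) },
      HahnSeries.ext rfl⟩
  obtain ⟨X, hX⟩ : ∃ X : LaurentSeries K, coeffMap (algebraMap K ℂ) X = y * b :=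
    ⟨{ coeff := fun k => ⟨(y * b).coeff k, hyb k⟩
       isPWO_support' := (y * b).isPWO_support'.mono fun k hk hk0 => hk (Subtype.ext hk0) },
      HahnSeries.ext rfl⟩
  have : y = coeffMap (algebraMap K ℂ) (X / B) := by
    rw [map_div₀, hX, hB, mul_div_cancel_right₀ y hb]
  rw [this, coeffMap_coeff]
  exact ((X / B).coeff k).2

/-- A root of an integral function is integral. -/
theorem memR_S_of_pow (h : IsLevel n M) {f : ℍ → ℂ} (hf : MemR M ⊤ f) {e : ℕ} (he : 0 < e)
    (hpow : MemR M P.S (f ^ e)) : MemR M P.S f := by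
  by_cases hf0 : f = 0
  · subst hf0; exact memR_const (c := 0) P.S.zero_mem
  have halg : MemR M algC f := by
    refine ⟨hf.hol, hf.inv, fun γ => ⟨_, (hf.expansion γ).hasQExp, fun k => ?_⟩⟩
    set y := qser M (comp f γ)
    have hy : y ≠ 0 := qser_comp_ne_zero hf hf0 γ
    have hye : ∀ j, (y ^ e).coeff j ∈ algC := fun j => by
      have h1 : qser M (comp (f ^ e) γ) = y ^ e := qser_eq ((hf.expansion γ).hasQExp.pow e)
      rw [← h1]
      exact P.le_algC ((hpow.expansion γ).coeff_mem j)
    have ho : LowBd y y.order := fun _ hk => HahnSeries.coeff_eq_zero_of_lt_order hk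
    have hc0 : y.coeff y.order ≠ 0 := mt HahnSeries.coeff_order_eq_zero.1 hy
    have hc : y.coeff y.order ∈ algC := by
      refine mem_algC_of_root (q := X ^ e - C (y.coeff y.order ^ e)) (fun i => ?_)
        (X_pow_sub_C_ne_zero he _) (by simp)
      rw [coeff_sub, coeff_X_pow, coeff_C]
      refine algC.sub_mem ?_ ?_ <;> split_ifs
      exacts [algC.one_mem, algC.zero_mem, by rw [← coeff_pow_lowBd ho]; exact hye _, algC.zero_mem]
    exact coeff_root_mem algC (Nat.cast_ne_zero.2 he.ne')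
      ((algebraicClosure ℚ ℂ).inv_mem (natCast_mem _ e)) ho hc0 hc
      ((algebraicClosure ℚ ℂ).inv_mem hc) hye k
  obtain ⟨c, hc, hc0, g, hg, hne⟩ := exists_scale' P h halg hf0
  refine memR_of_scale P hc hc0 hg fun hcS hcm => hne ?_
  have h1 : g ^ e = constR M P.S ⟨c, hcS⟩ ^ e * ⟨f ^ e, hpow⟩ := by
    refine Subtype.ext (funext fun z => ?_)
    simp only [SubmonoidClass.coe_pow, Subring.coe_mul, Pi.mul_apply, Pi.pow_apply, hg, mul_pow]
    rfl
  have h2 := congrArg (P.redSer 1) h1
  rw [map_mul, map_pow, map_pow, redSer_constR_of_mem P 1 hcm, zero_pow he.ne', zero_mul] at h2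
  exact eq_zero_of_pow_eq_zero h2

/-- Gauss's lemma. -/
theorem memR_S_of_mul (h : IsLevel n M) {f : ℍ → ℂ} (hf : MemR M ⊤ f) {b : ringR M P.S}
    (hb : P.redSer 1 b ≠ 0) (hmul : MemR M P.S (f * (b : ℍ → ℂ))) : MemR M P.S f := by
  by_cases hf0 : f = 0
  · subst hf0; exact memR_const (c := 0) P.S.zero_mem
  have halg : MemR M algC f := by
    refine ⟨hf.hol, hf.inv, fun γ => ⟨_, (hf.expansion γ).hasQExp, fun k => ?_⟩⟩
    refine coeff_mem_algC_of_mul (b := qser M (comp (b : ℍ → ℂ) γ)) ?_
      (fun k => P.le_algC ((b.2.expansion γ).coeff_mem k)) (fun k => ?_) k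
    · refine qser_comp_ne_zero b.2 (fun e => hb ?_) γ
      rw [show b = 0 from Subtype.ext e, map_zero]
    · rw [← qser_comp_mul (S := ⊤) γ (hf.expansion γ) ((b.2.expansion γ).mono le_top)]
      exact P.le_algC ((hmul.expansion γ).coeff_mem k)
  obtain ⟨c, hc, hc0, g, hg, hne⟩ := exists_scale' P h halg hf0
  refine memR_of_scale P hc hc0 hg fun hcS hcm => hne ?_
  have h1 : g * b = constR M P.S ⟨c, hcS⟩ * ⟨f * (b : ℍ → ℂ), hmul⟩ := by
    refine Subtype.ext (funext fun z => ?_)
    simp only [Subring.coe_mul, Pi.mul_apply, hg]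
    exact mul_assoc c _ _
  have h2 := congrArg (P.redSer 1) h1
  rw [map_mul, map_mul, redSer_constR_of_mem P 1 hcm, zero_mul] at h2
  exact (mul_eq_zero.1 h2).resolve_right hb

/-- Values at points where the Hauptmodul is algebraic are algebraic. -/
theorem apply_mem_algC (h : IsLevel n M) {f : ℍ → ℂ} (hf : MemR M algC f) {z : ℍ}
    (hz : tFun n M z ∈ algC) : f z ∈ algC := by
  classical
  have hA : zr M ≤ algC := zr_le_algC₀
  have hB : ∀ x : ringB n M algC, (x : ℍ → ℂ) z ∈ algC := by
    intro x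
    obtain ⟨e, Q, hQ⟩ := exists_cuspH_pow_mul_eq h hA x
    have hev : ∀ Q : algC[X], (evalT h hA Q : ℍ → ℂ) z ∈ algC := fun Q => by
      rw [evalT_apply, eval₂_eq_sum_range]
      exact sum_mem fun i _ => algC.mul_mem (Q.coeff i).2 (algC.pow_mem hz i)
    have h1 := congrFun (congrArg Subtype.val hQ) z
    rw [Subring.coe_mul, Pi.mul_apply, SubmonoidClass.coe_pow, Pi.pow_apply] at h1
    have hH0 : (cuspH h hA : ℍ → ℂ) z ≠ 0 := by
      intro h0
      have := congrFun (congrArg Subtype.val (cuspH_mul_inv h hA)) z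
      rw [Subring.coe_mul, Pi.mul_apply, h0, zero_mul] at this
      exact zero_ne_one this
    have hH : (cuspH h hA : ℍ → ℂ) z ∈ algC := by
      rw [← evalT_cuspPoly h hA]; exact hev _
    rw [show (x : ℍ → ℂ) z = (evalT h hA Q : ℍ → ℂ) z * ((cuspH h hA : ℍ → ℂ) z ^ e)⁻¹ by
      rw [← h1, mul_comm _ (((x : ringB n M algC) : ℍ → ℂ) z), mul_assoc,
        mul_inv_cancel₀ (pow_ne_zero _ hH0), mul_one]]
    exact algC.mul_mem (hev _) ((algebraicClosure ℚ ℂ).inv_mem (algC.pow_mem hH e))
  set x : ringR M algC := ⟨f, hf⟩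
  set p : (ringR M algC)[X] := ∏ g : sheetGrp n M, (Polynomial.X - C (compR M algC (sheetLift g) x))
    with hp
  have hinv : ∀ γ ∈ Gamma n, p.map (compR M algC γ) = p := by
    intro γ hγ
    let g₀ : sheetGrp n M := ⟨redM M γ, γ, hγ, rfl⟩
    rw [hp, Polynomial.map_prod]
    refine Fintype.prod_equiv (Equiv.mulRight g₀) _ _ fun g => ?_
    rw [Polynomial.map_sub, map_X, map_C]
    congr 2
    refine Subtype.ext ?_
    rw [coe_compR, coe_compR, comp_comp, Equiv.coe_mulRight, coe_compR]
    refine (act_eq_comp hf (γ := sheetLift g * γ) ?_).symm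
    rw [map_mul, redM_sheetLift, Subgroup.coe_mul]
  have hcoef : ∀ i, MemB n M algC (p.coeff i : ℍ → ℂ) := fun i => ⟨(p.coeff i).2, fun γ hγ => by
    have := congrArg (fun q : (ringR M algC)[X] => (q.coeff i : ℍ → ℂ)) (hinv γ hγ)
    simpa [coe_compR] using this⟩
  let ev : ringR M algC →+* ℂ := (Pi.evalRingHom (fun _ => ℂ) z).comp (ringR M algC).subtype
  refine mem_algC_of_root (q := p.map ev) (fun i => ?_) (Monic.ne_zero ?_) ?_
  · rw [coeff_map]
    exact hB ⟨_, hcoef i⟩
  · exact (monic_prod_of_monic _ _ fun _ _ => monic_X_sub_C _).map _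
  · rw [hp, Polynomial.map_prod, eval_prod]
    refine Finset.prod_eq_zero (Finset.mem_univ (1 : sheetGrp n M)) ?_
    rw [Polynomial.map_sub, map_X, map_C, eval_sub, eval_X, eval_C, sub_eq_zero]
    exact (congrFun (act_one (n := n) hf) z).symm

/-- The coefficients of a function lie in a number field. -/
theorem exists_field (h : IsLevel n M) {f : ℍ → ℂ} (hf : MemR M algC f) :
    ∃ L : IntermediateField ℚ ℂ, FiniteDimensional ℚ L ∧
      ∀ γ k, (qser M (comp f γ)).coeff k ∈ L := by
  let U : Subring (ℍ → ℂ) :=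
    { carrier := {f | MemR M algC f ∧ ∃ L : IntermediateField ℚ ℂ, FiniteDimensional ℚ L ∧
        ∀ γ k, (qser M (comp f γ)).coeff k ∈ L}
      one_mem' := ⟨memR_const algC.one_mem, ⊥, inferInstance, fun γ k => by
        rw [show comp (1 : ℍ → ℂ) γ = fun _ => (1 : ℂ) from rfl, qser_const, HahnSeries.C_apply,
          HahnSeries.coeff_single]
        split_ifs
        exacts [one_mem _, zero_mem _]⟩
      zero_mem' := ⟨memR_const algC.zero_mem, ⊥, inferInstance, fun γ k => by
        rw [show comp (0 : ℍ → ℂ) γ = fun _ => (0 : ℂ) from rfl, qser_const, map_zero,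
          HahnSeries.coeff_zero]
        exact zero_mem _⟩
      add_mem' := by
        rintro a b ⟨ha, L, hL, hLa⟩ ⟨hb, L', hL', hLb⟩
        refine ⟨ha.add hb, L ⊔ L', inferInstance, fun γ k => ?_⟩
        rw [show comp (a + b) γ = comp a γ + comp b γ from rfl,
          qser_add' (ha.expansion γ) (hb.expansion γ), HahnSeries.coeff_add]
        exact add_mem (le_sup_left (b := L') (hLa γ k)) (le_sup_right (a := L) (hLb γ k))
      mul_mem' := by
        rintro a b ⟨ha, L, hL, hLa⟩ ⟨hb, L', hL', hLb⟩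
        refine ⟨ha.mul hb, L ⊔ L', inferInstance, fun γ k => ?_⟩
        rw [qser_comp_mul γ (ha.expansion γ) (hb.expansion γ)]
        exact coeff_mul_mem (S := (L ⊔ L').toSubfield.toSubring)
          (fun j => le_sup_left (b := L') (hLa γ j)) (fun j => le_sup_right (a := L) (hLb γ j)) k
      neg_mem' := by
        rintro a ⟨ha, L, hL, hLa⟩
        refine ⟨ha.neg, L, hL, fun γ k => ?_⟩
        rw [show comp (-a) γ = -comp a γ from rfl, qser_eq (ha.expansion γ).hasQExp.neg,
          HahnSeries.coeff_neg]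
        exact neg_mem (hLa γ k) }
  have hzr : ∀ x ∈ zr M, x ∈ IntermediateField.adjoin ℚ ({zeta M} : Set ℂ) := by
    intro x hx
    refine (Subring.closure_le (t := (IntermediateField.adjoin ℚ ({zeta M} : Set ℂ)).toSubfield.toSubring)).2
      ?_ hx
    rintro y (rfl | rfl)
    · exact IntermediateField.mem_adjoin_simple_self ℚ (zeta M)
    · exact (IntermediateField.adjoin ℚ ({zeta M} : Set ℂ)).inv_mem (natCast_mem _ M)
  haveI hζfd : FiniteDimensional ℚ (IntermediateField.adjoin ℚ ({zeta M} : Set ℂ)) :=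
    IntermediateField.adjoin.finiteDimensional
      ((Complex.isPrimitiveRoot_exp M (NeZero.ne M)).isIntegral (NeZero.pos M)).tower_top
  refine (mem_of_generators h zr_le_algC₀ (U := U) (fun c hc => ⟨memR_const hc, ?_⟩)
    (fun v w v' w' h1 h2 => ⟨(ratio_mem h.three_le h1 h2).mono zr_le_algC₀, _, hζfd,
      fun γ k => hzr _ (((ratio_mem h.three_le h1 h2).expansion γ).coeff_mem k)⟩)
    (fun c hc => ⟨(tFun_sub_unit h hc).2.1.mono zr_le_algC₀, _, hζfd,
      fun γ k => hzr _ (((tFun_sub_unit h hc).2.1.expansion γ).coeff_mem k)⟩) hf).2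
  refine ⟨IntermediateField.adjoin ℚ ({c} : Set ℂ), IntermediateField.adjoin.finiteDimensional
    (mem_algebraicClosure_iff.1 hc).isIntegral, fun γ k => ?_⟩
  rw [show comp (fun _ : ℍ => c) γ = fun _ => c from rfl, qser_const, HahnSeries.C_apply,
    HahnSeries.coeff_single]
  split_ifs
  exacts [IntermediateField.mem_adjoin_simple_self ℚ c, zero_mem _]

end FLTAgent.Gamma1.Lv
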